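import Fermat.Agent.LT.Kappa.InstFam
import Fermat.Agent.LT.Tau
import Fermat.Agent.LT.TauXi

/-!
# The action of an automorphism of `L` on all the data of the `S`-arithmetic situation
-/

set_option autoImplicit false

open NumberField IsDedekindDomain HeightOneSpectrum WithZero
open scoped WithZero Topology ComplexConjugate

noncomputable section

namespace Fermat.Agent.LT.Kap

open Fermat.Agent.LT.Loc Fermat.Agent.LT.Ext
open Fermat.Agent.LT.Chr hiding Rf

/-! ### the infinite part -/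

section Inf

variable {F : Type*} [Field F]

open Classical in
/-- comparison of two embeddings of the same place, on `ℂ`. -/
def cmpC (φ ψ : F →+* ℂ) : ℂ ≃+* ℂ := if φ = ψ then RingEquiv.refl ℂ else starRingAut

theorem cmpC_self (φ : F →+* ℂ) (z : ℂ) : cmpC φ φ z = z := by
  unfold cmpC
  rw [if_pos rfl]; rfl

theorem cmpC_of_ne {φ ψ : F →+* ℂ} (h : φ ≠ ψ) (z : ℂ) : cmpC φ ψ z = conj z := by
  unfold cmpC
  rw [if_neg h]; rfl

theorem continuous_cmpC (φ ψ : F →+* ℂ) : Continuous (cmpC φ ψ) := by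
  by_cases h : φ = ψ
  · subst h
    exact continuous_id.congr fun z => (cmpC_self φ z).symm
  · exact Complex.continuous_conj.congr fun z => (cmpC_of_ne h z).symm

theorem re_cmpC (φ ψ : F →+* ℂ) (z : ℂ) : (cmpC φ ψ z).re = z.re := by
  by_cases h : φ = ψ
  · subst h; rw [cmpC_self]
  · rw [cmpC_of_ne h, Complex.conj_re]

theorem cmpC_apply {φ ψ : F →+* ℂ} (h : InfinitePlace.mk φ = InfinitePlace.mk ψ) (a : F) :
    cmpC φ ψ (ψ a) = φ a := by
  by_cases he : φ = ψ
  · subst he; rw [cmpC_self]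
  · rw [cmpC_of_ne he, ← (InfinitePlace.mk_eq_iff.mp h).resolve_left he,
      ComplexEmbedding.conjugate_coe_eq, Complex.conj_conj]

theorem cmp_smul' (φ ψ : F →+* ℂ) (g : GL (Fin 2) ℂ) (P : H3) :
    H3.cmp φ ψ (g • P) =
      Matrix.GeneralLinearGroup.map (n := Fin 2) (cmpC φ ψ : ℂ →+* ℂ) g • H3.cmp φ ψ P := by
  by_cases he : φ = ψ
  · subst he
    rw [H3.cmp_self, H3.cmp_self]
    congr 1
    ext i k
    exact (cmpC_self φ _).symm
  · rw [H3.cmp_of_ne he, H3.cmp_of_ne he, H3.cj_smul]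
    congr 1
    ext i k
    exact (cmpC_of_ne he _).symm

/-- the action on `F_∞` -/
def tauI (τ : F ≃+* F) : Rinf F →+* Rinf F :=
  RingHom.pi fun w => ((cmpC (w.embedding.comp (τ : F →+* F))
    (w.comap (τ : F →+* F)).embedding : ℂ →+* ℂ)).comp
      (Pi.evalRingHom (fun _ : InfinitePlace F => ℂ) (w.comap (τ : F →+* F)))

theorem tauI_apply (τ : F ≃+* F) (z : Rinf F) (w : InfinitePlace F) :
    tauI τ z w = cmpC (w.embedding.comp (τ : F →+* F)) (w.comap (τ : F →+* F)).embedding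
      (z (w.comap (τ : F →+* F))) := rfl

theorem continuous_tauI (τ : F ≃+* F) : Continuous (tauI τ) :=
  continuous_pi fun _ => (continuous_cmpC _ _).comp (continuous_apply _)

theorem tauI_algebraMap (τ : F ≃+* F) (a : F) :
    tauI τ (algebraMap F (Rinf F) a) = algebraMap F (Rinf F) (τ a) := by
  funext w
  exact cmpC_apply (Xi.mk_comp_eq _ w) a

theorem bijective_tauI (τ : F ≃+* F) : Function.Bijective (tauI τ) := by
  constructor
  · intro z z' h
    funext w
    have h1 := congrFun h ((Xi.placePerm τ).symm w)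
    rw [tauI_apply, tauI_apply] at h1
    have h2 := (cmpC _ _).injective h1
    have h3 : ((Xi.placePerm τ).symm w).comap (τ : F →+* F) = w :=
      (Xi.placePerm τ).apply_symm_apply w
    rwa [h3] at h2
  · intro z
    refine ⟨fun w => (cmpC ((((Xi.placePerm τ).symm w).embedding).comp (τ : F →+* F))
      w.embedding).symm (z ((Xi.placePerm τ).symm w)), ?_⟩
    funext w
    rw [tauI_apply]
    have h3 : (Xi.placePerm τ).symm (w.comap (τ : F →+* F)) = w :=
      (Xi.placePerm τ).symm_apply_apply w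
    simp only [h3]
    exact (cmpC _ _).apply_symm_apply _

/-- the automorphism of `F_∞` -/
def tauIe (τ : F ≃+* F) : Rinf F ≃+* Rinf F := RingEquiv.ofBijective (tauI τ) (bijective_tauI τ)

@[simp] theorem coe_tauIe (τ : F ≃+* F) (z : Rinf F) : tauIe τ z = tauI τ z := rfl

theorem tau_smul_inf (τ : F ≃+* F) (g : GL (Fin 2) (Rinf F)) (x : Xi F) :
    Xi.tau τ (g • x) =
      Matrix.GeneralLinearGroup.map (n := Fin 2) (tauIe τ : Rinf F →+* Rinf F) g • Xi.tau τ x := by
  funext w
  rw [Xi.tau_apply, Adapt.inf_smul_apply, cmp_smul', Adapt.inf_smul_apply, Xi.tau_apply]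
  congr 1

theorem sum_tauI [NumberField F] (τ : F ≃+* F) {δ : F} (hδ : τ δ = δ) (z : Rinf F) :
    ∑ w : InfinitePlace F, 2 * (w.embedding δ * tauI τ z w).re =
      ∑ w : InfinitePlace F, 2 * (w.embedding δ * z w).re := by
  rw [← (Xi.placePerm τ).sum_comp (fun w => 2 * (w.embedding δ * z w).re)]
  refine Finset.sum_congr rfl fun w _ => ?_
  have h1 : w.embedding δ = cmpC (w.embedding.comp (τ : F →+* F))
      (w.comap (τ : F →+* F)).embedding ((w.comap (τ : F →+* F)).embedding δ) := by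
    rw [cmpC_apply (Xi.mk_comp_eq _ w)]
    show _ = w.embedding (τ δ)
    rw [hδ]
  rw [tauI_apply, h1, ← map_mul, re_cmpC]
  rfl

/-- a point fixed by all automorphisms -/
def vert (y : ℝ) (hy : 0 < y) : Xi F := fun _ => H3.mk 0 y hy

theorem tau_vert (τ : F ≃+* F) (y : ℝ) (hy : 0 < y) : Xi.tau τ (vert y hy) = vert (F := F) y hy := by
  funext w
  rw [Xi.tau_apply]
  show H3.cmp _ _ (H3.mk 0 y hy) = H3.mk 0 y hy
  unfold H3.cmp
  split_ifs
  · rfl
  · ext
    · rw [H3.z_cj, H3.z_mk, map_zero]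
    · rfl

end Inf

/-! ### the finite part -/

section Fin

variable {L : Type*} [Field L] [NumberField L] {G : Type*} [Group G] [MulSemiringAction G L]
  {S : Finset (HeightOneSpectrum (𝓞 L))}

/-- `S` is stable under `G`. -/
def SStable (G : Type*) [Group G] [MulSemiringAction G L]
    (S : Finset (HeightOneSpectrum (𝓞 L))) : Prop := ∀ (g : G), ∀ w ∈ S, g • w ∈ S

omit [NumberField L] in
theorem SStable.mem_iff (hS : SStable G S) (g : G) (w : HeightOneSpectrum (𝓞 L)) :
    g • w ∈ S ↔ w ∈ S := by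
  refine ⟨fun h => ?_, hS g w⟩
  have := hS g⁻¹ _ h
  rwa [inv_smul_smul] at this

/-- the action on `∏_{w ∈ S} L_w` -/
def tauF (hS : SStable G S) (g : G) : Rf S →+* Rf S :=
  RingHom.pi fun w => (compat_of_smul_eq (L := L) (smul_inv_smul g w.1)).ext.comp
    (Pi.evalRingHom (fun v : S => v.1.adicCompletion L) ⟨g⁻¹ • w.1, hS g⁻¹ _ w.2⟩)

theorem tauF_apply (hS : SStable G S) (g : G) (x : Rf S) (w : S) :
    tauF hS g x w = (compat_of_smul_eq (L := L) (smul_inv_smul g w.1)).ext
      (x ⟨g⁻¹ • w.1, hS g⁻¹ _ w.2⟩) := rfl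

theorem tauF_apply_smul (hS : SStable G S) (g : G) (x : Rf S) {w w' : S}
    (h : g • w.1 = w'.1) : tauF hS g x w' = (compat_of_smul_eq (L := L) h).ext (x w) := by
  have h1 : (⟨g⁻¹ • w'.1, hS g⁻¹ _ w'.2⟩ : S) = w := Subtype.ext (by
    show g⁻¹ • w'.1 = w.1
    rw [← h, inv_smul_smul])
  subst h1
  rfl

theorem continuous_tauF (hS : SStable G S) (g : G) : Continuous (tauF hS g) :=
  continuous_pi fun w =>
    (compat_of_smul_eq (L := L) (smul_inv_smul g w.1)).continuous_ext.comp (continuous_apply _)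

theorem tauF_tauF (hS : SStable G S) (g h : G) (x : Rf S) :
    tauF hS g (tauF hS h x) = tauF hS (g * h) x := by
  funext w
  have h1 : h • ((g * h)⁻¹ • w.1) = g⁻¹ • w.1 := by
    rw [mul_inv_rev, mul_smul, smul_inv_smul]
  rw [tauF_apply, tauF_apply_smul hS h x (w := ⟨(g * h)⁻¹ • w.1, hS _ _ w.2⟩) h1, tauF_apply]
  exact congrArg (fun f : _ →+* _ => f (x ⟨(g * h)⁻¹ • w.1, hS _ _ w.2⟩))
    (ext_comp_smul h1 (smul_inv_smul g w.1) (smul_inv_smul (g * h) w.1))

theorem tauF_one (hS : SStable G S) (x : Rf S) : tauF hS (1 : G) x = x := by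
  funext w
  have h : (1 : G) • w.1 = w.1 := one_smul G w.1
  rw [tauF_apply_smul hS (1 : G) x (w := w) (w' := w) h, ext_one_smul h]
  rfl

/-- the automorphism of `∏_{w ∈ S} L_w` -/
def tauFe (hS : SStable G S) (g : G) : Rf S ≃+* Rf S :=
  { tauF hS g with
    invFun := tauF hS g⁻¹
    left_inv := fun x => by
      show tauF hS g⁻¹ (tauF hS g x) = x
      rw [tauF_tauF, inv_mul_cancel, tauF_one]
    right_inv := fun x => by
      show tauF hS g (tauF hS g⁻¹ x) = x
      rw [tauF_tauF, mul_inv_cancel, tauF_one] }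

@[simp] theorem coe_tauFe (hS : SStable G S) (g : G) (x : Rf S) :
    tauFe hS g x = tauF hS g x := rfl

theorem tauF_algebraMap (hS : SStable G S) (g : G) (a : L) :
    tauF hS g (algebraMap L (Rf S) a) = algebraMap L (Rf S) (g • a) := by
  funext w
  rw [tauF_apply]
  exact (compat_of_smul_eq (L := L) (smul_inv_smul g w.1)).ext_algebraMap a

theorem tauF_mem_Of (hS : SStable G S) (g : G) {x : Rf S} (hx : x ∈ Of S) :
    tauF hS g x ∈ Of S := fun w =>
  ((compat_of_smul_eq (L := L) (smul_inv_smul g w.1)).valued_ext_le_one_iff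
    (x ⟨g⁻¹ • w.1, hS g⁻¹ _ w.2⟩)).mpr (hx ⟨g⁻¹ • w.1, hS g⁻¹ _ w.2⟩)

theorem tauF_mem_Of_iff (hS : SStable G S) (g : G) (x : Rf S) :
    tauF hS g x ∈ Of S ↔ x ∈ Of S := by
  refine ⟨fun h => ?_, tauF_mem_Of hS g⟩
  have := tauF_mem_Of hS g⁻¹ h
  rwa [tauF_tauF, inv_mul_cancel, tauF_one] at this

theorem smul_mem_OS (hS : SStable G S) (g : G) {a : L} (ha : a ∈ OS S) : g • a ∈ OS S := by
  rw [mem_OS_iff] at ha ⊢
  intro v hv
  have h1 : g⁻¹ • v ∉ S := fun h => hv (by
    have := hS g _ h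
    rwa [smul_inv_smul] at this)
  have h2 : v.valuation L (g • a) = (g⁻¹ • v).valuation L a :=
    valuation_smul' (R := 𝓞 L) g v a
  exact h2.trans_le (ha _ h1)

/-- the action on `O_S` -/
def tauO (hS : SStable G S) (g : G) : OS S ≃+* OS S where
  toFun a := ⟨g • (a : L), smul_mem_OS hS g a.2⟩
  invFun a := ⟨g⁻¹ • (a : L), smul_mem_OS hS g⁻¹ a.2⟩
  left_inv a := Subtype.ext (inv_smul_smul g (a : L))
  right_inv a := Subtype.ext (smul_inv_smul g (a : L))
  map_mul' a b := Subtype.ext (smul_mul' g (a : L) (b : L))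
  map_add' a b := Subtype.ext (smul_add g (a : L) (b : L))

@[simp] theorem coe_tauO (hS : SStable G S) (g : G) (a : OS S) :
    ((tauO hS g a : OS S) : L) = g • (a : L) := rfl

theorem thetaF_tauF (hS : SStable G S) (g : G) (x : Rf S) :
    thetaF S (tauF hS g x) = thetaF S x :=
  thetaF_map (S := S) (S' := S) (MulSemiringAction.toRingEquiv G L g)
    (fun _ ha => smul_mem_OS hS g ha) (tauF hS g : Rf S →+ Rf S)
    (fun a => tauF_algebraMap hS g a) (fun _ hx => tauF_mem_Of hS g hx) x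

/-- **the automorphism `g` of all the data** -/
def tauDat (hS : SStable G S) (g : G) {δ : L} (hδ : g • δ = δ) :
    TauDat (OS S) (Rinf L) (Rf S) (Xi L) (thetaA S δ) where
  o := tauO hS g
  i := tauIe (MulSemiringAction.toRingEquiv G L g)
  f := tauFe hS g
  x := Xi.tau (MulSemiringAction.toRingEquiv G L g)
  i_cont := continuous_tauI _
  f_cont := continuous_tauF hS g
  comm_i a := tauI_algebraMap _ (a : L)
  comm_f a := tauF_algebraMap hS g (a : L)
  smul h z := tau_smul_inf _ h z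
  theta s t := by
    have e1 : ((tauIe (MulSemiringAction.toRingEquiv G L g) s, tauFe hS g t) : Rinf L × Rf S) =
        (tauI (MulSemiringAction.toRingEquiv G L g) s, 0) + (0, tauF hS g t) := by
      rw [Prod.mk_add_mk, add_zero, zero_add]; rfl
    have e2 : ((s, t) : Rinf L × Rf S) = (s, 0) + (0, t) := by
      rw [Prod.mk_add_mk, add_zero, zero_add]
    rw [e1, e2, AddChar.map_add_eq_mul, AddChar.map_add_eq_mul, thetaA_inl, thetaA_inl,
      thetaA_inr, thetaA_inr, sum_tauI (MulSemiringAction.toRingEquiv G L g) hδ]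
    congr 1
    have e3 : diagF S δ = tauF hS g (diagF S δ) := by
      have := tauF_algebraMap hS g δ
      rw [hδ] at this
      exact this.symm
    conv_lhs => rw [e3, ← map_mul, thetaF_tauF]

variable (hS : SStable G S) (g : G) {δ : L} (hδ : g • δ = δ)

@[simp] theorem tauDat_o (a : OS S) : (tauDat hS g hδ).o a = tauO hS g a := rfl
@[simp] theorem tauDat_i (z : Rinf L) :
    (tauDat hS g hδ).i z = tauI (MulSemiringAction.toRingEquiv G L g) z := rfl
@[simp] theorem tauDat_f (x : Rf S) : (tauDat hS g hδ).f x = tauF hS g x := rfl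
@[simp] theorem tauDat_x (x : Xi L) :
    (tauDat hS g hδ).x x = Xi.tau (MulSemiringAction.toRingEquiv G L g) x := rfl

/-- stability of the pairs `(V, χ)` -/
theorem stab_fbase (hδ0 : δ ≠ 0) (hδO : algebraMap L (Rf S) δ ∈ condF S) {N : 𝓞 L} (hN0 : N ≠ 0)
    (hN : ∀ v ∈ S, v.valuation L (N : L) < 1) (hNg : g • (N : L) = N) {m k M : ℕ}
    (h : (fbase S hδ0 hδO hN0 hN).Adm ((fbase S hδ0 hδO hN0 hN).N ^ m)
      ((fbase S hδ0 hδO hN0 hN).N ^ k) ((fbase S hδ0 hδO hN0 hN).N ^ M)) :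
    (tauDat hS g hδ).Stab ((fbase S hδ0 hδO hN0 hN).dat _ _ _ h)
      ((fbase S hδ0 hδO hN0 hN).N ^ k)⁻¹ := by
  refine FBase.Adm.stab (tauDat hS g hδ) h ?_ fun x => tauF_mem_Of_iff hS g x
  show tauF hS g (algebraMap L (Rf S) (N : L)) = algebraMap L (Rf S) (N : L)
  rw [tauF_algebraMap, hNg]

end Fin

end Fermat.Agent.LT.Kap
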