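import Fermat.Agent.LT.Kappa.LevKap
import Fermat.Agent.LT.Kappa.InstTau
import Fermat.Agent.LT.TauD

/-!
# Stability of `s_V` under automorphisms (helper70)

* `TStable G T`: the pairs `T w`, `w ∈ S`, are permuted by `G`;
* `ker_eV_dvMap`, **`ker_sV_tauD`**: `s_V (g x, g y) = s_V (x, y)`;
* `tStable_loc`, `tStable_of_stab`, `tStable_fbase`: the case of helper31's family.
-/

set_option autoImplicit false

open Matrix NumberField IsDedekindDomain WithZero HeightOneSpectrum
open scoped WithZero Topology Pointwise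

noncomputable section

namespace Fermat.Agent.LT.Kap

open Fermat.Agent.LT.Lvl HK Fermat.Agent.LT.Ext
open Fermat.Agent.LT.Loc (Rf)

variable {L : Type*} [Field L] [NumberField L] {G : Type*} [Group G] [MulSemiringAction G L]
  {S : Finset (HeightOneSpectrum (𝓞 L))}

/-! ### The inverse of `glExt` -/

section Inv

variable {g : G} {w w' : HeightOneSpectrum (𝓞 L)}

omit [NumberField L] in
theorem inv_smul_eq (h : g • w = w') : g⁻¹ • w' = w := by rw [← h, inv_smul_smul]

theorem glExt_glExt_inv (h : g • w = w') (x : GL (Fin 2) (w.adicCompletion L)) :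
    glExt (inv_smul_eq h) (glExt h x) = x := by
  have h3 : (g⁻¹ * g) • w = w := by rw [inv_mul_cancel, one_smul]
  have key : ∀ (k : G) (_ : k = 1) (h3 : k • w = w), glExt h3 = MonoidHom.id _ := by
    rintro k rfl h3
    exact glExt_one h3
  rw [← MonoidHom.comp_apply, glExt_comp h (inv_smul_eq h) h3, key _ (inv_mul_cancel g) h3]
  rfl

theorem glExt_inv_glExt (h : g • w = w') (x : GL (Fin 2) (w'.adicCompletion L)) :
    glExt h (glExt (inv_smul_eq h) x) = x := by
  obtain ⟨y, rfl⟩ := (glExt_bijective h).2 x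
  rw [glExt_glExt_inv]

variable {U : Lev L}

theorem comap_sup_center (hU : GStable G U.U) (h : g • w = w') :
    (U.U w' ⊔ Subgroup.center _).comap (glExt h) = U.U w ⊔ Subgroup.center _ := by
  refine le_antisymm (fun x hx => ?_) (sup_center_le_comap (glExt_bijective h).2 (hU g w w' h))
  have h1 := sup_center_le_comap (glExt_bijective (inv_smul_eq h)).2
    (hU g⁻¹ w' w (inv_smul_eq h)) hx
  rw [Subgroup.mem_comap, glExt_glExt_inv] at h1
  exact h1

theorem dvMap_injective (hU : GStable G U.U) (h : g • w = w') :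
    Function.Injective (dvMap hU h) := by
  intro x y hxy
  obtain ⟨x, rfl⟩ := QuotientGroup.mk_surjective x
  obtain ⟨y, rfl⟩ := QuotientGroup.mk_surjective y
  rw [dvMap_mk, dvMap_mk, QuotientGroup.eq, ← map_inv, ← map_mul, ← Subgroup.mem_comap,
    comap_sup_center hU h] at hxy
  exact QuotientGroup.eq.mpr hxy

end Inv

/-! ### Stability of the pairs -/

/-- The pairs at the places of `S` are permuted by `G`. -/
structure TStable (G : Type*) [Group G] [MulSemiringAction G L]
    (T : ∀ v : S, TyDat (v.1.adicCompletion L)) : Prop where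
  α : ∀ (g : G) (w w' : S) (h : g • w.1 = w'.1) (x : w.1.adicCompletion L), x ∈ (T w).α →
    (compat_of_smul_eq (L := L) h).ext x ∈ (T w').α
  β : ∀ (g : G) (w w' : S) (h : g • w.1 = w'.1) (x : w.1.adicCompletion L), x ∈ (T w).β →
    (compat_of_smul_eq (L := L) h).ext x ∈ (T w').β
  γ : ∀ (g : G) (w w' : S) (h : g • w.1 = w'.1) (x : w.1.adicCompletion L), x ∈ (T w).γ →
    (compat_of_smul_eq (L := L) h).ext x ∈ (T w').γ
  θ : ∀ (g : G) (w w' : S) (h : g • w.1 = w'.1) (x : w.1.adicCompletion L), x ∈ (T w).β →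
    (T w').θ₀ ((compat_of_smul_eq (L := L) h).ext x) = (T w).θ₀ x

variable {T : ∀ v : S, TyDat (v.1.adicCompletion L)} {U : Lev L}

namespace TStable

variable (hT : TStable G T) {g : G} {w w' : S} (h : g • w.1 = w'.1)

include hT

theorem mem {k : GL (Fin 2) (w.1.adicCompletion L)} {z : (w.1.adicCompletion L)ˣ}
    {a b c : w.1.adicCompletion L} (hk : (T w).Mem k z a b c) :
    (T w').Mem (glExt h k)
      (Units.map ((compat_of_smul_eq (L := L) h).ext : w.1.adicCompletion L →* _) z)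
      ((compat_of_smul_eq (L := L) h).ext a) ((compat_of_smul_eq (L := L) h).ext b)
      ((compat_of_smul_eq (L := L) h).ext c) := by
  obtain ⟨ha, hb, hc, hk⟩ := hk
  refine ⟨hT.α g w w' h a ha, hT.β g w w' h b hb, hT.γ g w w' h c hc, ?_⟩
  refine Matrix.ext fun i j => ?_
  have h1 : (glExt h k : Matrix (Fin 2) (Fin 2) (w'.1.adicCompletion L)) i j =
      (compat_of_smul_eq (L := L) h).ext (k i j) := rfl
  rw [h1, hk]
  fin_cases i <;> fin_cases j
  · show (compat_of_smul_eq (L := L) h).ext (z * (1 + a)) = _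
    rw [map_mul, map_add, map_one]
    rfl
  · show (compat_of_smul_eq (L := L) h).ext (z * b) = _
    rw [map_mul]
    rfl
  · show (compat_of_smul_eq (L := L) h).ext (z * c) = _
    rw [map_mul]
    rfl
  · rfl

theorem mem_V_iff {k : GL (Fin 2) (w.1.adicCompletion L)} :
    glExt h k ∈ (T w').V ↔ k ∈ (T w).V := by
  constructor
  · rintro ⟨z, a, b, c, hk⟩
    have := hT.mem (g := g⁻¹) (w := w') (w' := w) (inv_smul_eq h) hk
    rw [glExt_glExt_inv] at this
    exact ⟨_, _, _, _, this⟩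
  · rintro ⟨z, a, b, c, hk⟩
    exact ⟨_, _, _, _, hT.mem h hk⟩

theorem chi_eq {k : GL (Fin 2) (w.1.adicCompletion L)} (hk : k ∈ (T w).V) :
    (T w').chi (glExt h k) = (T w).chi k := by
  obtain ⟨z, a, b, c, hk⟩ := hk
  rw [(hT.mem h hk).chi, hk.chi]
  exact hT.θ g w w' h b hk.2.1

include h in
theorem relIndex_eq (hU : GStable G U.U) :
    (U.U w'.1 ⊔ Subgroup.center _).relIndex (T w').V =
      (U.U w.1 ⊔ Subgroup.center _).relIndex (T w).V := by
  have h1 : (T w).V.map (glExt h) = (T w').V := by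
    ext x
    rw [Subgroup.mem_map]
    constructor
    · rintro ⟨y, hy, rfl⟩
      exact (hT.mem_V_iff h).mpr hy
    · intro hx
      refine ⟨glExt (inv_smul_eq h) x, ?_, glExt_inv_glExt h x⟩
      rw [← hT.mem_V_iff h, glExt_inv_glExt]
      exact hx
  rw [← h1, ← Subgroup.relIndex_comap, comap_sup_center hU h]

/-- **the local kernels are permuted.** -/
theorem ker_eV_dvMap (hL : LevOK U T) (hU : GStable G U.U) (x y : Lvl.Dv U w.1) :
    (eV hL w'.1).ker (dvMap hU h x) (dvMap hU h y) = (eV hL w.1).ker x y := by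
  obtain ⟨x, rfl⟩ := QuotientGroup.mk_surjective x
  obtain ⟨y, rfl⟩ := QuotientGroup.mk_surjective y
  rw [dvMap_mk, dvMap_mk, eV_of_mem hL w'.2, eV_of_mem hL w.2, ker_eq_fn, ker_eq_fn, ← map_inv,
    ← map_mul]
  by_cases hxy : x⁻¹ * y ∈ (T w).V
  · rw [fn_idem_of_mem _ hxy, fn_idem_of_mem _ ((hT.mem_V_iff h).mpr hxy), hT.chi_eq h hxy,
      hT.relIndex_eq h hU]
  · rw [fn_idem_of_notMem _ hxy, fn_idem_of_notMem]
    rwa [hT.mem_V_iff h]

end TStable

theorem ker_eV_dvMap_of_notMem (hL : LevOK U T) (hU : GStable G U.U) {g : G}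
    {w w' : HeightOneSpectrum (𝓞 L)} (h : g • w = w') (hw : w ∉ S) (hw' : w' ∉ S)
    (x y : Lvl.Dv U w) : (eV hL w').ker (dvMap hU h x) (dvMap hU h y) = (eV hL w).ker x y := by
  classical
  rw [eV_of_notMem hL hw', eV_of_notMem hL hw, ker_one, ker_one]
  simp only [(dvMap_injective hU h).eq_iff]

/-- **`s_V` is stable under `G`.** -/
theorem ker_sVG_tauD (hT : TStable G T) (hL : LevOK U T) (hU : GStable G U.U) (hS : SStable G S)
    (g : G) (x y : Lvl.D U) :
    (sVG hL).ker (tauD hU g x) (tauD hU g y) = (sVG hL).ker x y := by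
  rw [ker_sVG, ker_sVG, ← finprod_comp_equiv (MulAction.toPerm g : Equiv.Perm _)]
  refine finprod_congr fun w => ?_
  have hgw : g • w = (MulAction.toPerm g : Equiv.Perm (HeightOneSpectrum (𝓞 L))) w := rfl
  rw [tauD_apply hU g x hgw, tauD_apply hU g y hgw]
  by_cases hw : w ∈ S
  · exact hT.ker_eV_dvMap (w := ⟨w, hw⟩) (w' := ⟨_, hS g w hw⟩) hgw hL hU (x w) (y w)
  · exact ker_eV_dvMap_of_notMem hL hU hgw hw (fun h => hw ((hS.mem_iff g w).mp h)) (x w) (y w)

theorem ker_sV_tauD (hT : TStable G T) (hL : LevOK U T) (hU : GStable G U.U) (hS : SStable G S)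
    (g : G) (x y : Lvl.D U) :
    (sV hL).ker (tauD hU g x) (tauD hU g y) = (sV hL).ker x y := by
  rw [sV, ker_toPG, ker_toPG, ker_sVG_tauD hT hL hU hS]

/-- `s_V` commutes with the composition with `g`. -/
theorem act_sV_tauD {E : Type*} [AddCommGroup E] [Module ℂ E] (hT : TStable G T) (hL : LevOK U T)
    (hU : GStable G U.U) (hS : SStable G S) (g : G) (f : Lvl.D U → E) (x : Lvl.D U) :
    (sV hL).act (fun y => f (tauD hU g y)) x = (sV hL).act f (tauD hU g x) := by
  rw [act_apply_finsum, act_apply_finsum]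
  refine Eq.trans ?_ (finsum_comp_equiv (tauDEquiv hU g)
    (f := fun y => (sV hL).ker (tauD hU g x) y • f y))
  refine finsum_congr fun y => ?_
  rw [tauDEquiv_apply, ker_sV_tauD hT hL hU hS]

/-! ### The case of a product datum -/

section Prod

variable {D : TyDat (Rf S)}

theorem tauF_inj (hS : SStable G S) (g : G) {w w' : S} (h : g • w.1 = w'.1)
    (x : w.1.adicCompletion L) :
    tauF hS g (inj w x) = inj w' ((compat_of_smul_eq (L := L) h).ext x) := by
  funext u
  by_cases hu : u = w'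
  · subst hu
    rw [tauF_apply_smul hS g _ h, inj_same, inj_same]
  · rw [inj_of_ne hu, tauF_apply, inj_of_ne, map_zero]
    intro h1
    refine hu (Subtype.ext ?_)
    have h2 : g⁻¹ • u.1 = w.1 := congrArg Subtype.val h1
    rw [← h, ← h2, smul_inv_smul]

/-- stability of the local data from the stability of `D`. -/
theorem tStable_loc (hD : D.IsProd) (hS : SStable G S)
    (hα : ∀ (g : G) (x : Rf S), x ∈ D.α → tauF hS g x ∈ D.α)
    (hβ : ∀ (g : G) (x : Rf S), x ∈ D.β → tauF hS g x ∈ D.β)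
    (hγ : ∀ (g : G) (x : Rf S), x ∈ D.γ → tauF hS g x ∈ D.γ)
    (hθ : ∀ (g : G) (x : Rf S), x ∈ D.β → D.θ₀ (tauF hS g x) = D.θ₀ x) :
    TStable G (D.loc hD) where
  α g w w' h x hx := by
    rw [mem_loc_α] at *
    rw [← tauF_inj hS g h]
    exact hα g _ hx
  β g w w' h x hx := by
    rw [mem_loc_β] at *
    rw [← tauF_inj hS g h]
    exact hβ g _ hx
  γ g w w' h x hx := by
    rw [mem_loc_γ] at *
    rw [← tauF_inj hS g h]
    exact hγ g _ hx
  θ g w w' h x hx := by
    rw [mem_loc_β] at hx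
    have h1 := hθ g _ hx
    rw [tauF_inj hS g h] at h1
    exact h1

/-- stability of the local data from helper31's `TauDat.Stab`. -/
theorem tStable_of_stab (hD : D.IsProd) (hS : SStable G S) {δ : L} (hδ : ∀ g : G, g • δ = δ)
    {a₀ : (Rf S)ˣ} (hc : D.Compat (Chr.thetaA S δ) a₀)
    (hs : ∀ g : G, (tauDat hS g (hδ g)).Stab D a₀) : TStable G (D.loc hD) :=
  tStable_loc hD hS (fun g x hx => (hs g).α x hx) (fun g x hx => (hs g).β x hx)
    (fun g x hx => (hs g).γ x hx) fun g x hx => by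
      have h1 : tauF hS g x ∈ D.β := (hs g).β x hx
      have h2 : tauF hS g (a₀ : Rf S) = a₀ := (hs g).a₀
      have h3 := (tauDat hS g (hδ g)).theta 0 (a₀ * x)
      rw [map_zero, tauDat_f, map_mul, h2] at h3
      rw [hc.θ₀ _ h1, hc.θ₀ _ hx, h3]

end Prod

/-! ### The family over `L` -/

section Family

variable {δ : L} {N : 𝓞 L}

/-- **helper31's family is stable.** -/
theorem tStable_fbase (hS : SStable G S) (hδ : ∀ g : G, g • δ = δ) (hδ0 : δ ≠ 0)
    (hδO : algebraMap L (Rf S) δ ∈ Chr.condF S) (hN0 : N ≠ 0)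
    (hN : ∀ v ∈ S, v.valuation L (N : L) < 1) (hNg : ∀ g : G, g • (N : L) = N) {m k M : ℕ}
    (h : (fbase S hδ0 hδO hN0 hN).Adm ((fbase S hδ0 hδO hN0 hN).N ^ m)
      ((fbase S hδ0 hδO hN0 hN).N ^ k) ((fbase S hδ0 hδO hN0 hN).N ^ M)) :
    TStable G (((fbase S hδ0 hδO hN0 hN).dat _ _ _ h).loc
      (FBase.isProd_dat inj_one_mem_Of h)) :=
  tStable_of_stab _ hS hδ h.compat fun g => stab_fbase hS g (hδ g) hδ0 hδO hN0 hN (hNg g) h

end Family

end Fermat.Agent.LT.Kap

end
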