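import Fermat.Agent.LT.Kappa.Coef
import Mathlib.LinearAlgebra.Matrix.GeneralLinearGroup.Defs
import Mathlib.RingTheory.PrincipalIdealDomain
import Mathlib.Algebra.Group.AddChar
import Mathlib.LinearAlgebra.Matrix.Notation

/-!
# Fourier coefficients along the unipotent radical and Hecke relations

`O` a principal ideal domain, `A` a commutative topological `O`-algebra such that the image of `O`
is closed and cocompact, `θ` a character of `A` under which `O` is its own orthogonal.  `ψ` is a
function on a `GL₂(A)`-space `X`, invariant under `GL₂(O)` and under scalars.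
-/

namespace Fermat.Agent.LT.Kap

open MeasureTheory Topology

section Mat

variable {R : Type*} [CommRing R]

/-- upper unipotent matrix. -/
def nn (t : R) : GL (Fin 2) R where
  val := !![1, t; 0, 1]
  inv := !![1, -t; 0, 1]
  val_inv := by ext i j; fin_cases i <;> fin_cases j <;> simp
  inv_val := by ext i j; fin_cases i <;> fin_cases j <;> simp

/-- diagonal matrix. -/
def dg (a d : Rˣ) : GL (Fin 2) R where
  val := !![(a : R), 0; 0, (d : R)]
  inv := !![((a⁻¹ : Rˣ) : R), 0; 0, ((d⁻¹ : Rˣ) : R)]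
  val_inv := by ext i j; fin_cases i <;> fin_cases j <;> simp
  inv_val := by ext i j; fin_cases i <;> fin_cases j <;> simp

theorem coe_nn (t : R) : ((nn t : GL (Fin 2) R) : Matrix (Fin 2) (Fin 2) R) = !![1, t; 0, 1] := rfl

theorem coe_dg (a d : Rˣ) :
    ((dg a d : GL (Fin 2) R) : Matrix (Fin 2) (Fin 2) R) = !![(a : R), 0; 0, (d : R)] := rfl

theorem nn_mul_nn (s t : R) : nn s * nn t = nn (s + t) := by
  ext i j; fin_cases i <;> fin_cases j <;> simp [coe_nn, add_comm]

theorem nn_zero : nn (0 : R) = 1 := by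
  ext i j; fin_cases i <;> fin_cases j <;> simp [coe_nn]

theorem dg_one : dg (1 : Rˣ) 1 = 1 := by
  ext i j; fin_cases i <;> fin_cases j <;> simp [coe_dg]

theorem dg_mul_dg (a b c d : Rˣ) : dg a b * dg c d = dg (a * c) (b * d) := by
  ext i j; fin_cases i <;> fin_cases j <;> simp [coe_dg]

theorem dg_mul_nn (a d : Rˣ) (t : R) : dg a d * nn t = nn (a * t * (d⁻¹ : Rˣ)) * dg a d := by
  ext i j; fin_cases i <;> fin_cases j <;> simp [coe_dg, coe_nn, mul_assoc]

theorem map_nn {S : Type*} [CommRing S] (f : R →+* S) (t : R) :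
    Matrix.GeneralLinearGroup.map f (nn t) = nn (f t) := by
  ext i j; fin_cases i <;> fin_cases j <;> simp [coe_nn]

theorem map_dg {S : Type*} [CommRing S] (f : R →+* S) (a d : Rˣ) :
    Matrix.GeneralLinearGroup.map f (dg a d) = dg (Units.map f a) (Units.map f d) := by
  ext i j; fin_cases i <;> fin_cases j <;> simp [coe_dg]

end Mat

variable {O A : Type*} [CommRing O] [CommRing A] [TopologicalSpace A] [IsTopologicalRing A]
  [Algebra O A]

variable (O A) in
/-- the image of `O` in `A`. -/
def lat : AddSubgroup A := (algebraMap O A).toAddMonoidHom.range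

theorem mem_lat {x : A} : x ∈ lat O A ↔ ∃ a : O, algebraMap O A a = x := Iff.rfl

theorem algebraMap_mem_lat (a : O) : algebraMap O A a ∈ lat O A := ⟨a, rfl⟩

/-- `θ` is a continuous character with `O^⊥ = O`. -/
structure SelfDual (O : Type*) {A : Type*} [CommRing O] [CommRing A] [TopologicalSpace A]
    [Algebra O A] (θ : AddChar A Circle) : Prop where
  cont : Continuous θ
  perp : ∀ x : A, (∀ a : O, θ (algebraMap O A a * x) = 1) ↔ x ∈ (algebraMap O A).range

variable {θ : AddChar A Circle}

theorem SelfDual.one (hθ : SelfDual O θ) (a b : O) :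
    θ (algebraMap O A a * algebraMap O A b) = 1 :=
  (hθ.perp (algebraMap O A b)).mpr ⟨b, rfl⟩ a

/-- the character `t ↦ θ(a t)`. -/
noncomputable def ch (θ : AddChar A Circle) (a : A) (t : A) : ℂ := (θ (a * t) : ℂ)

theorem ch_add (a s t : A) : ch θ a (s + t) = ch θ a s * ch θ a t := by
  simp only [ch]
  rw [mul_add, AddChar.map_add_eq_mul]
  rfl

theorem ch_ne_zero (a t : A) : ch θ a t ≠ 0 := Circle.coe_ne_zero _

theorem norm_ch (a t : A) : ‖ch θ a t‖ = 1 := Circle.norm_coe _

theorem ch_neg_mul (a t : A) : ch θ (-a) t * ch θ a t = 1 := by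
  simp only [ch]
  rw [← Circle.coe_mul, ← AddChar.map_add_eq_mul, neg_mul, neg_add_cancel, AddChar.map_zero_eq_one]
  rfl

theorem ch_zero_left (t : A) : ch θ 0 t = 1 := by
  simp only [ch]
  rw [zero_mul, AddChar.map_zero_eq_one]; rfl

theorem continuous_ch (hθ : SelfDual O θ) (a : A) : Continuous (ch θ a) :=
  continuous_subtype_val.comp (hθ.cont.comp (continuous_const.mul continuous_id))

theorem ch_lat (hθ : SelfDual O θ) (a : O) {l : A} (hl : l ∈ lat O A) :
    ch θ (algebraMap O A a) l = 1 := by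
  obtain ⟨b, rfl⟩ := hl
  show ((θ (algebraMap O A a * algebraMap O A b) : Circle) : ℂ) = 1
  rw [hθ.one]; rfl

theorem per_ch (hθ : SelfDual O θ) (a : O) : Per (lat O A) (ch θ (algebraMap O A a)) :=
  fun t l hl => by rw [ch_add, ch_lat hθ a hl, mul_one]

theorem per_ch_neg (hθ : SelfDual O θ) (a : O) : Per (lat O A) (ch θ (-(algebraMap O A a))) := by
  rw [← map_neg]; exact per_ch hθ (-a)

variable [CompactSpace (A ⧸ lat O A)]

/-- The `a`-th Fourier coefficient of a periodic function. -/
noncomputable def coef (O : Type*) {A : Type*} [CommRing O] [CommRing A] [TopologicalSpace A]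
    [IsTopologicalRing A] [Algebra O A] [CompactSpace (A ⧸ lat O A)]
    (θ : AddChar A Circle) (a : O) (f : A → ℂ) : ℂ :=
  mean (lat O A) (fun t => ch θ (-(algebraMap O A a)) t * f t)

theorem coef_trans (hθ : SelfDual O θ) (a : O) {f : A → ℂ} (hf : Per (lat O A) f) (s : A) :
    coef O θ a (fun t => f (t + s)) = ch θ (algebraMap O A a) s * coef O θ a f := by
  unfold coef
  rw [← mean_trans ((per_ch_neg hθ a).mul hf) s, ← mean_const_mul]
  refine mean_congr fun t => ?_
  simp only [ch_add]
  rw [show ch θ (algebraMap O A a) s * (ch θ (-algebraMap O A a) t * ch θ (-algebraMap O A a) s *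
    f (t + s)) = (ch θ (-algebraMap O A a) s * ch θ (algebraMap O A a) s) *
      (ch θ (-algebraMap O A a) t * f (t + s)) by ring, ch_neg_mul, one_mul]

theorem coef_add (hθ : SelfDual O θ) (a : O) {f g : A → ℂ} (hf : Per (lat O A) f)
    (hfc : Continuous f) (hg : Per (lat O A) g) (hgc : Continuous g) :
    coef O θ a (fun t => f t + g t) = coef O θ a f + coef O θ a g := by
  unfold coef
  rw [← mean_add ((per_ch_neg hθ a).mul hf) ((continuous_ch hθ _).mul hfc)
    ((per_ch_neg hθ a).mul hg) ((continuous_ch hθ _).mul hgc)]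
  exact mean_congr fun t => by ring

theorem coef_const_mul (a : O) (c : ℂ) (f : A → ℂ) :
    coef O θ a (fun t => c * f t) = c * coef O θ a f := by
  unfold coef
  rw [← mean_const_mul]
  exact mean_congr fun t => by ring

theorem coef_sum (hθ : SelfDual O θ) (a : O) {ι : Type*} (s : Finset ι) {f : ι → A → ℂ}
    (hf : ∀ i ∈ s, Per (lat O A) (f i)) (hfc : ∀ i ∈ s, Continuous (f i)) :
    coef O θ a (fun t => ∑ i ∈ s, f i t) = ∑ i ∈ s, coef O θ a (f i) := by
  unfold coef
  rw [← mean_sum s (fun i hi => (per_ch_neg hθ a).mul (hf i hi))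
    (fun i hi => (continuous_ch hθ _).mul (hfc i hi))]
  exact mean_congr fun t => by rw [Finset.mul_sum]

theorem norm_coef_le (a : O) {f : A → ℂ} {C : ℝ} (h : ∀ t, ‖f t‖ ≤ C) :
    ‖coef O θ a f‖ ≤ C :=
  norm_mean_le fun t => by rw [norm_mul, norm_ch, one_mul]; exact h t

/-- multiplication by a unit as an additive endomorphism -/
theorem mean_mul [IsClosed (lat O A : Set A)] {f : A → ℂ} (hf : Per (lat O A) f)
    (hc : Continuous f) (p : O) (u : Aˣ) (hu : algebraMap O A p = u) :
    mean (lat O A) (fun t => f (u * t)) = mean (lat O A) f := by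
  refine mean_comp hf hc (AddMonoidHom.mulLeft (u : A)) (continuous_const.mul continuous_id) ?_ ?_
  · intro y
    exact ⟨(u⁻¹ : Aˣ) * y, by simp⟩
  · rintro l ⟨b, rfl⟩
    exact ⟨p * b, by simp [hu]⟩

theorem per_comp_mul {f : A → ℂ} (hf : Per (lat O A) f) (p : O) (u : Aˣ)
    (hu : algebraMap O A p = u) : Per (lat O A) (fun t => f (u * t)) := by
  rintro t l ⟨b, rfl⟩
  show f (u * (t + algebraMap O A b)) = f (u * t)
  rw [mul_add]
  exact hf _ _ ⟨p * b, by rw [← hu]; exact (algebraMap O A).map_mul _ _⟩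

theorem coef_mul_comp [IsClosed (lat O A : Set A)] (hθ : SelfDual O θ) {f : A → ℂ}
    (hf : Per (lat O A) f) (hc : Continuous f) (p : O) (u : Aˣ) (hu : algebraMap O A p = u)
    (b : O) : coef O θ (p * b) (fun t => f (u * t)) = coef O θ b f := by
  unfold coef
  rw [← mean_mul ((per_ch_neg hθ b).mul hf) ((continuous_ch hθ _).mul hc) p u hu]
  refine mean_congr fun t => ?_
  congr 1
  simp only [ch]
  congr 2
  rw [map_mul, hu]; ring

theorem coef_comp_eq_zero [IsDomain O] (hinj : Function.Injective (algebraMap O A))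
    (hθ : SelfDual O θ) {f : A → ℂ}
    (hf : Per (lat O A) f) (p : O) (u : Aˣ) (hu : algebraMap O A p = u)
    {a : O} (ha : ¬ p ∣ a) : coef O θ a (fun t => f (u * t)) = 0 := by
  -- there is `c ∈ O` with `θ(c a / p) ≠ 1`
  have h1 : ∃ c : O, θ (algebraMap O A c * (algebraMap O A a * (u⁻¹ : Aˣ))) ≠ 1 := by
    by_contra hcon
    push_neg at hcon
    obtain ⟨b, hb⟩ := (hθ.perp _).mp hcon
    refine ha ⟨b, hinj ?_⟩
    rw [map_mul, hu, hb, mul_comm, mul_assoc, Units.inv_mul, mul_one]
  obtain ⟨c, hc⟩ := h1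
  unfold coef
  refine mean_eq_zero_of_trans (s := algebraMap O A c * (u⁻¹ : Aˣ))
    (c := ch θ (-(algebraMap O A a)) (algebraMap O A c * (u⁻¹ : Aˣ)))
    ((per_ch_neg hθ a).mul (per_comp_mul hf p u hu)) ?_ ?_
  · intro t
    have h2 : f (u * (t + algebraMap O A c * (u⁻¹ : Aˣ))) = f (u * t) := by
      rw [show (u : A) * (t + algebraMap O A c * (u⁻¹ : Aˣ)) = u * t + algebraMap O A c by
        rw [mul_add, mul_left_comm, Units.mul_inv, mul_one]]
      exact hf _ _ ⟨c, rfl⟩
    show ch θ (-(algebraMap O A) a) (t + algebraMap O A c * (u⁻¹ : Aˣ)) *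
      f (u * (t + algebraMap O A c * (u⁻¹ : Aˣ))) = _
    rw [ch_add, h2]; ring
  · intro h
    apply hc
    have h3 : ch θ (algebraMap O A a) (algebraMap O A c * (u⁻¹ : Aˣ)) = 1 := by
      have := ch_neg_mul (θ := θ) (algebraMap O A a) (algebraMap O A c * (u⁻¹ : Aˣ))
      rwa [h, one_mul] at this
    have h4 : θ (algebraMap O A a * (algebraMap O A c * (u⁻¹ : Aˣ))) = 1 := by
      ext; exact h3
    rw [← h4]; congr 1; ring

/-- A finite set of representatives of `O / p`. -/
def IsReps (p : O) (R : Finset O) : Prop := ∀ a : O, ∃! b, b ∈ R ∧ p ∣ a - b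

theorem sum_reps_eq {p : O} {R : Finset O} (hR : IsReps p R) {M : Type*} [AddCommMonoid M]
    {F : O → M} (hF : ∀ a b, p ∣ a - b → F a = F b) (c : O) :
    ∑ b ∈ R, F (b + c) = ∑ b ∈ R, F b := by
  classical
  choose r hr hr2 using fun a => hR a
  refine Finset.sum_bij' (fun b _ => r (b + c)) (fun b _ => r (b - c)) ?_ ?_ ?_ ?_ ?_
  · intro b _; exact (hr _).1
  · intro b _; exact (hr _).1
  · intro b hb
    have h1 : p ∣ r (b + c) - c - b := by
      have := (hr (b + c)).2
      have h2 : r (b + c) - c - b = -(b + c - r (b + c)) := by ring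
      rw [h2]; exact this.neg_right
    exact (hr2 (r (b + c) - c) b ⟨hb, h1⟩).symm
  · intro b hb
    have h1 : p ∣ r (b - c) + c - b := by
      have := (hr (b - c)).2
      have h2 : r (b - c) + c - b = -(b - c - r (b - c)) := by ring
      rw [h2]; exact this.neg_right
    exact (hr2 (r (b - c) + c) b ⟨hb, h1⟩).symm
  · intro b _
    exact hF _ _ (hr (b + c)).2

theorem per_sum_div {f : A → ℂ} (hf : Per (lat O A) f) {p : O} {R : Finset O} (hR : IsReps p R)
    (u : Aˣ) (hu : algebraMap O A p = u) :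
    Per (lat O A) (fun t => ∑ b ∈ R, f ((t + algebraMap O A b) * (u⁻¹ : Aˣ))) := by
  rintro t l ⟨c, rfl⟩
  have h := sum_reps_eq hR (F := fun b => f ((t + algebraMap O A b) * (u⁻¹ : Aˣ))) (fun a b hab => by
    obtain ⟨d, hd⟩ := hab
    refine hf.eq_of_sub_mem ⟨d, ?_⟩
    show algebraMap O A d = _
    have h2 : algebraMap O A a - algebraMap O A b = u * algebraMap O A d := by
      rw [← map_sub, hd, map_mul, hu]
    rw [← sub_mul, show t + algebraMap O A a - (t + algebraMap O A b) =
      algebraMap O A a - algebraMap O A b by ring, h2, mul_comm, ← mul_assoc, Units.inv_mul,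
      one_mul]) c
  show ∑ b ∈ R, f ((t + algebraMap O A c + algebraMap O A b) * (u⁻¹ : Aˣ)) =
    ∑ b ∈ R, f ((t + algebraMap O A b) * (u⁻¹ : Aˣ))
  rw [← h]
  refine Finset.sum_congr rfl fun b _ => ?_
  congr 2
  rw [map_add]; ring

theorem coef_sum_div [IsClosed (lat O A : Set A)] (hθ : SelfDual O θ) {f : A → ℂ}
    (hf : Per (lat O A) f) (hc : Continuous f) {p : O} {R : Finset O} (hR : IsReps p R)
    (u : Aˣ) (hu : algebraMap O A p = u) (a : O) :
    coef O θ a (fun t => ∑ b ∈ R, f ((t + algebraMap O A b) * (u⁻¹ : Aˣ))) =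
      R.card * coef O θ (p * a) f := by
  have hcont : Continuous (fun t => ∑ b ∈ R, f ((t + algebraMap O A b) * (u⁻¹ : Aˣ))) :=
    continuous_finset_sum _ fun b _ =>
      hc.comp ((continuous_id.add continuous_const).mul continuous_const)
  have h1 : coef O θ a (fun t => ∑ b ∈ R, f ((t + algebraMap O A b) * (u⁻¹ : Aˣ))) =
      coef O θ (p * a) (fun t => ∑ b ∈ R, f (t + algebraMap O A b * (u⁻¹ : Aˣ))) := by
    unfold coef
    rw [← mean_mul ((per_ch_neg hθ a).mul (per_sum_div hf hR u hu))
      ((continuous_ch hθ _).mul hcont) p u hu]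
    refine mean_congr fun t => ?_
    congr 1
    · simp only [ch]
      congr 2
      rw [map_mul, hu]; ring
    · refine Finset.sum_congr rfl fun b _ => ?_
      congr 1
      rw [add_mul, mul_right_comm, Units.mul_inv, one_mul]
  have h2 := coef_sum (O := O) hθ (p * a) R
    (f := fun b t => f (t + algebraMap O A b * (u⁻¹ : Aˣ))) (fun b _ => hf.trans _)
    (fun b _ => hc.comp (continuous_id.add continuous_const))
  rw [h1, h2, Finset.sum_congr rfl (fun b _ => by
      rw [coef_trans hθ _ hf, show ch θ (algebraMap O A (p * a)) (algebraMap O A b * (u⁻¹ : Aˣ)) = 1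
        by
          simp only [ch]
          rw [(algebraMap O A).map_mul p a, hu,
            show (u : A) * algebraMap O A a * (algebraMap O A b * (u⁻¹ : Aˣ)) =
            algebraMap O A a * algebraMap O A b * (u * (u⁻¹ : Aˣ)) by ring, Units.mul_inv, mul_one,
            hθ.one]
          rfl, one_mul])]
  rw [Finset.sum_const, nsmul_eq_mul]

/-- **Completeness**: all Fourier coefficients vanish ⇒ the function vanishes. -/
theorem eq_zero_of_coef [IsClosed (lat O A : Set A)] (hθ : SelfDual O θ) {f : A → ℂ}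
    (hf : Per (lat O A) f) (hc : Continuous f) (h0 : ∀ a : O, coef O θ a f = 0) (t : A) :
    f t = 0 := by
  refine eq_zero_of_mean_mul (Λ := lat O A) (fun a : O => ch θ (algebraMap O A a))
    (fun a => continuous_ch hθ _) (fun a => per_ch hθ a) ⟨0, fun t => by
      rw [map_zero, ch_zero_left]⟩ ?_ ?_ ?_ (fun a x y => ch_add _ x y) (fun a x => ch_ne_zero _ _)
    hf hc ?_ t
  · intro a b
    refine ⟨a + b, fun t => ?_⟩
    simp only [ch]
    rw [map_add, add_mul, AddChar.map_add_eq_mul]; rfl
  · intro a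
    refine ⟨-a, fun t => ?_⟩
    simp only [ch]
    rw [map_neg, neg_mul, AddChar.map_neg_eq_inv, Circle.coe_inv_eq_conj]
    rfl
  · intro x hx
    refine (hθ.perp x).mp fun a => ?_
    ext; exact hx a
  · intro a
    have := h0 (-a)
    unfold coef at this
    rw [← this]
    refine mean_congr fun t => ?_
    rw [map_neg, neg_neg, mul_comm]

end Fermat.Agent.LT.Kap
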