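import Fermat.Agent.LT.Kappa.Hecke
import Mathlib.RingTheory.Localization.FractionRing
import Mathlib.RingTheory.PrincipalIdealDomain
import Mathlib.Topology.Instances.Matrix

/-!
# `GL₂(R_f) = GL₂(O) B(R_f) U`

`O` a principal ideal domain with fraction field `F`, dense in the topological ring `R_f` (a
finite product of completions).
-/

namespace Fermat.Agent.LT.Kap

open Topology

theorem exists_upper {R : Type*} [CommRing R] (b : GL (Fin 2) R)
    (hb : (b : Matrix (Fin 2) (Fin 2) R) 1 0 = 0) : ∃ (t : R) (a d : Rˣ), b = nn t * dg a d := by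
  have hdet : IsUnit ((b : Matrix (Fin 2) (Fin 2) R).det) :=
    (Matrix.isUnit_iff_isUnit_det _).mp b.isUnit
  rw [Matrix.det_fin_two, hb, mul_zero, sub_zero] at hdet
  obtain ⟨a, ha⟩ := isUnit_of_mul_isUnit_left hdet
  obtain ⟨d, hd⟩ := isUnit_of_mul_isUnit_right hdet
  refine ⟨(b : Matrix (Fin 2) (Fin 2) R) 0 1 * (d⁻¹ : Rˣ), a, d, ?_⟩
  ext i j
  fin_cases i <;> fin_cases j <;> simp [coe_nn, coe_dg, ha, hb, ← hd]

/-- primitive representative of a non-zero vector of `F²`, completed to a matrix in `GL₂(O)`. -/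
theorem exists_primitive {O F : Type*} [CommRing O] [IsDomain O] [IsPrincipalIdealRing O] [Field F]
    [Algebra O F] [IsFractionRing O F] (p q : F) (h : p ≠ 0 ∨ q ≠ 0) :
    ∃ (γ : GL (Fin 2) O) (s : F), s ≠ 0 ∧
      p = s * algebraMap O F ((γ : Matrix (Fin 2) (Fin 2) O) 0 0) ∧
      q = s * algebraMap O F ((γ : Matrix (Fin 2) (Fin 2) O) 1 0) := by
  classical
  obtain ⟨c, hc⟩ := IsLocalization.exist_integer_multiples_of_finset (nonZeroDivisors O)
    ({p, q} : Finset F)
  obtain ⟨x, hx⟩ := hc p (by simp)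
  obtain ⟨y, hy⟩ := hc q (by simp)
  have hc0 : algebraMap O F c ≠ 0 := by
    simp
  rw [Algebra.smul_def] at hx hy
  have hxy : x ≠ 0 ∨ y ≠ 0 := by
    rcases h with h | h
    · left; intro h0; rw [h0, map_zero] at hx
      exact (mul_ne_zero hc0 h) hx.symm
    · right; intro h0; rw [h0, map_zero] at hy
      exact (mul_ne_zero hc0 h) hy.symm
  obtain ⟨e, he⟩ := (IsPrincipalIdealRing.principal (Ideal.span {x, y})).principal
  have he' : Ideal.span {x, y} = Ideal.span {e} := he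
  obtain ⟨x', hx'⟩ : e ∣ x := by
    rw [← Ideal.mem_span_singleton, ← he']; exact Ideal.subset_span (by simp)
  obtain ⟨y', hy'⟩ : e ∣ y := by
    rw [← Ideal.mem_span_singleton, ← he']; exact Ideal.subset_span (by simp)
  have he0 : e ≠ 0 := by
    intro h0
    rw [h0, zero_mul] at hx' hy'
    rcases hxy with h | h
    · exact h hx'
    · exact h hy'
  obtain ⟨α, β, hαβ⟩ := Ideal.mem_span_pair.mp
    (show e ∈ Ideal.span {x, y} by rw [he']; exact Ideal.mem_span_singleton_self e)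
  replace hαβ : α * x' + β * y' = 1 := by
    apply mul_left_cancel₀ he0
    rw [mul_one]
    calc e * (α * x' + β * y') = α * (e * x') + β * (e * y') := by ring
      _ = e := by rw [← hx', ← hy', hαβ]
  refine ⟨⟨!![x', -β; y', α], !![α, β; -y', x'], ?_, ?_⟩,
    algebraMap O F e / algebraMap O F c, ?_, ?_, ?_⟩
  · ext i j
    fin_cases i <;> fin_cases j <;> simp [Matrix.mul_apply, Fin.sum_univ_two] <;>
      first | ring1 | linear_combination hαβ
  · ext i j
    fin_cases i <;> fin_cases j <;> simp [Matrix.mul_apply, Fin.sum_univ_two] <;>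
      first | ring1 | linear_combination hαβ
  · have : algebraMap O F e ≠ 0 := by simpa using he0
    exact div_ne_zero this hc0
  · have h1 : algebraMap O F x = algebraMap O F e * algebraMap O F x' := by rw [← map_mul, ← hx']
    simp only [Matrix.of_apply, Matrix.cons_val', Matrix.cons_val_zero]
    field_simp
    rw [mul_comm, ← hx, h1]
  · have h1 : algebraMap O F y = algebraMap O F e * algebraMap O F y' := by rw [← map_mul, ← hy']
    simp only [Matrix.of_apply, Matrix.cons_val', Matrix.cons_val_zero, Matrix.cons_val_one]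
    field_simp
    rw [mul_comm, ← hy, h1]

variable {O F Rf : Type*} [CommRing O] [IsDomain O] [IsPrincipalIdealRing O] [Field F]
  [Algebra O F] [IsFractionRing O F] [CommRing Rf] [TopologicalSpace Rf] [IsTopologicalRing Rf]
  [Algebra F Rf] [Algebra O Rf] [IsScalarTower O F Rf]

/-- **`GL₂(R_f) = GL₂(O) · B(R_f) · U`.** -/
theorem exists_decomp [Nontrivial Rf] (hdense : DenseRange (algebraMap F Rf))
    (hunit : ∀ᶠ x in 𝓝 (1 : Rf), IsUnit x) (g : GL (Fin 2) Rf) {N : Set Rf} (hN : N ∈ 𝓝 (0 : Rf)) :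
    ∃ (γ : GL (Fin 2) O) (t : Rf) (a d : Rfˣ) (h : GL (Fin 2) Rf),
      (∀ i j, (h : Matrix (Fin 2) (Fin 2) Rf) i j - (1 : Matrix (Fin 2) (Fin 2) Rf) i j ∈ N) ∧
      g * h = Matrix.GeneralLinearGroup.map (algebraMap O Rf) γ * (nn t * dg a d) := by
  classical
  set G : Matrix (Fin 2) (Fin 2) Rf := (g : Matrix (Fin 2) (Fin 2) Rf) with hG
  set G' : Matrix (Fin 2) (Fin 2) Rf := ((g⁻¹ : GL (Fin 2) Rf) : Matrix (Fin 2) (Fin 2) Rf) with hG'
  have hGG : G' * G = 1 := by
    have : ((g⁻¹ * g : GL (Fin 2) Rf) : Matrix (Fin 2) (Fin 2) Rf) = 1 := by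
      rw [inv_mul_cancel]; rfl
    exact this
  -- first column of `g⁻¹ g'`
  let c0 : Rf × Rf → Rf := fun w => G' 0 0 * w.1 + G' 0 1 * w.2
  let c1 : Rf × Rf → Rf := fun w => G' 1 0 * w.1 + G' 1 1 * w.2
  have hc0 : Continuous c0 := by fun_prop
  have hc1 : Continuous c1 := by fun_prop
  have h00 : c0 (G 0 0, G 1 0) = 1 := by
    have := congrFun (congrFun hGG 0) 0
    simpa [Matrix.mul_apply, Fin.sum_univ_two] using this
  have h10 : c1 (G 0 0, G 1 0) = 0 := by
    have := congrFun (congrFun hGG 1) 0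
    simpa [Matrix.mul_apply, Fin.sum_univ_two] using this
  have h01 : G' 0 0 * G 0 1 + G' 0 1 * G 1 1 = 0 := by
    have := congrFun (congrFun hGG 0) 1
    simpa [Matrix.mul_apply, Fin.sum_univ_two] using this
  have h11 : G' 1 0 * G 0 1 + G' 1 1 * G 1 1 = 1 := by
    have := congrFun (congrFun hGG 1) 1
    simpa [Matrix.mul_apply, Fin.sum_univ_two] using this
  have hev : ∀ᶠ w in 𝓝 ((G 0 0, G 1 0) : Rf × Rf), IsUnit (c0 w) ∧ c0 w - 1 ∈ N ∧ c1 w ∈ N := by
    refine Filter.Eventually.and ?_ (Filter.Eventually.and ?_ ?_)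
    · have := hc0.tendsto (G 0 0, G 1 0)
      rw [h00] at this
      exact this.eventually hunit
    · have : Filter.Tendsto (fun w => c0 w - 1) (𝓝 (G 0 0, G 1 0)) (𝓝 0) := by
        have h1 : Continuous (fun w => c0 w - 1) := hc0.sub continuous_const
        have h2 := h1.tendsto (G 0 0, G 1 0)
        simp only [h00, sub_self] at h2
        exact h2
      exact this hN
    · have := hc1.tendsto (G 0 0, G 1 0)
      rw [h10] at this
      exact this hN
  obtain ⟨⟨p, q⟩, hpq⟩ : ∃ pq : F × F, IsUnit (c0 (algebraMap F Rf pq.1, algebraMap F Rf pq.2)) ∧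
      c0 (algebraMap F Rf pq.1, algebraMap F Rf pq.2) - 1 ∈ N ∧
      c1 (algebraMap F Rf pq.1, algebraMap F Rf pq.2) ∈ N := by
    have hd : DenseRange (Prod.map (algebraMap F Rf) (algebraMap F Rf)) := hdense.prodMap hdense
    exact hd.mem_nhds hev
  obtain ⟨hu, hN0, hN1⟩ := hpq
  have hu' := hu
  obtain ⟨u, hu⟩ := hu
  set P := algebraMap F Rf p with hP
  set Q := algebraMap F Rf q with hQ
  have hpq0 : p ≠ 0 ∨ q ≠ 0 := by
    by_contra hcon
    push Not at hcon
    rw [hP, hQ, hcon.1, hcon.2, map_zero] at hu'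
    simp only [c0, mul_zero, add_zero] at hu'
    exact not_isUnit_zero hu'
  obtain ⟨γ, s, hs, hp, hq⟩ := exists_primitive (O := O) p q hpq0
  have hGG2 : G * G' = 1 := by
    have : ((g * g⁻¹ : GL (Fin 2) Rf) : Matrix (Fin 2) (Fin 2) Rf) = 1 := by
      rw [mul_inv_cancel]; rfl
    exact this
  -- the element of `U`
  let h : GL (Fin 2) Rf :=
    { val := !![(u : Rf), 0; c1 (P, Q), 1]
      inv := !![((u⁻¹ : Rfˣ) : Rf), 0; -(c1 (P, Q) * (u⁻¹ : Rfˣ)), 1]
      val_inv := by
        ext i j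
        fin_cases i <;> fin_cases j <;> simp
      inv_val := by
        ext i j
        fin_cases i <;> fin_cases j <;> simp }
  have hh : ((h : GL (Fin 2) Rf) : Matrix (Fin 2) (Fin 2) Rf) = !![(u : Rf), 0; c1 (P, Q), 1] := rfl
  have hgh : ((g * h : GL (Fin 2) Rf) : Matrix (Fin 2) (Fin 2) Rf) =
      G * !![(u : Rf), 0; c1 (P, Q), 1] := rfl
  have hgh0 : ((g * h : GL (Fin 2) Rf) : Matrix (Fin 2) (Fin 2) Rf) 0 0 = P := by
    rw [hgh]
    have e1 := congrFun (congrFun hGG2 0) 0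
    have e2 := congrFun (congrFun hGG2 0) 1
    simp only [Matrix.mul_apply, Fin.sum_univ_two, Matrix.one_apply_eq, Fin.isValue,
      Matrix.one_apply, zero_ne_one, if_false] at e1 e2
    simp only [Matrix.mul_apply, Fin.sum_univ_two, Matrix.of_apply, Matrix.cons_val', Fin.isValue,
      Matrix.cons_val_zero, Matrix.cons_val_one, Matrix.cons_val_fin_one]
    rw [hu]
    simp only [c0, c1]
    linear_combination P * e1 + Q * e2
  have hgh1 : ((g * h : GL (Fin 2) Rf) : Matrix (Fin 2) (Fin 2) Rf) 1 0 = Q := by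
    rw [hgh]
    have e1 := congrFun (congrFun hGG2 1) 0
    have e2 := congrFun (congrFun hGG2 1) 1
    simp only [Matrix.mul_apply, Fin.sum_univ_two, Matrix.one_apply_eq, Fin.isValue,
      Matrix.one_apply, one_ne_zero, if_false] at e1 e2
    simp only [Matrix.mul_apply, Fin.sum_univ_two, Matrix.of_apply, Matrix.cons_val', Fin.isValue,
      Matrix.cons_val_zero, Matrix.cons_val_one, Matrix.cons_val_fin_one]
    rw [hu]
    simp only [c0, c1]
    linear_combination P * e1 + Q * e2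
  set Γ : GL (Fin 2) Rf := Matrix.GeneralLinearGroup.map (algebraMap O Rf) γ with hΓ
  have hΓe : ∀ i j, (Γ : Matrix (Fin 2) (Fin 2) Rf) i j =
      algebraMap O Rf ((γ : Matrix (Fin 2) (Fin 2) O) i j) := fun i j => rfl
  have hPs : P = algebraMap F Rf s * (Γ : Matrix (Fin 2) (Fin 2) Rf) 0 0 := by
    rw [hΓe, hP, hp, map_mul, ← IsScalarTower.algebraMap_apply]
  have hQs : Q = algebraMap F Rf s * (Γ : Matrix (Fin 2) (Fin 2) Rf) 1 0 := by
    rw [hΓe, hQ, hq, map_mul, ← IsScalarTower.algebraMap_apply]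
  have hb : ((Γ⁻¹ * (g * h) : GL (Fin 2) Rf) : Matrix (Fin 2) (Fin 2) Rf) 1 0 = 0 := by
    have e0 : ((Γ⁻¹ * Γ : GL (Fin 2) Rf) : Matrix (Fin 2) (Fin 2) Rf) = 1 := by
      rw [inv_mul_cancel]; rfl
    have e1 : ((Γ⁻¹ : GL (Fin 2) Rf) : Matrix (Fin 2) (Fin 2) Rf) *
      (Γ : Matrix (Fin 2) (Fin 2) Rf) = 1 := e0
    have e2 := congrFun (congrFun e1 1) 0
    simp only [Matrix.mul_apply, Fin.sum_univ_two, Fin.isValue,
      Matrix.one_apply, one_ne_zero, if_false] at e2
    show (((Γ⁻¹ : GL (Fin 2) Rf) : Matrix (Fin 2) (Fin 2) Rf) *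
      ((g * h : GL (Fin 2) Rf) : Matrix (Fin 2) (Fin 2) Rf)) 1 0 = 0
    rw [Matrix.mul_apply, Fin.sum_univ_two, hgh0, hgh1, hPs, hQs]
    linear_combination algebraMap F Rf s * e2
  obtain ⟨t, a, d, hbd⟩ := exists_upper _ hb
  refine ⟨γ, t, a, d, h, ?_, ?_⟩
  · intro i j
    rw [hh]
    have h0N : (0 : Rf) ∈ N := mem_of_mem_nhds hN
    fin_cases i <;> fin_cases j
    · simpa [hu] using hN0
    · simpa using h0N
    · simpa using hN1
    · simpa using h0N
  · rw [← hbd, ← hΓ, mul_inv_cancel_left]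

end Fermat.Agent.LT.Kap
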