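import Fermat.Agent.LT.Kappa.Hecke

/-!
# The small group `V` and its character `χ`

`V = { z · (1 + a, b; c, 1) : a ∈ α, b ∈ β, c ∈ γ }`, `χ = θ₀(b)`, for additive subgroups
`α, β, γ, κ` of the ring `R` with `βγ ⊂ α`, `αβ ⊂ κ ⊂ β`, `θ₀ = 1` on `κ`.
-/

namespace Fermat.Agent.LT.Kap

open Topology

/-- Data defining the pair `(V, χ)`. -/
structure TyDat (R : Type*) [CommRing R] where
  /-- diagonal part -/
  α : AddSubgroup R
  /-- upper right entries -/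
  β : AddSubgroup R
  /-- lower left entries -/
  γ : AddSubgroup R
  /-- kernel -/
  κ : AddSubgroup R
  unit : ∀ x ∈ α, ∃ y ∈ α, (1 + x) * (1 + y) = 1
  αα : ∀ x ∈ α, ∀ y ∈ α, x * y ∈ α
  αβ : ∀ x ∈ α, ∀ y ∈ β, x * y ∈ κ
  αγ : ∀ x ∈ α, ∀ y ∈ γ, x * y ∈ γ
  βγ : ∀ x ∈ β, ∀ y ∈ γ, x * y ∈ α
  κβ : κ ≤ β
  /-- the character of the upper unipotent group -/
  θ₀ : AddChar R Circle
  θκ : ∀ x ∈ κ, θ₀ x = 1

namespace TyDat

variable {R : Type*} [CommRing R] (D : TyDat R)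

theorem αβ' {x y : R} (hx : x ∈ D.α) (hy : y ∈ D.β) : x * y ∈ D.β := D.κβ (D.αβ x hx y hy)

/-- membership in `V`, unfolded. -/
def Mem (g : GL (Fin 2) R) (z : Rˣ) (a b c : R) : Prop :=
  a ∈ D.α ∧ b ∈ D.β ∧ c ∈ D.γ ∧
    (g : Matrix (Fin 2) (Fin 2) R) = !![(z : R) * (1 + a), z * b; z * c, z]

variable {D}

theorem Mem.mul {g g' : GL (Fin 2) R} {z z' : Rˣ} {a b c a' b' c' : R} (h : D.Mem g z a b c)
    (h' : D.Mem g' z' a' b' c') : ∃ (z'' : Rˣ) (a'' b'' c'' : R), D.Mem (g * g') z'' a'' b'' c'' ∧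
      b'' - (b + b') ∈ D.κ := by
  obtain ⟨ha, hb, hc, hg⟩ := h
  obtain ⟨ha', hb', hc', hg'⟩ := h'
  have hcb : b' * c ∈ D.α := D.βγ _ hb' _ hc
  have hbc : b * c' ∈ D.α := D.βγ _ hb _ hc'
  obtain ⟨y, hy, hyD⟩ := D.unit _ hcb
  let d : Rˣ := ⟨1 + b' * c, 1 + y, hyD, by rw [mul_comm]; exact hyD⟩
  have hd : (d : R) = 1 + b' * c := rfl
  have hs : a + a' + a * a' + b * c' ∈ D.α :=
    D.α.add_mem (D.α.add_mem (D.α.add_mem ha ha') (D.αα _ ha _ ha')) hbc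
  have hbb : b + b' + a * b' ∈ D.β := D.β.add_mem (D.β.add_mem hb hb') (D.αβ' ha hb')
  have hcc : c + c' + a' * c ∈ D.γ := D.γ.add_mem (D.γ.add_mem hc hc') (D.αγ _ ha' _ hc)
  refine ⟨z * z' * d, a + a' + a * a' + b * c' + y + y * (a + a' + a * a' + b * c'),
    b + b' + a * b' + y * (b + b' + a * b'), c + c' + a' * c + y * (c + c' + a' * c),
    ⟨?_, ?_, ?_, ?_⟩, ?_⟩
  · exact D.α.add_mem (D.α.add_mem hs hy) (D.αα _ hy _ hs)
  · exact D.β.add_mem hbb (D.αβ' hy hbb)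
  · exact D.γ.add_mem hcc (D.αγ _ hy _ hcc)
  · have : ((g * g' : GL (Fin 2) R) : Matrix (Fin 2) (Fin 2) R) =
      (g : Matrix (Fin 2) (Fin 2) R) * (g' : Matrix (Fin 2) (Fin 2) R) := rfl
    rw [this, hg, hg']
    ext i j
    fin_cases i <;> fin_cases j <;>
      simp only [Matrix.mul_apply, Fin.sum_univ_two, Matrix.of_apply, Matrix.cons_val', Fin.isValue,
        Matrix.cons_val_zero, Matrix.cons_val_one, Matrix.cons_val_fin_one, Units.val_mul, hd,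
        Fin.zero_eta, Fin.mk_one]
    · linear_combination (-(z : R) * z' * (1 + a + a' + a * a' + b * c')) * hyD
    · linear_combination (-(z : R) * z' * (b + b' + a * b')) * hyD
    · linear_combination (-(z : R) * z' * (c + c' + a' * c)) * hyD
    · ring
  · have h1 : b + b' + a * b' + y * (b + b' + a * b') - (b + b') =
      a * b' + y * (b + b' + a * b') := by ring
    rw [h1]
    exact D.κ.add_mem (D.αβ _ ha _ hb') (D.αβ _ hy _ hbb)

theorem Mem.inv {g : GL (Fin 2) R} {z : Rˣ} {a b c : R} (h : D.Mem g z a b c) :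
    ∃ (z'' : Rˣ) (a'' b'' c'' : R), D.Mem g⁻¹ z'' a'' b'' c'' := by
  obtain ⟨ha, hb, hc, hg⟩ := h
  -- the determinant `1 + a - b c` is a unit
  have hs : a - b * c ∈ D.α := D.α.sub_mem ha (D.βγ _ hb _ hc)
  obtain ⟨w, hw, hwD⟩ := D.unit _ hs
  obtain ⟨y, hy, hyD⟩ := D.unit _ ha
  let d : Rˣ := ⟨(1 + a) * (1 + w), (1 + (a - b * c)) * (1 + y), by
    linear_combination ((1 + a) * (1 + y)) * hwD + hyD, by
    linear_combination ((1 + a) * (1 + y)) * hwD + hyD⟩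
  have hd : (d : R) = (1 + a) * (1 + w) := rfl
  have hby : b * (1 + y) ∈ D.β := by
    rw [mul_add, mul_one, mul_comm b y]; exact D.β.add_mem hb (D.αβ' hy hb)
  have hcy : c * (1 + y) ∈ D.γ := by
    rw [mul_add, mul_one, mul_comm c y]; exact D.γ.add_mem hc (D.αγ _ hy _ hc)
  refine ⟨z⁻¹ * d, y, -(b * (1 + y)), -(c * (1 + y)), hy, D.β.neg_mem hby, D.γ.neg_mem hcy, ?_⟩
  have hzz : ((z⁻¹ : Rˣ) : R) * (z : R) = 1 := Units.inv_mul z
  have e1 : !![((z⁻¹ * d : Rˣ) : R) * (1 + y), ((z⁻¹ * d : Rˣ) : R) * (-(b * (1 + y)));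
      ((z⁻¹ * d : Rˣ) : R) * (-(c * (1 + y))), ((z⁻¹ * d : Rˣ) : R)] *
      (g : Matrix (Fin 2) (Fin 2) R) = 1 := by
    rw [hg]
    ext i j
    fin_cases i <;> fin_cases j <;>
      simp only [Matrix.mul_apply, Fin.sum_univ_two, Matrix.of_apply, Matrix.cons_val', Fin.isValue,
        Matrix.cons_val_zero, Matrix.cons_val_one, Matrix.cons_val_fin_one, Units.val_mul, hd,
        Fin.zero_eta, Fin.mk_one, Matrix.one_apply_eq, Matrix.one_apply, one_ne_zero, zero_ne_one,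
        if_false]
    · linear_combination ((1 + a) * (1 + y) * (1 + (a - b * c)) * (1 + w)) * hzz +
        ((1 + a) * (1 + y)) * hwD + hyD
    · ring
    · linear_combination (-((z⁻¹ : Rˣ) : R) * z * c * (1 + a) * (1 + w)) * hyD
    · linear_combination ((1 + a) * (1 + w) - (1 + a) * (1 + w) * c * b * (1 + y)) * hzz +
        (-(1 + w) * b * c) * hyD + hwD
  have e2 : (g : Matrix (Fin 2) (Fin 2) R) *
      ((g⁻¹ : GL (Fin 2) R) : Matrix (Fin 2) (Fin 2) R) = 1 := by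
    have : ((g * g⁻¹ : GL (Fin 2) R) : Matrix (Fin 2) (Fin 2) R) = 1 := by
      rw [mul_inv_cancel]; rfl
    exact this
  calc ((g⁻¹ : GL (Fin 2) R) : Matrix (Fin 2) (Fin 2) R) = 1 * _ := (Matrix.one_mul _).symm
    _ = _ := by rw [← e1, Matrix.mul_assoc, e2, Matrix.mul_one]

variable (D)

/-- The group `V` (it contains the scalars). -/
def V : Subgroup (GL (Fin 2) R) where
  carrier := {g | ∃ z a b c, D.Mem g z a b c}
  mul_mem' := by
    rintro g g' ⟨z, a, b, c, h⟩ ⟨z', a', b', c', h'⟩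
    obtain ⟨z'', a'', b'', c'', h'', -⟩ := h.mul h'
    exact ⟨z'', a'', b'', c'', h''⟩
  one_mem' := by
    refine ⟨1, 0, 0, 0, D.α.zero_mem, D.β.zero_mem, D.γ.zero_mem, ?_⟩
    ext i j; fin_cases i <;> fin_cases j <;> simp
  inv_mem' := by
    rintro g ⟨z, a, b, c, h⟩
    obtain ⟨z'', a'', b'', c'', h''⟩ := h.inv
    exact ⟨z'', a'', b'', c'', h''⟩

theorem mem_V {g : GL (Fin 2) R} : g ∈ D.V ↔ ∃ z a b c, D.Mem g z a b c := Iff.rfl

variable {D}

/-- the entries `z, b` are determined by `g`. -/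
theorem Mem.eq {g : GL (Fin 2) R} {z z' : Rˣ} {a b c a' b' c' : R} (h : D.Mem g z a b c)
    (h' : D.Mem g z' a' b' c') : z = z' ∧ a = a' ∧ b = b' ∧ c = c' := by
  obtain ⟨-, -, -, hg⟩ := h
  obtain ⟨-, -, -, hg'⟩ := h'
  rw [hg] at hg'
  have h11 := congrFun (congrFun hg' 1) 1
  have h01 := congrFun (congrFun hg' 0) 1
  have h10 := congrFun (congrFun hg' 1) 0
  have h00 := congrFun (congrFun hg' 0) 0
  simp at h11 h01 h10 h00
  have hz : z = z' := Units.ext h11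
  subst hz
  refine ⟨rfl, ?_, ?_, ?_⟩
  · have := z.isUnit.mul_left_cancel h00
    exact add_left_cancel this
  · exact z.isUnit.mul_left_cancel h01
  · exact z.isUnit.mul_left_cancel h10

variable (D)

/-- the character `χ` of `V`, as a function on the whole group. -/
noncomputable def chi (g : GL (Fin 2) R) : Circle :=
  open Classical in
  if h : ∃ z a b c, D.Mem g z a b c then D.θ₀ (Classical.choose (Classical.choose_spec
    (Classical.choose_spec h))) else 1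

variable {D}

theorem Mem.chi {g : GL (Fin 2) R} {z : Rˣ} {a b c : R} (h : D.Mem g z a b c) :
    D.chi g = D.θ₀ b := by
  have h1 : ∃ z a b c, D.Mem g z a b c := ⟨z, a, b, c, h⟩
  unfold TyDat.chi
  rw [dif_pos h1]
  congr 1
  obtain ⟨c', h2⟩ := Classical.choose_spec (Classical.choose_spec (Classical.choose_spec h1))
  exact (h2.eq h).2.2.1

theorem chi_mul {g g' : GL (Fin 2) R} (hg : g ∈ D.V) (hg' : g' ∈ D.V) :
    D.chi (g * g') = D.chi g * D.chi g' := by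
  obtain ⟨z, a, b, c, h⟩ := hg
  obtain ⟨z', a', b', c', h'⟩ := hg'
  obtain ⟨z'', a'', b'', c'', h'', hk⟩ := h.mul h'
  rw [h.chi, h'.chi, h''.chi, ← AddChar.map_add_eq_mul]
  have h3 : b'' = (b'' - (b + b')) + (b + b') := by ring
  rw [h3, AddChar.map_add_eq_mul, D.θκ _ hk, one_mul]

theorem nn_mem {b : R} (hb : b ∈ D.β) : D.Mem (nn b) 1 0 b 0 := by
  refine ⟨D.α.zero_mem, hb, D.γ.zero_mem, ?_⟩
  rw [coe_nn]
  ext i j; fin_cases i <;> fin_cases j <;> simp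

theorem nn_mem_V {b : R} (hb : b ∈ D.β) : nn b ∈ D.V := ⟨_, _, _, _, nn_mem hb⟩

theorem chi_nn {b : R} (hb : b ∈ D.β) : D.chi (nn b) = D.θ₀ b := (nn_mem hb).chi

theorem dg_mem {u z : Rˣ} (h : ∃ x ∈ D.α, (u : R) = z * (1 + x)) :
    ∃ x, D.Mem (dg u z) z x 0 0 := by
  obtain ⟨x, hx, hu⟩ := h
  refine ⟨x, hx, D.β.zero_mem, D.γ.zero_mem, ?_⟩
  rw [coe_dg, hu]
  ext i j; fin_cases i <;> fin_cases j <;> simp

/-- `V = N(β) · (lower triangular part)`. -/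
theorem Mem.nn_inv_mul {g : GL (Fin 2) R} {z : Rˣ} {a b c : R} (h : D.Mem g z a b c) :
    D.Mem (nn (-b) * g) z (a - b * c) 0 c := by
  obtain ⟨ha, hb, hc, hg⟩ := h
  refine ⟨D.α.sub_mem ha (D.βγ _ hb _ hc), D.β.zero_mem, hc, ?_⟩
  have : ((nn (-b) * g : GL (Fin 2) R) : Matrix (Fin 2) (Fin 2) R) =
      (nn (-b) : GL (Fin 2) R) * (g : Matrix (Fin 2) (Fin 2) R) := rfl
  rw [this, hg, coe_nn]
  ext i j; fin_cases i <;> fin_cases j <;> simp [Matrix.mul_apply, Fin.sum_univ_two] <;> ring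

/-- the lower triangular part factors as a scalar times `diag(1 + a, 1)` times a lower unipotent. -/
def nl (c : R) : GL (Fin 2) R where
  val := !![1, 0; c, 1]
  inv := !![1, 0; -c, 1]
  val_inv := by ext i j; fin_cases i <;> fin_cases j <;> simp
  inv_val := by ext i j; fin_cases i <;> fin_cases j <;> simp

theorem Mem.eq_mul {g : GL (Fin 2) R} {z : Rˣ} {a c : R} (h : D.Mem g z a 0 c) :
    ∃ u : Rˣ, (u : R) = 1 + a ∧ g = dg u 1 * nl c * dg z z := by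
  obtain ⟨ha, -, hc, hg⟩ := h
  obtain ⟨y, hy, hyD⟩ := D.unit _ ha
  refine ⟨⟨1 + a, 1 + y, hyD, by rw [mul_comm]; exact hyD⟩, rfl, ?_⟩
  ext i j
  have : ((dg ⟨1 + a, 1 + y, hyD, by rw [mul_comm]; exact hyD⟩ 1 * nl c * dg z z : GL (Fin 2) R) :
      Matrix (Fin 2) (Fin 2) R) = !![1 + a, 0; 0, 1] * !![1, 0; c, 1] * !![(z : R), 0; 0, z] := by
    rfl
  rw [this, hg]
  fin_cases i <;> fin_cases j <;> simp [Matrix.mul_apply, Fin.sum_univ_two, mul_comm]

end TyDat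

end Fermat.Agent.LT.Kap
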