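import Fermat.Agent.LT.Kappa.Space
import Fermat.Agent.LT.Kappa.Dense
import Fermat.Agent.LT.Kappa.Type

/-!
# The Kirillov function of a Hecke eigenfunction on `X_∞ × GL₂(R_f)`

Injectivity of `κ`, multiplicity one for the pair `(V, χ)`.
-/

namespace Fermat.Agent.LT.Kap

open MeasureTheory Topology

/-- The space `X_∞ × GL₂(R_f)`. -/
@[ext] structure Sp (Xi Rf : Type*) [CommRing Rf] where
  /-- infinite component -/
  i : Xi
  /-- finite component -/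
  f : GL (Fin 2) Rf

section Basic

variable {Ri Rf Xi : Type*} [CommRing Ri] [CommRing Rf] [MulAction (GL (Fin 2) Ri) Xi]

instance : MulAction (GL (Fin 2) (Ri × Rf)) (Sp Xi Rf) where
  smul g x := ⟨Matrix.GeneralLinearGroup.map (RingHom.fst Ri Rf) g • x.i,
    Matrix.GeneralLinearGroup.map (RingHom.snd Ri Rf) g * x.f⟩
  one_smul x := by
    show (⟨Matrix.GeneralLinearGroup.map (RingHom.fst Ri Rf) 1 • x.i,
      Matrix.GeneralLinearGroup.map (RingHom.snd Ri Rf) 1 * x.f⟩ : Sp Xi Rf) = x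
    rw [map_one, map_one, one_smul, one_mul]
  mul_smul g h x := by
    show (⟨Matrix.GeneralLinearGroup.map (RingHom.fst Ri Rf) (g * h) • x.i,
      Matrix.GeneralLinearGroup.map (RingHom.snd Ri Rf) (g * h) * x.f⟩ : Sp Xi Rf) =
      ⟨Matrix.GeneralLinearGroup.map (RingHom.fst Ri Rf) g •
        Matrix.GeneralLinearGroup.map (RingHom.fst Ri Rf) h • x.i,
      Matrix.GeneralLinearGroup.map (RingHom.snd Ri Rf) g *
        (Matrix.GeneralLinearGroup.map (RingHom.snd Ri Rf) h * x.f)⟩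
    rw [map_mul, map_mul, mul_smul, mul_assoc]

theorem smul_mk (g : GL (Fin 2) (Ri × Rf)) (z : Xi) (h : GL (Fin 2) Rf) :
    g • (⟨z, h⟩ : Sp Xi Rf) = ⟨Matrix.GeneralLinearGroup.map (RingHom.fst Ri Rf) g • z,
      Matrix.GeneralLinearGroup.map (RingHom.snd Ri Rf) g * h⟩ := rfl

theorem smul_eq (g : GL (Fin 2) (Ri × Rf)) (x : Sp Xi Rf) :
    g • x = ⟨Matrix.GeneralLinearGroup.map (RingHom.fst Ri Rf) g • x.i,
      Matrix.GeneralLinearGroup.map (RingHom.snd Ri Rf) g * x.f⟩ := rfl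

theorem nn_smul_mk (t : Ri × Rf) (z : Xi) (h : GL (Fin 2) Rf) :
    (nn t : GL (Fin 2) (Ri × Rf)) • (⟨z, h⟩ : Sp Xi Rf) = ⟨nn t.1 • z, nn t.2 * h⟩ := by
  rw [smul_mk, map_nn, map_nn]; rfl

/-- pairs of units. -/
def pu (u : Riˣ) (v : Rfˣ) : (Ri × Rf)ˣ where
  val := (u, v)
  inv := ((u⁻¹ : Riˣ), (v⁻¹ : Rfˣ))
  val_inv := by ext <;> simp
  inv_val := by ext <;> simp

theorem dg_smul_mk (a d : (Ri × Rf)ˣ) (z : Xi) (h : GL (Fin 2) Rf) :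
    (dg a d : GL (Fin 2) (Ri × Rf)) • (⟨z, h⟩ : Sp Xi Rf) =
      ⟨dg (Units.map (RingHom.fst Ri Rf : Ri × Rf →* Ri) a)
        (Units.map (RingHom.fst Ri Rf : Ri × Rf →* Ri) d) • z,
        dg (Units.map (RingHom.snd Ri Rf : Ri × Rf →* Rf) a)
          (Units.map (RingHom.snd Ri Rf : Ri × Rf →* Rf) d) * h⟩ := by
  rw [smul_mk, map_dg, map_dg]

theorem dg_pu_one_smul_mk (Ri : Type*) [CommRing Ri] [MulAction (GL (Fin 2) Ri) Xi]
    (v w : Rfˣ) (z : Xi) (h : GL (Fin 2) Rf) :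
    (dg (pu (1 : Riˣ) v) (pu (1 : Riˣ) w) : GL (Fin 2) (Ri × Rf)) • (⟨z, h⟩ : Sp Xi Rf) =
      ⟨z, dg v w * h⟩ := by
  rw [dg_smul_mk]
  have e1 : Units.map (RingHom.fst Ri Rf : Ri × Rf →* Ri) (pu (1 : Riˣ) v) = 1 := by ext; rfl
  have e2 : Units.map (RingHom.fst Ri Rf : Ri × Rf →* Ri) (pu (1 : Riˣ) w) = 1 := by ext; rfl
  have e3 : Units.map (RingHom.snd Ri Rf : Ri × Rf →* Rf) (pu (1 : Riˣ) v) = v := by ext; rfl
  have e4 : Units.map (RingHom.snd Ri Rf : Ri × Rf →* Rf) (pu (1 : Riˣ) w) = w := by ext; rfl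
  rw [e1, e2, e3, e4, dg_one, one_smul]

theorem dg_comm (d : Rfˣ) (g : GL (Fin 2) Rf) : dg d d * g = g * dg d d := by
  ext i j
  have h1 : ((dg d d * g : GL (Fin 2) Rf) : Matrix (Fin 2) (Fin 2) Rf) =
    !![(d : Rf), 0; 0, d] * (g : Matrix (Fin 2) (Fin 2) Rf) := rfl
  have h2 : ((g * dg d d : GL (Fin 2) Rf) : Matrix (Fin 2) (Fin 2) Rf) =
    (g : Matrix (Fin 2) (Fin 2) Rf) * !![(d : Rf), 0; 0, d] := rfl
  rw [h1, h2]
  fin_cases i <;> fin_cases j <;> simp [Matrix.mul_apply, Fin.sum_univ_two, mul_comm]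

/-- right translation -/
def rt (h : GL (Fin 2) Rf) (ψ : Sp Xi Rf → ℂ) : Sp Xi Rf → ℂ := fun x => ψ ⟨x.i, x.f * h⟩

theorem rt_smul (h : GL (Fin 2) Rf) (ψ : Sp Xi Rf → ℂ) (g : GL (Fin 2) (Ri × Rf)) (x : Sp Xi Rf) :
    rt h ψ (g • x) = ψ (g • (⟨x.i, x.f * h⟩ : Sp Xi Rf)) := by
  rw [smul_eq, smul_mk]
  show ψ ⟨_, _ * _ * _⟩ = _
  rw [mul_assoc]

end Basic

variable {O F Ri Rf Xi : Type*} [CommRing O] [Field F] [CommRing Ri] [TopologicalSpace Ri]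
  [IsTopologicalRing Ri] [CommRing Rf] [TopologicalSpace Rf] [IsTopologicalRing Rf]
  [Algebra O F] [Algebra O Ri] [Algebra F Rf] [Algebra O Rf] [IsScalarTower O F Rf]
  [MulAction (GL (Fin 2) Ri) Xi] {θ : AddChar (Ri × Rf) Circle} {lam : O → ℂ}

/-- right invariance under a neighbourhood of `1`. -/
def Smooth (ψ : Sp Xi Rf → ℂ) : Prop := ∃ N ∈ 𝓝 (0 : Rf), ∀ (z : Xi) (g h : GL (Fin 2) Rf),
  (∀ i j, (h : Matrix (Fin 2) (Fin 2) Rf) i j - (1 : Matrix (Fin 2) (Fin 2) Rf) i j ∈ N) →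
    ψ ⟨z, g * h⟩ = ψ ⟨z, g⟩

theorem Smooth.add {ψ ψ' : Sp Xi Rf → ℂ} (h : Smooth ψ) (h' : Smooth ψ') (c c' : ℂ) :
    Smooth (fun x => c * ψ x + c' * ψ' x) := by
  obtain ⟨N, hN, h1⟩ := h
  obtain ⟨N', hN', h1'⟩ := h'
  refine ⟨N ∩ N', Filter.inter_mem hN hN', fun z g k hk => ?_⟩
  show c * ψ ⟨z, g * k⟩ + c' * ψ' ⟨z, g * k⟩ = c * ψ ⟨z, g⟩ + c' * ψ' ⟨z, g⟩
  rw [h1 z g k fun i j => (hk i j).1, h1' z g k fun i j => (hk i j).2]

theorem exists_box {P : Matrix (Fin 2) (Fin 2) Rf → Prop} (h : ∀ᶠ m in 𝓝 0, P m) :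
    ∃ N ∈ 𝓝 (0 : Rf), ∀ m : Matrix (Fin 2) (Fin 2) Rf, (∀ i j, m i j ∈ N) → P m := by
  have h1 : Filter.Tendsto (fun v : (Rf × Rf) × (Rf × Rf) =>
      (!![v.1.1, v.1.2; v.2.1, v.2.2] : Matrix (Fin 2) (Fin 2) Rf)) (𝓝 ((0, 0), (0, 0))) (𝓝 0) := by
    have hc : Continuous (fun v : (Rf × Rf) × (Rf × Rf) =>
        (!![v.1.1, v.1.2; v.2.1, v.2.2] : Matrix (Fin 2) (Fin 2) Rf)) := by
      refine continuous_matrix fun i j => ?_
      fin_cases i <;> fin_cases j <;> simp <;> fun_prop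
    have h2 := hc.tendsto ((0, 0), (0, 0))
    have h3 : (!![(0 : Rf), 0; 0, 0] : Matrix (Fin 2) (Fin 2) Rf) = 0 := by
      ext i j; fin_cases i <;> fin_cases j <;> rfl
    simpa only [h3] using h2
  have h2 := h1.eventually h
  rw [nhds_prod_eq, nhds_prod_eq, Filter.eventually_iff, Filter.mem_prod_iff] at h2
  obtain ⟨s, hs, t, ht, hst⟩ := h2
  rw [Filter.mem_prod_iff] at hs ht
  obtain ⟨s1, hs1, s2, hs2, hs⟩ := hs
  obtain ⟨t1, ht1, t2, ht2, ht⟩ := ht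
  refine ⟨s1 ∩ s2 ∩ (t1 ∩ t2), Filter.inter_mem (Filter.inter_mem hs1 hs2)
    (Filter.inter_mem ht1 ht2), fun m hm => ?_⟩
  have h3 := hst (Set.mk_mem_prod (hs (Set.mk_mem_prod (hm 0 0).1.1 (hm 0 1).1.2))
    (ht (Set.mk_mem_prod (hm 1 0).2.1 (hm 1 1).2.2)))
  have h4 : (!![m 0 0, m 0 1; m 1 0, m 1 1] : Matrix (Fin 2) (Fin 2) Rf) = m := by
    ext i j; fin_cases i <;> fin_cases j <;> rfl
  simpa only [Set.mem_setOf_eq, h4] using h3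

theorem Smooth.rt {ψ : Sp Xi Rf → ℂ} (h : Smooth ψ) (k : GL (Fin 2) Rf) : Smooth (rt k ψ) := by
  obtain ⟨N, hN, h1⟩ := h
  have h2 : ∀ᶠ m in 𝓝 (0 : Matrix (Fin 2) (Fin 2) Rf),
      ∀ i j, (((k⁻¹ : GL (Fin 2) Rf) : Matrix (Fin 2) (Fin 2) Rf) * m *
        (k : Matrix (Fin 2) (Fin 2) Rf)) i j ∈ N := by
    rw [Filter.eventually_all]
    intro i
    rw [Filter.eventually_all]
    intro j
    have hc : Continuous (fun m : Matrix (Fin 2) (Fin 2) Rf =>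
        (((k⁻¹ : GL (Fin 2) Rf) : Matrix (Fin 2) (Fin 2) Rf) * m *
        (k : Matrix (Fin 2) (Fin 2) Rf)) i j) :=
      ((continuous_const.matrix_mul continuous_id).matrix_mul continuous_const).matrix_elem i j
    have h3 := hc.tendsto 0
    rw [Matrix.mul_zero, Matrix.zero_mul] at h3
    exact h3 hN
  obtain ⟨N', hN', h3⟩ := exists_box h2
  refine ⟨N', hN', fun z g h hh => ?_⟩
  show ψ ⟨z, g * h * k⟩ = ψ ⟨z, g * k⟩
  have e1 : g * h * k = g * k * (k⁻¹ * h * k) := by group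
  rw [e1]
  refine h1 z (g * k) _ fun i j => ?_
  have h4 := h3 ((h : Matrix (Fin 2) (Fin 2) Rf) - 1) (fun i j => hh i j) i j
  have e2 : ((k⁻¹ : GL (Fin 2) Rf) : Matrix (Fin 2) (Fin 2) Rf) *
      ((h : Matrix (Fin 2) (Fin 2) Rf) - 1) * (k : Matrix (Fin 2) (Fin 2) Rf) =
      ((k⁻¹ * h * k : GL (Fin 2) Rf) : Matrix (Fin 2) (Fin 2) Rf) - 1 := by
    have e3 : ((k⁻¹ * k : GL (Fin 2) Rf) : Matrix (Fin 2) (Fin 2) Rf) = 1 := by
      rw [inv_mul_cancel]; rfl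
    have e4 : ((k⁻¹ : GL (Fin 2) Rf) : Matrix (Fin 2) (Fin 2) Rf) *
      (k : Matrix (Fin 2) (Fin 2) Rf) = 1 := e3
    rw [Matrix.mul_sub, Matrix.sub_mul, Matrix.mul_one, e4]
    rfl
  rw [e2] at h4
  exact h4

variable [CompactSpace ((Ri × Rf) ⧸ lat O (Ri × Rf))]

/-- The space `W` attached to a system of eigenvalues and a function `w∞`. -/
structure InW (O : Type*) {Ri Rf Xi : Type*} [CommRing O] [CommRing Ri] [TopologicalSpace Ri]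
    [IsTopologicalRing Ri] [CommRing Rf] [TopologicalSpace Rf] [IsTopologicalRing Rf]
    [Algebra O Ri] [Algebra O Rf] [MulAction (GL (Fin 2) Ri) Xi]
    [CompactSpace ((Ri × Rf) ⧸ lat O (Ri × Rf))] (θ : AddChar (Ri × Rf) Circle) (lam : O → ℂ)
    (wi : Xi → ℂ) (ψ : Sp Xi Rf → ℂ) : Prop where
  aut : IsAut (A := Ri × Rf) O ψ
  eig : IsEig (A := Ri × Rf) O lam ψ
  cusp : ∀ x, wh O θ ψ 0 x = 0
  smooth : Smooth ψ
  line : ∀ g, ∃ c : ℂ, ∀ z, wh O θ ψ 1 (⟨z, g⟩ : Sp Xi Rf) = c * wi z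

theorem right_scal {ψ : Sp Xi Rf → ℂ} (h : IsAut (A := Ri × Rf) O ψ) (z : Xi)
    (g : GL (Fin 2) Rf) (d : Rfˣ) : ψ ⟨z, g * dg d d⟩ = ψ ⟨z, g⟩ := by
  rw [← dg_comm, ← dg_pu_one_smul_mk Ri d d z g, h.scal]

theorem wh_rt (ψ : Sp Xi Rf → ℂ) (k : GL (Fin 2) Rf) (a : O) (x : Sp Xi Rf) :
    wh O θ (rt k ψ) a x = wh O θ ψ a (⟨x.i, x.f * k⟩ : Sp Xi Rf) := by
  unfold wh
  congr 1
  ext t
  exact rt_smul k ψ _ x

theorem InW.rt {wi : Xi → ℂ} {ψ : Sp Xi Rf → ℂ} (h : InW O θ lam wi ψ) (k : GL (Fin 2) Rf) :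
    InW O θ lam wi (rt k ψ) where
  aut := by
    refine ⟨fun γ x => ?_, fun z x => ?_, fun x => ?_⟩
    · rw [rt_smul, h.aut.inv]; rfl
    · rw [rt_smul, h.aut.scal]; rfl
    · have := h.aut.cont ⟨x.i, x.f * k⟩
      refine this.congr fun t => (rt_smul k ψ _ x).symm
  eig := by
    intro p hp
    obtain ⟨u, R, hu, hR, h1⟩ := h.eig p hp
    refine ⟨u, R, hu, hR, fun x => ?_⟩
    have h2 := h1 (⟨x.i, x.f * k⟩ : Sp Xi Rf)
    unfold hecke at h2 ⊢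
    rw [rt_smul]
    show _ = lam p * ψ ⟨x.i, x.f * k⟩
    rw [← h2]
    congr 1
    refine Finset.sum_congr rfl fun b _ => ?_
    rw [← mul_smul, rt_smul, mul_smul]
  cusp x := by rw [wh_rt, h.cusp]
  smooth := h.smooth.rt k
  line g := by
    obtain ⟨c, hc⟩ := h.line (g * k)
    exact ⟨c, fun z => by rw [wh_rt]; exact hc z⟩

theorem InW.add (hθ : SelfDual O θ) {wi : Xi → ℂ} {ψ ψ' : Sp Xi Rf → ℂ} (h : InW O θ lam wi ψ)
    (h' : InW O θ lam wi ψ') (c c' : ℂ) : InW O θ lam wi (fun x => c * ψ x + c' * ψ' x) where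
  aut := h.aut.add h'.aut c c'
  eig := IsEig.add h'.aut h.eig h'.eig c c'
  cusp x := by rw [wh_add hθ h.aut h'.aut, h.cusp, h'.cusp, mul_zero, mul_zero, add_zero]
  smooth := h.smooth.add h'.smooth c c'
  line g := by
    obtain ⟨d, hd⟩ := h.line g
    obtain ⟨d', hd'⟩ := h'.line g
    refine ⟨c * d + c' * d', fun z => ?_⟩
    rw [wh_add hθ h.aut h'.aut, hd, hd']; ring

/-- left translation by unipotents at the finite places -/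
theorem wh_nn_right (hθ : SelfDual O θ) {ψ : Sp Xi Rf → ℂ} (h : IsAut (A := Ri × Rf) O ψ)
    (z : Xi) (a : Rfˣ) (b : Rf) :
    wh O θ ψ 1 (⟨z, dg a 1 * nn b⟩ : Sp Xi Rf) =
      (θ (0, a * b) : ℂ) * wh O θ ψ 1 (⟨z, dg a 1⟩ : Sp Xi Rf) := by
  have h1 : (⟨z, dg a 1 * nn b⟩ : Sp Xi Rf) =
      (nn ((0, (a : Rf) * b) : Ri × Rf) : GL (Fin 2) (Ri × Rf)) • (⟨z, dg a 1⟩ : Sp Xi Rf) := by
    rw [nn_smul_mk, nn_zero, one_smul, dg_mul_nn, inv_one, Units.val_one, mul_one]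
  rw [h1, wh_nn hθ h]
  congr 1
  simp only [ch]
  rw [map_one, one_mul]

variable [IsDomain O] [IsPrincipalIdealRing O] [IsFractionRing O F]

/-- **`κ` is injective.** -/
theorem eq_zero_of_kappa (F : Type*) [Field F] [Algebra O F] [Algebra F Rf] [IsScalarTower O F Rf]
    [IsFractionRing O F] [IsClosed (lat O (Ri × Rf) : Set (Ri × Rf))] [Nontrivial Rf]
    (hinj : Function.Injective (algebraMap O (Ri × Rf)))
    (hθ : SelfDual O θ) (hunit : ∀ a : O, a ≠ 0 → IsUnit (algebraMap O (Ri × Rf) a))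
    (hdense : DenseRange (algebraMap F Rf)) (hu : ∀ᶠ x in 𝓝 (1 : Rf), IsUnit x)
    {ψ : Sp Xi Rf → ℂ} (h : IsAut (A := Ri × Rf) O ψ) (he : IsEig (A := Ri × Rf) O lam ψ)
    (hc : ∀ x, wh O θ ψ 0 x = 0) (hs : Smooth ψ)
    (h1 : ∀ (z : Xi) (a : Rfˣ), wh O θ ψ 1 (⟨z, dg a 1⟩ : Sp Xi Rf) = 0) (x : Sp Xi Rf) :
    ψ x = 0 := by
  obtain ⟨z, g⟩ := x
  obtain ⟨N, hN, hNψ⟩ := hs
  obtain ⟨γ, t, a, d, k, hk, hgk⟩ := exists_decomp (O := O) hdense hu g hN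
  set Γ : GL (Fin 2) (Ri × Rf) := Matrix.GeneralLinearGroup.map (algebraMap O (Ri × Rf)) γ with hΓ
  have hΓf : Matrix.GeneralLinearGroup.map (RingHom.snd Ri Rf) Γ =
      Matrix.GeneralLinearGroup.map (algebraMap O Rf) γ := by
    ext i j; rfl
  set z' : Xi := (Matrix.GeneralLinearGroup.map (RingHom.fst Ri Rf) Γ)⁻¹ • z with hz'
  have e1 : (⟨z, g * k⟩ : Sp Xi Rf) = Γ • (⟨z', nn t * dg a d⟩ : Sp Xi Rf) := by
    rw [smul_mk, hΓf, ← hgk, hz', smul_inv_smul]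
  have e2 : nn t * dg a d = nn t * dg (a * d⁻¹) 1 * dg d d := by
    rw [mul_assoc, dg_mul_dg, inv_mul_cancel_right, one_mul]
  have e3 : ψ (⟨z, g⟩ : Sp Xi Rf) = ψ (⟨z', nn t * dg (a * d⁻¹) 1⟩ : Sp Xi Rf) := by
    rw [← hNψ z g k hk, e1, hΓ, h.inv, e2, right_scal h]
  rw [e3]
  refine eq_zero_of_wh (A := Ri × Rf) hinj hθ hunit h he (hc _) fun b v hv => ?_
  rw [dg_smul_mk]
  have e4 : dg (Units.map (RingHom.snd Ri Rf : Ri × Rf →* Rf) v)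
      (Units.map (RingHom.snd Ri Rf : Ri × Rf →* Rf) 1) * (nn t * dg (a * d⁻¹) 1) =
      nn ((Units.map (RingHom.snd Ri Rf : Ri × Rf →* Rf) v : Rf) * t) *
        dg (Units.map (RingHom.snd Ri Rf : Ri × Rf →* Rf) v * (a * d⁻¹)) 1 := by
    rw [map_one, ← mul_assoc, dg_mul_nn, inv_one, Units.val_one, mul_one, mul_assoc, dg_mul_dg,
      mul_one]
  have e5 : ∀ (y : Xi) (s : Rf) (c : Rfˣ), wh O θ ψ 1 (⟨y, nn s * dg c 1⟩ : Sp Xi Rf) = 0 := by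
    intro y s c
    have e6 : (⟨y, nn s * dg c 1⟩ : Sp Xi Rf) =
        (nn ((0, s) : Ri × Rf) : GL (Fin 2) (Ri × Rf)) • (⟨y, dg c 1⟩ : Sp Xi Rf) := by
      rw [nn_smul_mk, nn_zero, one_smul]
    rw [e6, wh_nn hθ h, h1, mul_zero]
  have e7 := e5 (dg (Units.map (RingHom.fst Ri Rf : Ri × Rf →* Ri) v)
    (Units.map (RingHom.fst Ri Rf : Ri × Rf →* Ri) 1) • z')
    ((Units.map (RingHom.snd Ri Rf : Ri × Rf →* Rf) v : Rf) * t)
    (Units.map (RingHom.snd Ri Rf : Ri × Rf →* Rf) v * (a * d⁻¹))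
  rw [← e4] at e7
  exact e7

end Fermat.Agent.LT.Kap
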