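import Fermat.Agent.LT.ThetaAS
import Fermat.Agent.LT.SInt
import Fermat.Agent.LT.Kappa.Main

/-!
# The `S`-arithmetic instance of the abstract theory: the rings

`O = OS S`, `A = AS S = F_∞ × ∏_{v ∈ S} F_v`, `θ = thetaA S δ`.
-/

set_option autoImplicit false

open NumberField IsDedekindDomain HeightOneSpectrum WithZero
open scoped WithZero Topology

noncomputable section

namespace Fermat.Agent.LT.Kap

/-! ### systems of representatives -/

section Reps

variable {O : Type*} [CommRing O]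

theorem exists_isReps {p : O} (h : Finite (O ⧸ Ideal.span {p})) : ∃ R : Finset O, IsReps p R := by
  classical
  have := Fintype.ofFinite (O ⧸ Ideal.span {p})
  refine ⟨Finset.univ.image (Quotient.out : O ⧸ Ideal.span {p} → O), fun a => ?_⟩
  have hout : ∀ q : O ⧸ Ideal.span {p}, Ideal.Quotient.mk (Ideal.span {p}) (Quotient.out q) = q :=
    fun q => Quotient.out_eq q
  have hdvd : ∀ x y : O, p ∣ x - y ↔
      Ideal.Quotient.mk (Ideal.span {p}) x = Ideal.Quotient.mk (Ideal.span {p}) y := by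
    intro x y
    rw [Ideal.Quotient.mk_eq_mk_iff_sub_mem, Ideal.mem_span_singleton]
  refine ⟨Quotient.out (Ideal.Quotient.mk (Ideal.span {p}) a), ⟨?_, ?_⟩, ?_⟩
  · exact Finset.mem_image_of_mem _ (Finset.mem_univ _)
  · rw [hdvd, hout]
  · rintro b ⟨hb, hb2⟩
    obtain ⟨q, -, rfl⟩ := Finset.mem_image.mp hb
    rw [hdvd, hout] at hb2
    rw [hb2]

theorem IsReps.card_eq_natCard {p : O} {R : Finset O} (hR : IsReps p R) :
    R.card = Nat.card (O ⧸ Ideal.span {p}) := by
  classical
  have hdvd : ∀ x y : O, p ∣ x - y ↔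
      Ideal.Quotient.mk (Ideal.span {p}) x = Ideal.Quotient.mk (Ideal.span {p}) y := by
    intro x y
    rw [Ideal.Quotient.mk_eq_mk_iff_sub_mem, Ideal.mem_span_singleton]
  have hbij : Function.Bijective
      (fun b : R => Ideal.Quotient.mk (Ideal.span {p}) (b : O)) := by
    constructor
    · intro b b' h
      obtain ⟨c, -, hc⟩ := hR b
      rw [Subtype.ext_iff, hc b ⟨b.2, by rw [sub_self]; exact dvd_zero p⟩,
        hc b' ⟨b'.2, (hdvd _ _).mpr h⟩]
    · intro q
      obtain ⟨a, rfl⟩ := Ideal.Quotient.mk_surjective q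
      obtain ⟨b, ⟨hb, hb2⟩, -⟩ := hR a
      exact ⟨⟨b, hb⟩, ((hdvd _ _).mp hb2).symm⟩
  rw [← Nat.card_eq_of_bijective _ hbij, Nat.card_eq_fintype_card, Fintype.card_coe]

end Reps

open Fermat.Agent.LT.Loc
open Fermat.Agent.LT.Chr hiding Rf

variable {F : Type*} [Field F] [NumberField F] (S : Finset (HeightOneSpectrum (𝓞 F)))

/-- The algebra structure of `A = F_∞ × ∏ F_v` over `O_S` as a product: this is the instance found
by `Kappa/Main`; the default one (through `Subalgebra.toAlgebra`) is equal to it, but not reducibly.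
From here on this instance is used. -/
instance (priority := 10000) algAS : Algebra (OS S) (Rinf F × Rf S) :=
  Prod.algebra (OS S) (Rinf F) (Rf S)

theorem algAS_eq : algAS S = Subalgebra.toAlgebra (OS S) := rfl

theorem algebraMap_apply (a : OS S) :
    algebraMap (OS S) (Rinf F × Rf S) a = algebraMap F (Rinf F × Rf S) (a : F) := rfl

theorem lat_eq_diagOS : lat (OS S) (Rinf F × Rf S) = diagOS S := rfl

instance compactSpace_lat [IsTotallyComplex F] :
    CompactSpace ((Rinf F × Rf S) ⧸ lat (OS S) (Rinf F × Rf S)) :=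
  inferInstanceAs (CompactSpace (AS S ⧸ diagOS S))

instance isClosed_lat : IsClosed (lat (OS S) (Rinf F × Rf S) : Set (Rinf F × Rf S)) :=
  isClosed_diagOS S

/-- self-duality for the instance `algAS` -/
theorem selfDual_A [IsTotallyComplex F] {δ : F} (hδ0 : δ ≠ 0) (hδ : δ ∈ OS S) (hδ' : δ⁻¹ ∈ OS S)
    (hS : ∀ v : HeightOneSpectrum (𝓞 F), v.asIdeal ∣ differentIdeal ℤ (𝓞 F) → v ∈ S) :
    SelfDual (OS S) (A := Rinf F × Rf S) (thetaA S δ) where
  cont := (selfDual_thetaA S hδ0 hδ hδ' hS).cont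
  perp := (selfDual_thetaA S hδ0 hδ hδ' hS).perp

theorem selfDual_A_one [IsTotallyComplex F]
    (hS : ∀ v : HeightOneSpectrum (𝓞 F), v.asIdeal ∣ differentIdeal ℤ (𝓞 F) → v ∈ S) :
    SelfDual (OS S) (A := Rinf F × Rf S) (thetaA S 1) where
  cont := (selfDual_thetaA_one S hS).cont
  perp := (selfDual_thetaA_one S hS).perp

theorem selfDual_A_Q3 [IsTotallyComplex F] (hK : Module.finrank ℚ F = 2) {s : 𝓞 F}
    (hs : s ^ 2 = -3) (hS : ∀ v : HeightOneSpectrum (𝓞 F), (3 : 𝓞 F) ∈ v.asIdeal → v ∈ S) :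
    SelfDual (OS S) (A := Rinf F × Rf S) (thetaA S (s : F)⁻¹) where
  cont := (selfDual_thetaA_Q3 S hK hs hS).cont
  perp := (selfDual_thetaA_Q3 S hK hs hS).perp

example : IsScalarTower (OS S) F (Rf S) := inferInstance
example : IsFractionRing (OS S) F := inferInstance

instance nontrivial_Rinf : Nontrivial (Rinf F) := Function.nontrivial

instance nontrivial_AS : Nontrivial (AS S) := inferInstance

theorem nontrivial_Rf (h : S.Nonempty) : Nontrivial (Rf S) := by
  obtain ⟨v, hv⟩ := h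
  exact Pi.nontrivial_at (⟨v, hv⟩ : S)

theorem algebraMap_F_injective : Function.Injective (algebraMap F (AS S)) :=
  (algebraMap F (AS S)).injective

theorem algebraMap_OS_injective :
    Function.Injective (algebraMap (OS S) (Rinf F × Rf S)) := by
  intro a b h
  exact Subtype.ext (algebraMap_F_injective S h)

theorem isUnit_algebraMap_F {a : F} (ha : a ≠ 0) : IsUnit (algebraMap F (AS S) a) :=
  (IsUnit.mk0 a ha).map _

theorem isUnit_algebraMap_OS (a : OS S) (ha : a ≠ 0) :
    IsUnit (algebraMap (OS S) (Rinf F × Rf S) a) :=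
  isUnit_algebraMap_F S (a := (a : F)) (fun h => ha (Subtype.ext h))

theorem eventually_isUnit : ∀ᶠ x in 𝓝 (1 : Rf S), IsUnit x := by
  have h1 : ∀ᶠ x in 𝓝 (1 : Rf S), ∀ v, x v ≠ 0 := by
    rw [Filter.eventually_all]
    intro v
    have hc : Continuous fun x : Rf S => x v := continuous_apply v
    exact hc.continuousAt.eventually_ne (by simp)
  filter_upwards [h1] with x hx
  rw [Pi.isUnit_iff]
  exact fun v => isUnit_iff_ne_zero.mpr (hx v)

/-- the character is not trivial. -/
theorem exists_thetaA_ne_one {δ : F} (hδ : δ ≠ 0) : ∃ x : AS S, thetaA S δ x ≠ 1 := by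
  classical
  obtain ⟨w₀⟩ : Nonempty (InfinitePlace F) := inferInstance
  have hw : w₀.embedding δ ≠ 0 := (map_ne_zero _).mpr hδ
  refine ⟨(Pi.single w₀ ((1 / 4 : ℂ) / w₀.embedding δ), 0), ?_⟩
  rw [thetaA_inl, Finset.sum_eq_single w₀]
  · rw [Pi.single_eq_same, mul_div_cancel₀ _ hw, Ne, fc_eq_one_iff]
    rintro ⟨n, hn⟩
    norm_num at hn
    have h2 : (1 : ℝ) = 2 * n := by linarith
    have h3 : (1 : ℤ) = 2 * n := by exact_mod_cast h2
    omega
  · intro w _ hw'
    rw [Pi.single_eq_of_ne hw', mul_zero, Complex.zero_re, mul_zero]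
  · exact fun h => absurd (Finset.mem_univ _) h

/-! ### primes of `OS S` -/

section Primes

variable {S}

/-- the prime ideal of `OS S` attached to a place outside `S` -/
def placeIdeal (v : HeightOneSpectrum (𝓞 F)) (hv : v ∉ S) : Ideal (OS S) where
  carrier := {b | v.valuation F (b : F) < 1}
  zero_mem' := by simp
  add_mem' {a b} ha hb := by
    rw [Set.mem_ofPred_eq] at *
    exact lt_of_le_of_lt ((v.valuation F).map_add _ _) (max_lt ha hb)
  smul_mem' c b hb := by
    rw [Set.mem_ofPred_eq] at *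
    rw [smul_eq_mul, show ((c * b : OS S) : F) = (c : F) * (b : F) from rfl, map_mul]
    exact mul_lt_of_le_one_of_lt (c.2 v hv) hb

theorem mem_placeIdeal {v : HeightOneSpectrum (𝓞 F)} {hv : v ∉ S} {b : OS S} :
    b ∈ placeIdeal v hv ↔ v.valuation F (b : F) < 1 := Iff.rfl

theorem placeIdeal_ne_top (v : HeightOneSpectrum (𝓞 F)) (hv : v ∉ S) : placeIdeal v hv ≠ ⊤ := by
  intro h
  have : (1 : OS S) ∈ placeIdeal v hv := by rw [h]; trivial
  rw [mem_placeIdeal] at this
  simp at this

/-- the algebraic integers in `OS S` -/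
def intOS : 𝓞 F →+* OS S := algebraMap (𝓞 F) (OS S)

@[simp] theorem coe_intOS (a : 𝓞 F) : ((intOS a : OS S) : F) = (a : F) := rfl

theorem placeIdeal_injective {v w : HeightOneSpectrum (𝓞 F)} {hv : v ∉ S} {hw : w ∉ S}
    (h : placeIdeal v hv = placeIdeal w hw) : v = w := by
  apply HeightOneSpectrum.ext
  ext a
  rw [← valuation_lt_one_iff_mem (K := F), ← valuation_lt_one_iff_mem (K := F)]
  have h1 : (intOS a : OS S) ∈ placeIdeal v hv ↔ (intOS a : OS S) ∈ placeIdeal w hw := by rw [h]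
  exact h1

theorem placeIdeal_ne_bot (v : HeightOneSpectrum (𝓞 F)) (hv : v ∉ S) : placeIdeal v hv ≠ ⊥ := by
  obtain ⟨b, hb⟩ := v.valuation_exists_uniformizer' F
  intro h
  have h1 : (intOS b : OS S) ∈ placeIdeal v hv := by
    rw [mem_placeIdeal, coe_intOS, hb, ← exp_zero, exp_lt_exp]
    omega
  rw [h, Ideal.mem_bot] at h1
  have h2 : ((intOS b : OS S) : F) = 0 := by rw [h1]; rfl
  have h3 : v.valuation F ((intOS b : OS S) : F) = exp (-1 : ℤ) := hb
  rw [h2, map_zero] at h3
  exact exp_ne_zero h3.symm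

instance isPrime_placeIdeal (v : HeightOneSpectrum (𝓞 F)) (hv : v ∉ S) :
    (placeIdeal v hv).IsPrime := by
  refine ⟨placeIdeal_ne_top v hv, fun {a b} hab => ?_⟩
  by_contra hcon
  push Not at hcon
  rw [mem_placeIdeal, mem_placeIdeal] at hcon
  rw [mem_placeIdeal] at hab
  have h1 := le_antisymm (a.2 v hv) (not_lt.mp hcon.1)
  have h2 := le_antisymm (b.2 v hv) (not_lt.mp hcon.2)
  rw [show ((a * b : OS S) : F) = (a : F) * (b : F) from rfl, map_mul, h1, h2, one_mul] at hab
  exact lt_irrefl _ hab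

theorem prime_of_span {p : OS S} {v : HeightOneSpectrum (𝓞 F)} {hv : v ∉ S}
    (h : placeIdeal v hv = Ideal.span {p}) : Prime p := by
  have hprime : (Ideal.span {p}).IsPrime := by
    rw [← h]; infer_instance
  refine (Ideal.span_singleton_prime ?_).mp hprime
  intro h0
  apply placeIdeal_ne_bot v hv
  rw [h, h0, Ideal.span_singleton_eq_bot]

theorem span_dvd_iff {p : OS S} {v : HeightOneSpectrum (𝓞 F)} {hv : v ∉ S}
    (h : placeIdeal v hv = Ideal.span {p}) (b : OS S) : p ∣ b ↔ v.valuation F (b : F) < 1 := by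
  rw [← mem_placeIdeal (hv := hv), h, Ideal.mem_span_singleton]

theorem valuation_eq_of_span {p : OS S} {v : HeightOneSpectrum (𝓞 F)} {hv : v ∉ S}
    (h : placeIdeal v hv = Ideal.span {p}) : v.valuation F (p : F) = exp (-1 : ℤ) := by
  obtain ⟨b, hb⟩ := v.valuation_exists_uniformizer' F
  have h1 : p ∣ (intOS b : OS S) := by
    rw [span_dvd_iff h, coe_intOS, hb, ← exp_zero, exp_lt_exp]
    omega
  obtain ⟨c, hc⟩ := h1
  have h2 : exp (-1 : ℤ) = v.valuation F (p : F) * v.valuation F (c : F) := by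
    rw [← hb, ← map_mul]
    exact congrArg _ (congrArg Subtype.val hc)
  have h3 : v.valuation F (p : F) < 1 := (span_dvd_iff h p).mp dvd_rfl
  have h4 : v.valuation F (p : F) ≠ 0 := by
    intro h0
    rw [h0, zero_mul] at h2
    exact exp_ne_zero h2
  have h5 : exp (-1 : ℤ) ≤ v.valuation F (p : F) := by
    rw [h2]
    exact mul_le_of_le_one_right' (c.2 v hv)
  refine le_antisymm ?_ h5
  obtain ⟨m, hm⟩ : ∃ m : ℤ, v.valuation F (p : F) = exp m := ⟨_, (exp_log h4).symm⟩
  rw [hm, ← exp_zero, exp_lt_exp] at h3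
  rw [hm, exp_le_exp]
  omega

/-- the residue ring -/
theorem surjective_int_placeIdeal (v : HeightOneSpectrum (𝓞 F)) (hv : v ∉ S) :
    Function.Surjective ((Ideal.Quotient.mk (placeIdeal v hv)).comp (intOS (S := S))) := by
  intro q
  obtain ⟨b, rfl⟩ := Ideal.Quotient.mk_surjective q
  obtain ⟨a, ha⟩ := v.exists_valuation_sub_lt_of_integer (b.2 v hv) 1
  refine ⟨a, ?_⟩
  rw [RingHom.comp_apply, Ideal.Quotient.mk_eq_mk_iff_sub_mem, mem_placeIdeal]
  exact ha

theorem ker_int_placeIdeal (v : HeightOneSpectrum (𝓞 F)) (hv : v ∉ S) :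
    RingHom.ker ((Ideal.Quotient.mk (placeIdeal v hv)).comp (intOS (S := S))) = v.asIdeal := by
  ext a
  rw [RingHom.mem_ker, RingHom.comp_apply, Ideal.Quotient.eq_zero_iff_mem, mem_placeIdeal,
    coe_intOS, valuation_lt_one_iff_mem]

/-- `𝓞 F / v ≃ OS S / v` -/
def residueOS (v : HeightOneSpectrum (𝓞 F)) (hv : v ∉ S) :
    (𝓞 F ⧸ v.asIdeal) ≃+* (OS S ⧸ placeIdeal v hv) :=
  (Ideal.quotEquivOfEq (ker_int_placeIdeal v hv).symm).trans
    (RingHom.quotientKerEquivOfSurjective (surjective_int_placeIdeal v hv))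

theorem card_placeIdeal (v : HeightOneSpectrum (𝓞 F)) (hv : v ∉ S) :
    Nat.card (OS S ⧸ placeIdeal v hv) = Ideal.absNorm v.asIdeal := by
  rw [← Nat.card_congr (residueOS v hv).toEquiv]
  rfl

instance finite_placeIdeal (v : HeightOneSpectrum (𝓞 F)) (hv : v ∉ S) :
    Finite (OS S ⧸ placeIdeal v hv) := by
  have : Finite (𝓞 F ⧸ v.asIdeal) := v.asIdeal.finiteQuotientOfFreeOfNeBot v.ne_bot
  exact Finite.of_equiv _ (residueOS v hv).toEquiv

theorem exists_isReps_of_span {p : OS S} {v : HeightOneSpectrum (𝓞 F)} {hv : v ∉ S}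
    (h : placeIdeal v hv = Ideal.span {p}) : ∃ R : Finset (OS S), IsReps p R := by
  refine exists_isReps ?_
  rw [← h]
  infer_instance

theorem card_isReps {p : OS S} {v : HeightOneSpectrum (𝓞 F)} {hv : v ∉ S}
    (h : placeIdeal v hv = Ideal.span {p}) {R : Finset (OS S)} (hR : IsReps p R) :
    R.card = Ideal.absNorm v.asIdeal := by
  rw [hR.card_eq_natCard, ← h, card_placeIdeal]

variable [IsPrincipalIdealRing (OS S)]

/-- a prime element of `OS S` generates the ideal of a place outside `S`. -/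
theorem exists_place {p : OS S} (hp : Prime p) :
    ∃ (v : HeightOneSpectrum (𝓞 F)) (hv : v ∉ S), placeIdeal v hv = Ideal.span {p} := by
  -- `p` is not a unit, so it has valuation `< 1` somewhere outside `S`
  have h1 : ∃ (v : HeightOneSpectrum (𝓞 F)) (_ : v ∉ S), v.valuation F (p : F) < 1 := by
    by_contra hcon
    push Not at hcon
    have hp0 : (p : F) ≠ 0 := fun h => hp.ne_zero (Subtype.ext h)
    refine hp.not_isUnit (IsUnit.of_mul_eq_one ⟨(p : F)⁻¹, fun v hv => ?_⟩ ?_)
    · rw [map_inv₀]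
      exact inv_le_one_of_one_le₀ (hcon v hv)
    · exact Subtype.ext (mul_inv_cancel₀ hp0)
  obtain ⟨v, hv, h2⟩ := h1
  refine ⟨v, hv, ?_⟩
  have hmax : (Ideal.span {p}).IsMaximal :=
    PrincipalIdealRing.isMaximal_of_irreducible hp.irreducible
  refine (hmax.eq_of_le (placeIdeal_ne_top v hv) ?_).symm
  rw [Ideal.span_singleton_le_iff_mem]
  exact h2

theorem valuation_eq_one_of_span {p : OS S} {v w : HeightOneSpectrum (𝓞 F)} {hv : v ∉ S}
    (h : placeIdeal v hv = Ideal.span {p}) (hw : w ∉ S) (hwv : w ≠ v) :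
    w.valuation F (p : F) = 1 := by
  refine le_antisymm (p.2 w hw) ?_
  by_contra hlt
  push Not at hlt
  apply hwv
  have hp : Prime p := prime_of_span h
  have hmax : (Ideal.span {p}).IsMaximal :=
    PrincipalIdealRing.isMaximal_of_irreducible hp.irreducible
  have h3 : Ideal.span {p} = placeIdeal w hw := by
    refine hmax.eq_of_le (placeIdeal_ne_top w hw) ?_
    rw [Ideal.span_singleton_le_iff_mem]
    exact hlt
  exact (placeIdeal_injective (h.trans h3)).symm

theorem exists_prime_of_place (v : HeightOneSpectrum (𝓞 F)) (hv : v ∉ S) :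
    ∃ p : OS S, Prime p ∧ placeIdeal v hv = Ideal.span {p} := by
  obtain ⟨p, hp⟩ := (IsPrincipalIdealRing.principal (placeIdeal v hv)).principal
  have hp' : placeIdeal v hv = Ideal.span {p} := hp
  exact ⟨p, prime_of_span hp', hp'⟩

theorem exists_isReps_of_prime {p : OS S} (hp : Prime p) : ∃ R : Finset (OS S), IsReps p R := by
  obtain ⟨v, hv, h⟩ := exists_place hp
  exact exists_isReps_of_span h

end Primes

end Fermat.Agent.LT.Kap
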