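import Mathlib.MeasureTheory.Measure.Haar.Unique
import Mathlib.Topology.ContinuousMap.StoneWeierstrass
import Mathlib.MeasureTheory.Function.LocallyIntegrable
import Mathlib.Analysis.Complex.Circle
import Mathlib.Topology.Algebra.Group.Quotient

/-!
# The mean of periodic functions with respect to a cocompact subgroup

`A` a topological abelian group, `Λ` a closed subgroup with `A ⧸ Λ` compact.  The mean of a
`Λ`-periodic continuous function is its integral over `A ⧸ Λ` with respect to the Haar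
probability measure.
-/

namespace Fermat.Agent.LT.Kap

open MeasureTheory Topology

section Mean

variable {A : Type*} [AddCommGroup A] [TopologicalSpace A] [IsTopologicalAddGroup A]
  (Λ : AddSubgroup A)

/-- `Λ`-periodic functions. -/
def Per (f : A → ℂ) : Prop := ∀ t, ∀ l ∈ Λ, f (t + l) = f t

/-- The function on the quotient attached to a periodic function. -/
noncomputable def lft (f : A → ℂ) : A ⧸ Λ → ℂ := fun q => f q.out

variable {Λ}

theorem Per.eq_of_sub_mem {f : A → ℂ} (hf : Per Λ f) {s t : A} (h : s - t ∈ Λ) : f s = f t := by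
  have := hf t _ h
  rwa [add_sub_cancel] at this

theorem lft_mk {f : A → ℂ} (hf : Per Λ f) (t : A) : lft Λ f (t : A ⧸ Λ) = f t := by
  refine hf.eq_of_sub_mem ?_
  have h : ((Quotient.out (t : A ⧸ Λ) : A) : A ⧸ Λ) = (t : A ⧸ Λ) := Quotient.out_eq _
  have h2 := QuotientAddGroup.eq.mp h
  have h3 : Quotient.out (t : A ⧸ Λ) - t = -(-Quotient.out (t : A ⧸ Λ) + t) := by abel
  rw [h3]
  exact Λ.neg_mem h2

theorem continuous_lft {f : A → ℂ} (hf : Per Λ f) (hc : Continuous f) :
    Continuous (lft Λ f) := by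
  rw [(QuotientAddGroup.isQuotientMap_mk (N := Λ)).continuous_iff]
  have : lft Λ f ∘ (QuotientAddGroup.mk : A → A ⧸ Λ) = f := by
    ext t; exact lft_mk hf t
  rw [this]
  exact hc

theorem Per.add {f g : A → ℂ} (hf : Per Λ f) (hg : Per Λ g) : Per Λ (fun t => f t + g t) :=
  fun t l hl => by simp only [hf t l hl, hg t l hl]

theorem Per.mul {f g : A → ℂ} (hf : Per Λ f) (hg : Per Λ g) : Per Λ (fun t => f t * g t) :=
  fun t l hl => by simp only [hf t l hl, hg t l hl]

theorem Per.const_mul {f : A → ℂ} (hf : Per Λ f) (c : ℂ) : Per Λ (fun t => c * f t) :=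
  fun t l hl => by simp only [hf t l hl]

theorem Per.trans {f : A → ℂ} (hf : Per Λ f) (s : A) : Per Λ (fun t => f (t + s)) :=
  fun t l hl => by
    show f (t + l + s) = f (t + s)
    rw [add_right_comm, hf _ l hl]

variable (Λ)

/-- The Haar probability measure of `A ⧸ Λ`. -/
noncomputable def qm [CompactSpace (A ⧸ Λ)] : @Measure (A ⧸ Λ) (borel _) :=
  letI : MeasurableSpace (A ⧸ Λ) := borel _
  haveI : BorelSpace (A ⧸ Λ) := ⟨rfl⟩
  Measure.addHaarMeasure ⊤

/-- the Borel structure of `A ⧸ Λ` (local instance). -/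
noncomputable local instance (priority := 10000) instMQ : MeasurableSpace (A ⧸ Λ) := borel _

local instance instBorelQ : BorelSpace (A ⧸ Λ) := ⟨rfl⟩

variable [CompactSpace (A ⧸ Λ)]

instance : (qm Λ).IsAddHaarMeasure := by
  unfold qm; infer_instance

instance : IsProbabilityMeasure (qm Λ) := by
  constructor
  have := Measure.addHaarMeasure_self (K₀ := (⊤ : TopologicalSpace.PositiveCompacts (A ⧸ Λ)))
  simpa [qm] using this

/-- The mean of a function on `A` (meaningful for periodic functions). -/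
noncomputable def mean (f : A → ℂ) : ℂ := ∫ q, lft Λ f q ∂(qm Λ)

variable {Λ}

theorem mean_const_mul (c : ℂ) (f : A → ℂ) : mean Λ (fun t => c * f t) = c * mean Λ f := by
  unfold mean lft
  exact integral_const_mul c _

theorem integrable_lft {f : A → ℂ} (hf : Per Λ f) (hc : Continuous f) :
    Integrable (lft Λ f) (qm Λ) :=
  (continuous_lft hf hc).integrable_of_hasCompactSupport
    (HasCompactSupport.of_compactSpace _)

theorem mean_add {f g : A → ℂ} (hf : Per Λ f) (hfc : Continuous f) (hg : Per Λ g)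
    (hgc : Continuous g) : mean Λ (fun t => f t + g t) = mean Λ f + mean Λ g := by
  unfold mean
  rw [← integral_add (integrable_lft hf hfc) (integrable_lft hg hgc)]
  rfl

theorem mean_zero : mean Λ (fun _ => 0) = 0 := by
  simp [mean, lft]

theorem mean_sum {ι : Type*} (s : Finset ι) {f : ι → A → ℂ} (hf : ∀ i ∈ s, Per Λ (f i))
    (hfc : ∀ i ∈ s, Continuous (f i)) :
    mean Λ (fun t => ∑ i ∈ s, f i t) = ∑ i ∈ s, mean Λ (f i) := by
  unfold mean
  rw [← integral_finset_sum s (fun i hi => integrable_lft (hf i hi) (hfc i hi))]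
  rfl

theorem mean_congr {f g : A → ℂ} (h : ∀ t, f t = g t) : mean Λ f = mean Λ g := by
  rw [show f = g from funext h]

/-- Translation invariance of the mean. -/
theorem mean_trans {f : A → ℂ} (hf : Per Λ f) (s : A) :
    mean Λ (fun t => f (t + s)) = mean Λ f := by
  unfold mean
  rw [← integral_add_right_eq_self (μ := qm Λ) (lft Λ f) (s : A ⧸ Λ)]
  congr 1
  ext q
  obtain ⟨t, rfl⟩ := QuotientAddGroup.mk_surjective q
  rw [lft_mk (hf.trans s), ← QuotientAddGroup.mk_add, lft_mk hf]

/-- Invariance of the mean under surjective endomorphisms preserving the lattice. -/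
theorem mean_comp [IsClosed (Λ : Set A)] {f : A → ℂ} (hf : Per Λ f) (hc : Continuous f)
    (u : A →+ A) (hu : Continuous u) (hs : Function.Surjective u) (hl : ∀ l ∈ Λ, u l ∈ Λ) :
    mean Λ (fun t => f (u t)) = mean Λ f := by
  have hl' : Λ ≤ Λ.comap u := hl
  set ub : A ⧸ Λ →+ A ⧸ Λ := QuotientAddGroup.map Λ Λ u hl' with hub
  have hubc : Continuous ub := by
    rw [(QuotientAddGroup.isQuotientMap_mk (N := Λ)).continuous_iff]
    exact QuotientAddGroup.continuous_mk.comp hu
  have hubs : Function.Surjective ub := by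
    intro q
    obtain ⟨t, rfl⟩ := QuotientAddGroup.mk_surjective q
    obtain ⟨s, rfl⟩ := hs t
    exact ⟨(s : A ⧸ Λ), rfl⟩
  haveI h1 : (Measure.map ub (qm Λ)).IsAddHaarMeasure :=
    Measure.isAddHaarMeasure_map_of_isFiniteMeasure (qm Λ) ub hubc hubs
  haveI h2 : IsProbabilityMeasure (Measure.map ub (qm Λ)) :=
    Measure.isProbabilityMeasure_map hubc.aemeasurable
  have h3 : Measure.map ub (qm Λ) = qm Λ :=
    Measure.isAddHaarMeasure_eq_of_isProbabilityMeasure _ _
  have hperu : Per Λ (fun t => f (u t)) := fun t l hl0 => by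
    show f (u (t + l)) = f (u t)
    rw [map_add, hf _ _ (hl l hl0)]
  unfold mean
  conv_rhs => rw [← h3]
  rw [integral_map hubc.aemeasurable (continuous_lft hf hc).aestronglyMeasurable]
  congr 1
  ext q
  obtain ⟨t, rfl⟩ := QuotientAddGroup.mk_surjective q
  rw [lft_mk hperu]
  show f (u t) = lft Λ f ((u t : A) : A ⧸ Λ)
  rw [lft_mk hf]

theorem norm_mean_le {f : A → ℂ} {C : ℝ} (h : ∀ t, ‖f t‖ ≤ C) : ‖mean Λ f‖ ≤ C := by
  unfold mean
  have h2 := norm_integral_le_of_norm_le_const (μ := qm Λ) (f := lft Λ f)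
    (Filter.Eventually.of_forall (fun q => h q.out))
  simpa using h2

/-- If a periodic function is multiplied by a scalar `≠ 1` under a translation then its mean
vanishes. -/
theorem mean_eq_zero_of_trans {f : A → ℂ} (hf : Per Λ f) {s : A} {c : ℂ}
    (h : ∀ t, f (t + s) = c * f t) (hc : c ≠ 1) : mean Λ f = 0 := by
  have h1 := mean_trans hf s
  rw [mean_congr h, mean_const_mul] at h1
  by_contra h0
  exact hc (mul_right_cancel₀ h0 (by rw [h1, one_mul]))

/-- **Completeness**, abstract form: a continuous periodic function orthogonal to a family of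
characters which separates the points of `A ⧸ Λ` is zero. -/
theorem eq_zero_of_mean_mul [IsClosed (Λ : Set A)] {ι : Type*} (e : ι → A → ℂ)
    (hec : ∀ i, Continuous (e i)) (hep : ∀ i, Per Λ (e i)) (h1 : ∃ i, ∀ t, e i t = 1)
    (hmul : ∀ i j, ∃ k, ∀ t, e k t = e i t * e j t)
    (hstar : ∀ i, ∃ j, ∀ t, e j t = star (e i t))
    (hsep : ∀ x, (∀ i, e i x = 1) → x ∈ Λ)
    (hadd : ∀ i x y, e i (x + y) = e i x * e i y) (hne : ∀ i x, e i x ≠ 0)
    {f : A → ℂ} (hf : Per Λ f) (hc : Continuous f)
    (h0 : ∀ i, mean Λ (fun t => f t * e i t) = 0) (t : A) : f t = 0 := by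
  classical
  set E : ι → C(A ⧸ Λ, ℂ) := fun i => ⟨lft Λ (e i), continuous_lft (hep i) (hec i)⟩ with hE
  have hEmk : ∀ i (t : A), E i (t : A ⧸ Λ) = e i t := fun i t => lft_mk (hep i) t
  set B : StarSubalgebra ℂ C(A ⧸ Λ, ℂ) :=
    { toSubalgebra := Algebra.adjoin ℂ (Set.range E)
      star_mem' := by
        change Algebra.adjoin ℂ (Set.range E) ≤ star (Algebra.adjoin ℂ (Set.range E))
        refine Algebra.adjoin_le ?_
        rintro - ⟨i, rfl⟩
        obtain ⟨j, hj⟩ := hstar i
        refine Algebra.subset_adjoin ⟨j, ?_⟩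
        ext q
        obtain ⟨t, rfl⟩ := QuotientAddGroup.mk_surjective q
        rw [hEmk, ContinuousMap.star_apply, hEmk, hj] } with hB
  have hspan : Subalgebra.toSubmodule B.toSubalgebra = Submodule.span ℂ (Set.range E) := by
    apply Algebra.adjoin_eq_span_of_subset
    refine Set.Subset.trans ?_ Submodule.subset_span
    intro x hx
    refine Submonoid.closure_induction (fun _ => id) ?_ ?_ hx
    · obtain ⟨i, hi⟩ := h1
      refine ⟨i, ?_⟩
      ext q
      obtain ⟨t, rfl⟩ := QuotientAddGroup.mk_surjective q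
      rw [hEmk, hi]; rfl
    · rintro - - - - ⟨i, rfl⟩ ⟨j, rfl⟩
      obtain ⟨k, hk⟩ := hmul i j
      refine ⟨k, ?_⟩
      ext q
      obtain ⟨t, rfl⟩ := QuotientAddGroup.mk_surjective q
      rw [ContinuousMap.mul_apply, hEmk, hEmk, hEmk, hk]
  have hBsep : B.SeparatesPoints := by
    intro x y hxy
    obtain ⟨s, rfl⟩ := QuotientAddGroup.mk_surjective x
    obtain ⟨t, rfl⟩ := QuotientAddGroup.mk_surjective y
    have h2 : ∃ i, e i (s - t) ≠ 1 := by
      by_contra hcon
      push_neg at hcon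
      apply hxy
      rw [QuotientAddGroup.eq]
      have := Λ.neg_mem (hsep _ hcon)
      rwa [neg_sub, sub_eq_neg_add] at this
    obtain ⟨i, hi⟩ := h2
    refine ⟨_, ⟨E i, Algebra.subset_adjoin ⟨i, rfl⟩, rfl⟩, ?_⟩
    show E i _ ≠ E i _
    rw [hEmk, hEmk]
    intro heq
    apply hi
    have h5 := hadd i (s - t) t
    rw [sub_add_cancel, heq] at h5
    exact (mul_right_cancel₀ (hne i t) (by rw [one_mul]; exact h5)).symm
  have htop := ContinuousMap.starSubalgebra_topologicalClosure_eq_top_of_separatesPoints B hBsep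
  set F : C(A ⧸ Λ, ℂ) := ⟨lft Λ f, continuous_lft hf hc⟩ with hF
  have hFmk : ∀ t : A, F (t : A ⧸ Λ) = f t := fun t => lft_mk hf t
  have hint : ∀ g : C(A ⧸ Λ, ℂ), Integrable (fun q => F q * g q) (qm Λ) := fun g =>
    (F.continuous.mul g.continuous).integrable_of_hasCompactSupport
      (HasCompactSupport.of_compactSpace _)
  -- the functional `g ↦ ∫ F g`
  let L : C(A ⧸ Λ, ℂ) →L[ℂ] ℂ := LinearMap.mkContinuous
    { toFun := fun g => ∫ q, F q * g q ∂(qm Λ)
      map_add' := fun g g' => by
        rw [← integral_add (hint g) (hint g')]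
        congr 1; ext q; rw [ContinuousMap.add_apply, mul_add]
      map_smul' := fun c g => by
        rw [RingHom.id_apply, smul_eq_mul, ← integral_const_mul]
        congr 1; ext q; rw [ContinuousMap.smul_apply, smul_eq_mul]; ring } ‖F‖ (fun g => by
      have h2 := norm_integral_le_of_norm_le_const (μ := qm Λ) (f := fun q => F q * g q)
        (C := ‖F‖ * ‖g‖) (Filter.Eventually.of_forall (fun q => by
          rw [norm_mul]
          exact mul_le_mul (F.norm_coe_le_norm q) (g.norm_coe_le_norm q) (norm_nonneg _)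
            (norm_nonneg _)))
      simpa using h2)
  have hLE : ∀ i, L (E i) = 0 := fun i => by
    have h2 := h0 i
    unfold mean at h2
    show ∫ q, F q * E i q ∂(qm Λ) = 0
    rw [← h2]
    congr 1
  have hLB : ∀ g ∈ B, L g = 0 := by
    intro g hg
    have hg' : g ∈ Submodule.span ℂ (Set.range E) := by
      rw [← hspan]; exact hg
    refine Submodule.span_induction ?_ (map_zero L) ?_ ?_ hg'
    · rintro - ⟨i, rfl⟩; exact hLE i
    · intro x y _ _ hx hy; rw [map_add, hx, hy, add_zero]
    · intro c x _ hx; rw [map_smul, hx, smul_zero]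
  have hL : ∀ g : C(A ⧸ Λ, ℂ), L g = 0 := by
    intro g
    have hg : g ∈ B.topologicalClosure := by rw [htop]; trivial
    have hcl : IsClosed {g : C(A ⧸ Λ, ℂ) | L g = 0} := isClosed_eq L.continuous continuous_const
    exact hcl.closure_subset_iff.mpr (fun x hx => hLB x hx) hg
  have h3 : ∫ q, ‖F q‖ ^ 2 ∂(qm Λ) = 0 := by
    have h4 : ∫ q, F q * (star F) q ∂(qm Λ) = 0 := hL (star F)
    have h5 : ∀ q, F q * (star F) q = ((‖F q‖ ^ 2 : ℝ) : ℂ) := fun q => by
      rw [ContinuousMap.star_apply, Complex.star_def, Complex.mul_conj, Complex.normSq_eq_norm_sq]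
    rw [integral_congr_ae (Filter.Eventually.of_forall h5)] at h4
    have h6 := integral_ofReal (𝕜 := ℂ) (μ := qm Λ) (f := fun q => ‖F q‖ ^ 2)
    have h7 : ((∫ q, ‖F q‖ ^ 2 ∂(qm Λ) : ℝ) : ℂ) = 0 := by
      rw [← h4]; exact h6.symm
    exact_mod_cast h7
  have h8 : (fun q => ‖F q‖ ^ 2) =ᵐ[qm Λ] 0 := by
    have hcF : Continuous fun q => ‖F q‖ ^ 2 := (F.continuous.norm).pow 2
    exact (integral_eq_zero_iff_of_nonneg (fun q => by positivity)
      (hcF.integrable_of_hasCompactSupport (HasCompactSupport.of_compactSpace _))).mp h3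
  have h9 : (fun q => ‖F q‖ ^ 2) = (0 : A ⧸ Λ → ℝ) :=
    (Continuous.ae_eq_iff_eq (qm Λ) ((F.continuous.norm).pow 2) continuous_zero).mp h8
  have h10 := congrFun h9 (t : A ⧸ Λ)
  rw [← hFmk t]
  simpa using h10

end Mean

end Fermat.Agent.LT.Kap
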