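import Fermat.Agent.LT.Kappa.LevLoc
import Fermat.Agent.LT.HK.Place

/-!
# The kernel `s_V` on `D U` (helper70)

`S` a finite set of finite places, `T v` a pair `(V, χ)` over `F_v`, `v ∈ S`, `U` a level with
`U_v ≤ Vk_v` for `v ∈ S`.

* `LevOK U T`: the hypotheses; `eV h v`: the idempotent of `(V_v, χ_v)` on `Dv U v` (`1` for `v ∉ S`);
* `sVG h : HK (GL (Fin 2) F) (D U)`, `sV h : HK (PG F) (D U)`: the product kernel; idempotent,
  self-adjoint; commutes with the kernels away from `S`;
* `act_sVG_eq_iff`: `s_V f = f` iff `f` is `(V_v, χ_v)`-equivariant at every `v ∈ S`.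
-/

set_option autoImplicit false

open Matrix NumberField IsDedekindDomain WithZero
open scoped WithZero

noncomputable section

namespace Fermat.Agent.LT.HK

/-! ### General lemmas -/

section Fix

variable {ι : Type*} [DecidableEq ι] {D : ι → Type*} {b : ∀ v, D v} {G : Type*} [Group G]
  [∀ v, MulAction G (D v)] [RProd.BaseFix b G] {E : Type*} [AddCommGroup E] [Module ℂ E]

/-- a function fixed by all factors is fixed by the product kernel. -/
theorem act_kp_of_forall {k : ∀ v, HK G (D v)} (hk : {v | k v ≠ 1}.Finite) {f : RProd D b → E}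
    (h : ∀ v, (single b v (k v)).act f = f) : (kp k hk : HK G (RProd D b)).act f = f := by
  obtain ⟨A, hA⟩ : ∃ A : Finset ι, ∀ v ∉ A, k v = 1 :=
    ⟨hk.toFinset, fun v hv => by simpa using hv⟩
  induction A using Finset.induction_on generalizing k with
  | empty =>
    obtain rfl : k = 1 := funext fun v => hA v (Finset.notMem_empty v)
    rw [kp_one, act_one]
    rfl
  | insert a s _ ih =>
    rw [kp_insert (v := a) hk, act_mul, LinearMap.comp_apply, ih, h]
    · intro v
      by_cases hv : v = a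
      · subst hv
        rw [Function.update_self, map_one, act_one]
        rfl
      · rw [Function.update_of_ne hv, h]
    · intro v hv
      by_cases hva : v = a
      · subst hva
        rw [Function.update_self]
      · rw [Function.update_of_ne hva]
        exact hA v (by rw [Finset.mem_insert, not_or]; exact ⟨hva, hv⟩)

/-- if the factors are idempotent then the product kernel fixes `f` iff all its factors do. -/
theorem act_kp_eq_iff {k : ∀ v, HK G (D v)} (hk : {v | k v ≠ 1}.Finite)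
    (hi : ∀ v, k v * k v = k v) {f : RProd D b → E} :
    (kp k hk : HK G (RProd D b)).act f = f ↔ ∀ v, (single b v (k v)).act f = f := by
  refine ⟨fun h v => ?_, act_kp_of_forall hk⟩
  have h1 : single b v (k v) * kp k hk = (kp k hk : HK G (RProd D b)) := by
    rw [single_mul_kp]
    refine kp_congr fun w => ?_
    by_cases hw : w = v
    · subst hw
      rw [Function.update_self, hi]
    · rw [Function.update_of_ne hw]
  conv_lhs => rw [← h]
  rw [← LinearMap.comp_apply, ← act_mul, h1, h]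

theorem upd_upd (x : RProd D b) (v : ι) (y y' : D v) : upd (upd x v y) v y' = upd x v y' := by
  refine RProd.ext' fun w => ?_
  by_cases hw : w = v
  · subst hw
    rw [upd_self, upd_self]
  · rw [upd_of_ne _ _ hw, upd_of_ne _ _ hw, upd_of_ne _ _ hw]

theorem upd_eq_self (x : RProd D b) (v : ι) : upd x v (x v) = x := upd_eq fun _ _ => rfl

/-- `a` at `v` fixes `f` iff `a` fixes all the restrictions of `f` to the lines in the direction `v`. -/
theorem act_single_eq_iff (v : ι) (a : HK G (D v)) (f : RProd D b → E) :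
    (single b v a).act f = f ↔ ∀ x, a.act (fun y => f (upd x v y)) = fun y => f (upd x v y) := by
  constructor
  · intro h x
    funext y
    have h1 := congrFun h (upd x v y)
    rw [act_single_apply, upd_self] at h1
    simpa only [upd_upd] using h1
  · intro h
    funext x
    rw [act_single_apply, h x]
    show f (upd x v (x v)) = f x
    rw [upd_eq_self]

end Fix

end Fermat.Agent.LT.HK

namespace Fermat.Agent.LT.Kap

open Fermat.Agent.LT.Lvl HK

variable {F : Type*} [Field F] [NumberField F] {S : Finset (HeightOneSpectrum (𝓞 F))}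

/-- The hypotheses on a level `U` and on pairs `(V, χ)` at the places of `S`. -/
structure LevOK (U : Lev F) (T : ∀ v : S, TyDat (v.1.adicCompletion F)) : Prop where
  small : ∀ v, ∃ r, (T v).Small (vF v.1) r
  le : ∀ v : S, U.U v.1 ≤ (T v).Vk

variable {U : Lev F} {T : ∀ v : S, TyDat (v.1.adicCompletion F)}

theorem LevOK.isChar (h : LevOK U T) (v : S) : HK.IsChar (U.U v.1 ⊔ Subgroup.center _) (T v).V
    (fun g => ((T v).chi g : ℂ)) :=
  TyDat.isChar U (h.small v).choose_spec (h.le v)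

/-- going to a smaller level. -/
theorem LevOK.anti (h : LevOK U T) {U' : Lev F} (hU : U' ≤ U) : LevOK U' T :=
  ⟨h.small, fun v => (hU v.1).trans (h.le v)⟩

open Classical in
/-- **The idempotent of `(V_v, χ_v)`** on the local space; `1` for `v ∉ S`. -/
def eV (h : LevOK U T) (v : HeightOneSpectrum (𝓞 F)) :
    HK (GL (Fin 2) (v.adicCompletion F)) (Dv U v) :=
  if hv : v ∈ S then idem (h.isChar ⟨v, hv⟩) else 1

theorem eV_of_mem (h : LevOK U T) {v : HeightOneSpectrum (𝓞 F)} (hv : v ∈ S) :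
    eV h v = idem (h.isChar ⟨v, hv⟩) := dif_pos hv

theorem eV_of_notMem (h : LevOK U T) {v : HeightOneSpectrum (𝓞 F)} (hv : v ∉ S) : eV h v = 1 :=
  dif_neg hv

theorem eV_mul_eV (h : LevOK U T) (v : HeightOneSpectrum (𝓞 F)) : eV h v * eV h v = eV h v := by
  by_cases hv : v ∈ S
  · rw [eV_of_mem h hv]
    exact idem_mul_idem _
  · rw [eV_of_notMem h hv, one_mul]

theorem star_eV (h : LevOK U T) (v : HeightOneSpectrum (𝓞 F)) : star (eV h v) = eV h v := by
  by_cases hv : v ∈ S
  · rw [eV_of_mem h hv]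
    exact star_idem _
  · rw [eV_of_notMem h hv, star_one]

theorem mem_V_of_ker_eV (h : LevOK U T) {v : HeightOneSpectrum (𝓞 F)} (hv : v ∈ S)
    {x y : GL (Fin 2) (v.adicCompletion F)}
    (hxy : (eV h v).ker (Cos.mk (U.U v) x) (Cos.mk (U.U v) y) ≠ 0) : x⁻¹ * y ∈ (T ⟨v, hv⟩).V := by
  rw [eV_of_mem h hv] at hxy
  by_contra hcon
  refine hxy ?_
  rw [Cos.mk, Cos.mk, ker_eq_fn, fn_idem_of_notMem _ hcon]

/-- the support of the local kernel: `y = z x k`, `k` small. -/
theorem exists_of_ker_eV (h : LevOK U T) {v : HeightOneSpectrum (𝓞 F)} (hv : v ∈ S) {r : ℤᵐ⁰}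
    (hr : (T ⟨v, hv⟩).Small (vF v) r) {x y : GL (Fin 2) (v.adicCompletion F)}
    (hxy : (eV h v).ker (Cos.mk (U.U v) x) (Cos.mk (U.U v) y) ≠ 0) :
    ∃ z : (v.adicCompletion F)ˣ, ∃ k ∈ Kn (vF v) r,
      y = GeneralLinearGroup.scalar (Fin 2) z * (x * k) := by
  obtain ⟨z, k, hk, -, -, he⟩ := hr.exists_scalar (mem_V_of_ker_eV h hv hxy)
  refine ⟨z, k, hk, ?_⟩
  rw [← mul_assoc, scalar_mul_comm, mul_assoc, ← he, mul_inv_cancel_left]

/-- the function of `eV` is left invariant under `Vk` (not only under the level). -/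
theorem fn_eV_mul_left (h : LevOK U T) {v : HeightOneSpectrum (𝓞 F)} (hv : v ∈ S)
    {k : GL (Fin 2) (v.adicCompletion F)} (hk : k ∈ (T ⟨v, hv⟩).Vk)
    (g : GL (Fin 2) (v.adicCompletion F)) : (eV h v).fn (k * g) = (eV h v).fn g := by
  have hkV := (T ⟨v, hv⟩).Vk_le hk
  rw [eV_of_mem h hv]
  by_cases hg : g ∈ (T ⟨v, hv⟩).V
  · rw [fn_idem_of_mem _ hg, fn_idem_of_mem _ (mul_mem hkV hg), TyDat.chi_mul hkV hg,
      TyDat.chi_of_mem_Vk hk, one_mul]
  · rw [fn_idem_of_notMem _ hg, fn_idem_of_notMem]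
    rwa [Subgroup.mul_mem_cancel_left _ hkV]

/-- the function of `eV` is right invariant under `Vk`. -/
theorem fn_eV_mul_right (h : LevOK U T) {v : HeightOneSpectrum (𝓞 F)} (hv : v ∈ S)
    {k : GL (Fin 2) (v.adicCompletion F)} (hk : k ∈ (T ⟨v, hv⟩).Vk)
    (g : GL (Fin 2) (v.adicCompletion F)) : (eV h v).fn (g * k) = (eV h v).fn g := by
  have hkV := (T ⟨v, hv⟩).Vk_le hk
  rw [eV_of_mem h hv]
  by_cases hg : g ∈ (T ⟨v, hv⟩).V
  · rw [fn_idem_of_mem _ hg, fn_idem_of_mem _ (mul_mem hg hkV), TyDat.chi_mul hg hkV,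
      TyDat.chi_of_mem_Vk hk, mul_one]
  · rw [fn_idem_of_notMem _ hg, fn_idem_of_notMem]
    rwa [Subgroup.mul_mem_cancel_right _ hkV]

/-- the support of the function of `eV`. -/
theorem mem_V_of_fn_eV (h : LevOK U T) {v : HeightOneSpectrum (𝓞 F)} (hv : v ∈ S)
    {g : GL (Fin 2) (v.adicCompletion F)} (hg : (eV h v).fn g ≠ 0) : g ∈ (T ⟨v, hv⟩).V := by
  rw [eV_of_mem h hv] at hg
  by_contra hcon
  exact hg (fn_idem_of_notMem _ hcon)

/-- the support of the function of `eV`: scalars times small elements. -/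
theorem mem_Kn_of_fn_eV (h : LevOK U T) {v : HeightOneSpectrum (𝓞 F)} (hv : v ∈ S) {r : ℤᵐ⁰}
    (hr : (T ⟨v, hv⟩).Small (vF v) r) {g : GL (Fin 2) (v.adicCompletion F)}
    (hg : (eV h v).fn g ≠ 0) : g ∈ Kn (vF v) r ⊔ Subgroup.center _ :=
  hr.V_le (mem_V_of_fn_eV h hv hg)

/-- the local kernel over `GL₂(F)`. -/
def eVF (h : LevOK U T) (v : HeightOneSpectrum (𝓞 F)) : HK (GL (Fin 2) F) (Dv U v) :=
  loc v (U.U v) (eV h v)

@[simp] theorem ker_eVF (h : LevOK U T) (v : HeightOneSpectrum (𝓞 F)) (x y : Dv U v) :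
    (eVF h v).ker x y = (eV h v).ker x y := ker_loc _ _ _ _ _

theorem act_eVF {E : Type*} [AddCommGroup E] [Module ℂ E] (h : LevOK U T)
    (v : HeightOneSpectrum (𝓞 F)) (f : Dv U v → E) : (eVF h v).act f = (eV h v).act f :=
  act_loc _ _ _ _

theorem eVF_of_notMem (h : LevOK U T) {v : HeightOneSpectrum (𝓞 F)} (hv : v ∉ S) :
    eVF h v = 1 := by
  rw [eVF, eV_of_notMem h hv, map_one]

theorem eVF_mul_eVF (h : LevOK U T) (v : HeightOneSpectrum (𝓞 F)) :
    eVF h v * eVF h v = eVF h v := by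
  rw [eVF, ← map_mul, eV_mul_eV]

theorem star_eVF (h : LevOK U T) (v : HeightOneSpectrum (𝓞 F)) : star (eVF h v) = eVF h v := by
  rw [eVF, star_loc, star_eV]

theorem finite_eVF (h : LevOK U T) : {v | eVF h v ≠ 1}.Finite :=
  S.finite_toSet.subset fun v hv => by
    by_contra h'
    exact hv (eVF_of_notMem h h')

/-- **The kernel `s_V`** over `GL₂(F)`. -/
def sVG (h : LevOK U T) : HK (GL (Fin 2) F) (D U) := kp (eVF h) (finite_eVF h)

/-- **The kernel `s_V`** over `PGL₂(F)`. -/
def sV (h : LevOK U T) : HK (PG F) (D U) := toPG F (D U) (sVG h)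

theorem ker_sVG (h : LevOK U T) (x y : D U) : (sVG h).ker x y = ∏ᶠ v, (eV h v).ker (x v) (y v) := by
  rw [sVG, ker_kp]
  exact finprod_congr fun v => ker_eVF h v _ _

theorem ker_sV (h : LevOK U T) (x y : D U) : (sV h).ker x y = ∏ᶠ v, (eV h v).ker (x v) (y v) := by
  rw [sV, ker_toPG, ker_sVG]

theorem sVG_mul_sVG (h : LevOK U T) : sVG h * sVG h = sVG h := by
  rw [sVG, kp_mul]
  exact kp_congr fun v => eVF_mul_eVF h v

theorem sV_mul_sV (h : LevOK U T) : sV h * sV h = sV h := by
  rw [sV, ← map_mul, sVG_mul_sVG]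

theorem star_sVG (h : LevOK U T) : star (sVG h) = sVG h := by
  have hf : {v | (fun v => star (eVF h v)) v ≠ 1}.Finite :=
    (finite_eVF h).subset fun v hv => by
      have hv' : star (eVF h v) ≠ 1 := hv
      rwa [star_eVF] at hv'
  rw [sVG, star_kp (finite_eVF h) hf]
  exact kp_congr fun v => star_eVF h v

theorem star_sV (h : LevOK U T) : star (sV h) = sV h := by
  rw [sV, star_toPG, star_sVG]

theorem act_sV {E : Type*} [AddCommGroup E] [Module ℂ E] (h : LevOK U T) (f : D U → E) :
    (sV h).act f = (sVG h).act f := act_toPG _ _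

section Single

variable [DecidableEq (HeightOneSpectrum (𝓞 F))]

/-- `s_V` commutes with the kernels at the places outside `S`. -/
theorem commute_sVG_single (h : LevOK U T) {v : HeightOneSpectrum (𝓞 F)} (hv : v ∉ S)
    (a : HK (GL (Fin 2) F) (Dv U v)) : Commute (sVG h) (single (base U) v a) := by
  refine (commute_single_kp a (finite_eVF h) ?_).symm
  rw [eVF_of_notMem h hv]
  exact Commute.one_right _

theorem commute_sV_single (h : LevOK U T) {v : HeightOneSpectrum (𝓞 F)} (hv : v ∉ S)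
    (a : HK (GL (Fin 2) F) (Dv U v)) :
    Commute (sV h) (toPG F (D U) (single (base U) v a)) :=
  (commute_sVG_single h hv a).map (toPG F (D U))

omit [DecidableEq (HeightOneSpectrum (𝓞 F))] in
/-- `s_V` commutes with the kernels at the places outside `S` (helper12's `atPl`). -/
theorem commute_sV_atPl (h : LevOK U T) {v : HeightOneSpectrum (𝓞 F)} (hv : v ∉ S)
    (a : LocH U v) : Commute (sV h) (atPl U v a) := by
  classical
  exact commute_sV_single h hv (loc v (U.U v) a)

variable {E : Type*} [AddCommGroup E] [Module ℂ E]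

/-- **The functions fixed by `s_V`** are the functions which are `(V_v, χ_v)`-equivariant at every
`v ∈ S`. -/
theorem act_sVG_eq_iff (h : LevOK U T) (f : D U → E) :
    (sVG h).act f = f ↔ ∀ (v : S) (x : D U) (g k : GL (Fin 2) (v.1.adicCompletion F)),
      k ∈ (T v).V → f (upd x v.1 (Cos.mk (U.U v.1) (g * k))) =
        ((T v).chi k : ℂ) • f (upd x v.1 (Cos.mk (U.U v.1) g)) := by
  rw [sVG, act_kp_eq_iff (finite_eVF h) (eVF_mul_eVF h)]
  constructor
  · intro h1 v x g k hk
    have h2 := (act_single_eq_iff v.1 _ f).mp (h1 v.1) x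
    rw [act_eVF, eV_of_mem h v.2] at h2
    exact (act_idem_eq_iff (h.isChar v) _).mp h2 g k hk
  · intro h1 v
    by_cases hv : v ∈ S
    · refine (act_single_eq_iff v _ f).mpr fun x => ?_
      rw [act_eVF, eV_of_mem h hv]
      exact (act_idem_eq_iff (h.isChar ⟨v, hv⟩) _).mpr fun g k hk => h1 ⟨v, hv⟩ x g k hk
    · rw [eVF_of_notMem h hv, map_one, act_one]
      rfl

theorem act_sV_eq_iff (h : LevOK U T) (f : D U → E) :
    (sV h).act f = f ↔ ∀ (v : S) (x : D U) (g k : GL (Fin 2) (v.1.adicCompletion F)),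
      k ∈ (T v).V → f (upd x v.1 (Cos.mk (U.U v.1) (g * k))) =
        ((T v).chi k : ℂ) • f (upd x v.1 (Cos.mk (U.U v.1) g)) := by
  rw [act_sV, act_sVG_eq_iff]

end Single

end Fermat.Agent.LT.Kap

end
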