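import Fermat.Agent.LT.Kappa.Hecke

/-!
# Whittaker coefficients of Hecke eigenfunctions on a `GL₂(A)`-space

Main results: `exists_num` (the `a`-th coefficient is `n(a)` times the first one at
`diag(a, 1) x`, with a number `n(a)` depending on the eigenvalues only) and `eq_zero_of_wh`.
-/

namespace Fermat.Agent.LT.Kap

open MeasureTheory Topology

variable {O A : Type*} [CommRing O] [CommRing A] [TopologicalSpace A] [IsTopologicalRing A]
  [Algebra O A] {θ : AddChar A Circle} {X : Type*} [MulAction (GL (Fin 2) A) X]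

/-- Invariance under `GL₂(O)` and scalars, continuity along the unipotent radical. -/
structure IsAut (O : Type*) {A : Type*} [CommRing O] [CommRing A] [TopologicalSpace A]
    [Algebra O A] {X : Type*} [MulAction (GL (Fin 2) A) X] (ψ : X → ℂ) : Prop where
  inv : ∀ (γ : GL (Fin 2) O) (x : X),
    ψ (Matrix.GeneralLinearGroup.map (algebraMap O A) γ • x) = ψ x
  scal : ∀ (z : Aˣ) (x : X), ψ (dg z z • x) = ψ x
  cont : ∀ x : X, Continuous fun t : A => ψ (nn t • x)

theorem IsAut.per {ψ : X → ℂ} (h : IsAut (A := A) O ψ) (x : X) :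
    Per (lat O A) (fun t : A => ψ (nn t • x)) := by
  rintro t l ⟨b, rfl⟩
  show ψ (nn (t + algebraMap O A b) • x) = ψ (nn t • x)
  rw [add_comm, ← nn_mul_nn, mul_smul, ← map_nn, h.inv]

theorem IsAut.add {ψ ψ' : X → ℂ} (h : IsAut (A := A) O ψ) (h' : IsAut (A := A) O ψ') (c c' : ℂ) :
    IsAut (A := A) O (fun x => c * ψ x + c' * ψ' x) where
  inv γ x := by rw [h.inv, h'.inv]
  scal z x := by rw [h.scal, h'.scal]
  cont x := (continuous_const.mul (h.cont x)).add (continuous_const.mul (h'.cont x))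

/-- the Hecke operator attached to a generator `u` (a unit of `A`) and representatives `R`. -/
def hecke (u : Aˣ) (R : Finset O) (ψ : X → ℂ) (x : X) : ℂ :=
  ψ (dg u 1 • x) + ∑ b ∈ R, ψ (nn (algebraMap O A b * (u⁻¹ : Aˣ)) • dg 1 u • x)

/-- joint Hecke eigenfunction with eigenvalues `lam p`. -/
def IsEig (O : Type*) {A : Type*} [CommRing O] [CommRing A] [Algebra O A] {X : Type*}
    [MulAction (GL (Fin 2) A) X] (lam : O → ℂ) (ψ : X → ℂ) : Prop :=
  ∀ p : O, Prime p → ∃ (u : Aˣ) (R : Finset O), algebraMap O A p = u ∧ IsReps p R ∧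
    ∀ x, hecke u R ψ x = lam p * ψ x

theorem IsReps.card_eq {p : O} {R R' : Finset O} (hR : IsReps p R) (hR' : IsReps p R') :
    R.card = R'.card := by
  classical
  choose r hr hr2 using fun a => hR' a
  choose s hs hs2 using fun a => hR a
  refine Finset.card_bij' (fun a _ => r a) (fun a _ => s a) (fun a _ => (hr a).1)
    (fun a _ => (hs a).1) ?_ ?_
  · intro a ha
    refine (hs2 (r a) a ⟨ha, ?_⟩).symm
    have := (hr a).2
    rw [← neg_sub]; exact this.neg_right
  · intro a ha
    refine (hr2 (s a) a ⟨ha, ?_⟩).symm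
    have := (hs a).2
    rw [← neg_sub]; exact this.neg_right

theorem IsReps.card_ne_zero {p : O} {R : Finset O} (hR : IsReps p R) : R.card ≠ 0 := by
  obtain ⟨b, hb, -⟩ := hR 0
  exact Finset.card_ne_zero_of_mem hb.1

theorem hecke_indep {ψ : X → ℂ} (h : IsAut (A := A) O ψ) {p : O} {u : Aˣ}
    (hu : algebraMap O A p = u) {R R' : Finset O} (hR : IsReps p R) (hR' : IsReps p R') (x : X) :
    hecke u R ψ x = hecke u R' ψ x := by
  classical
  unfold hecke
  congr 1
  choose r hr hr2 using fun a => hR' a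
  choose s hs hs2 using fun a => hR a
  refine Finset.sum_bij' (fun a _ => r a) (fun a _ => s a) (fun a _ => (hr a).1)
    (fun a _ => (hs a).1) ?_ ?_ ?_
  · intro a ha
    refine (hs2 (r a) a ⟨ha, ?_⟩).symm
    have := (hr a).2
    rw [← neg_sub]; exact this.neg_right
  · intro a ha
    refine (hr2 (s a) a ⟨ha, ?_⟩).symm
    have := (hs a).2
    rw [← neg_sub]; exact this.neg_right
  · intro a _
    obtain ⟨d, hd⟩ := (hr a).2
    have h1 : algebraMap O A a * (u⁻¹ : Aˣ) =
        algebraMap O A d + algebraMap O A (r a) * (u⁻¹ : Aˣ) := by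
      have h2 : algebraMap O A a = u * algebraMap O A d + algebraMap O A (r a) := by
        rw [← hu, ← map_mul, ← hd, ← map_add]; congr 1; ring
      rw [h2, add_mul, mul_right_comm, Units.mul_inv, one_mul]
    rw [h1, ← nn_mul_nn, mul_smul, ← map_nn (algebraMap O A) d, h.inv]

theorem IsEig.add {lam : O → ℂ} {ψ ψ' : X → ℂ}
    (h0' : IsAut (A := A) O ψ') (h : IsEig (A := A) O lam ψ) (h' : IsEig (A := A) O lam ψ') (c c' : ℂ) :
    IsEig (A := A) O lam (fun x => c * ψ x + c' * ψ' x) := by
  intro p hp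
  obtain ⟨u, R, hu, hR, h1⟩ := h p hp
  obtain ⟨u', R', hu', hR', h1'⟩ := h' p hp
  have huu : u' = u := Units.ext (by rw [← hu, ← hu'])
  subst huu
  refine ⟨u', R, hu, hR, fun x => ?_⟩
  have h2 := h1 x
  have h3 := h1' x
  rw [hecke_indep h0' hu hR' hR] at h3
  unfold hecke at h2 h3 ⊢
  rw [Finset.sum_add_distrib, ← Finset.mul_sum, ← Finset.mul_sum]
  linear_combination c * h2 + c' * h3

variable [CompactSpace (A ⧸ lat O A)]

/-- the `a`-th Whittaker coefficient at `x`. -/
noncomputable def wh (O : Type*) {A : Type*} [CommRing O] [CommRing A] [TopologicalSpace A]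
    [IsTopologicalRing A] [Algebra O A] [CompactSpace (A ⧸ lat O A)] {X : Type*}
    [MulAction (GL (Fin 2) A) X]
    (θ : AddChar A Circle) (ψ : X → ℂ) (a : O) (x : X) : ℂ :=
  coef O θ a (fun t : A => ψ (nn t • x))

theorem wh_add (hθ : SelfDual O θ) {ψ ψ' : X → ℂ} (h : IsAut (A := A) O ψ)
    (h' : IsAut (A := A) O ψ') (c c' : ℂ) (a : O) (x : X) :
    wh O θ (fun x => c * ψ x + c' * ψ' x) a x = c * wh O θ ψ a x + c' * wh O θ ψ' a x := by
  unfold wh
  rw [← coef_const_mul, ← coef_const_mul]
  exact coef_add hθ a ((h.per x).const_mul c) (continuous_const.mul (h.cont x))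
    ((h'.per x).const_mul c') (continuous_const.mul (h'.cont x))

theorem wh_nn (hθ : SelfDual O θ) {ψ : X → ℂ} (h : IsAut (A := A) O ψ) (a : O) (s : A) (x : X) :
    wh O θ ψ a (nn s • x) = ch θ (algebraMap O A a) s * wh O θ ψ a x := by
  unfold wh
  rw [← coef_trans hθ a (h.per x) s]
  congr 1
  ext t
  rw [← mul_smul, nn_mul_nn]

theorem wh_scal {ψ : X → ℂ} (h : IsAut (A := A) O ψ) (a : O) (z : Aˣ) (x : X) :
    wh O θ ψ a (dg z z • x) = wh O θ ψ a x := by
  unfold wh
  congr 1
  ext t
  have h1 : nn t * dg z z = dg z z * nn t := by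
    rw [dg_mul_nn, mul_right_comm, Units.mul_inv, one_mul]
  rw [← mul_smul, h1, mul_smul, h.scal]

theorem wh_unit [IsClosed (lat O A : Set A)] (hθ : SelfDual O θ) {ψ : X → ℂ}
    (h : IsAut (A := A) O ψ) (e : Oˣ) (v : Aˣ) (hv : algebraMap O A e = v) (x : X) :
    wh O θ ψ (e : O) x = wh O θ ψ 1 (dg v 1 • x) := by
  unfold wh
  have h1 := coef_mul_comp hθ (h.per (dg v 1 • x)) (h.cont (dg v 1 • x)) (e : O) v hv 1
  rw [mul_one] at h1
  rw [← h1]
  congr 1
  ext t
  have h2 : nn ((v : A) * t) * dg v 1 = dg v 1 * nn t := by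
    rw [dg_mul_nn, inv_one, Units.val_one, mul_one]
  rw [← mul_smul, h2, mul_smul]
  have h3 : dg v 1 = Matrix.GeneralLinearGroup.map (algebraMap O A) (dg e 1) := by
    rw [map_dg]
    congr 1
    · ext; exact hv.symm
    · simp
  rw [h3, h.inv]

theorem wh_hecke_mul [IsDomain O] [IsClosed (lat O A : Set A)] (hθ : SelfDual O θ) {ψ : X → ℂ}
    (h : IsAut (A := A) O ψ) {p : O} {u : Aˣ} (hu : algebraMap O A p = u) {R : Finset O}
    (hR : IsReps p R) (b : O) (x : X) :
    wh O θ (hecke u R ψ) (p * b) x = wh O θ ψ b (dg u 1 • x) +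
      R.card * wh O θ ψ (p * (p * b)) (dg 1 u • x) := by
  unfold wh
  rw [← coef_sum_div hθ (h.per (dg 1 u • x)) (h.cont (dg 1 u • x)) hR u hu (p * b),
    ← coef_mul_comp hθ (h.per (dg u 1 • x)) (h.cont (dg u 1 • x)) p u hu b,
    ← coef_add hθ _ (per_comp_mul (h.per (dg u 1 • x)) p u hu)
      ((h.cont (dg u 1 • x)).comp (continuous_const.mul continuous_id))
      (per_sum_div (h.per (dg 1 u • x)) hR u hu)
      (continuous_finset_sum _ fun b _ => (h.cont (dg 1 u • x)).comp
        ((continuous_id.add continuous_const).mul continuous_const))]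
  congr 1
  ext t
  unfold hecke
  congr 1
  · rw [← mul_smul, dg_mul_nn, inv_one, Units.val_one, mul_one, mul_smul]
  · refine Finset.sum_congr rfl fun b _ => ?_
    rw [← mul_smul (dg 1 u), dg_mul_nn, Units.val_one, one_mul, mul_smul, ← mul_smul (nn _) (nn _),
      nn_mul_nn, ← add_mul, add_comm]

theorem wh_hecke_of_not_dvd [IsDomain O] [IsClosed (lat O A : Set A)]
    (hinj : Function.Injective (algebraMap O A)) (hθ : SelfDual O θ) {ψ : X → ℂ}
    (h : IsAut (A := A) O ψ) {p : O} {u : Aˣ} (hu : algebraMap O A p = u) {R : Finset O}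
    (hR : IsReps p R) {a : O} (ha : ¬ p ∣ a) (x : X) :
    wh O θ (hecke u R ψ) a x = R.card * wh O θ ψ (p * a) (dg 1 u • x) := by
  unfold wh
  rw [← coef_sum_div hθ (h.per (dg 1 u • x)) (h.cont (dg 1 u • x)) hR u hu a]
  have h1 := coef_comp_eq_zero hinj hθ (h.per (dg u 1 • x)) p u hu ha
  have h2 := coef_add (O := O) hθ a (per_comp_mul (h.per (dg u 1 • x)) p u hu)
      ((h.cont (dg u 1 • x)).comp (continuous_const.mul continuous_id))
      (per_sum_div (h.per (dg 1 u • x)) hR u hu)
      (continuous_finset_sum _ fun b _ => (h.cont (dg 1 u • x)).comp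
        ((continuous_id.add continuous_const).mul continuous_const))
  rw [h1, zero_add] at h2
  rw [← h2]
  congr 1
  ext t
  unfold hecke
  congr 1
  · rw [← mul_smul, dg_mul_nn, inv_one, Units.val_one, mul_one, mul_smul]
  · refine Finset.sum_congr rfl fun b _ => ?_
    rw [← mul_smul (dg 1 u), dg_mul_nn, Units.val_one, one_mul, mul_smul, ← mul_smul (nn _) (nn _),
      nn_mul_nn, ← add_mul, add_comm]

/-- `c` is the number by which the `a`-th coefficient differs from the first one. -/
def IsNum (O : Type*) {A : Type*} [CommRing O] [CommRing A] [TopologicalSpace A]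
    [IsTopologicalRing A] [Algebra O A] [CompactSpace (A ⧸ lat O A)] (X : Type*)
    [MulAction (GL (Fin 2) A) X]
    (θ : AddChar A Circle) (lam : O → ℂ) (a : O) (c : ℂ) : Prop :=
  ∀ ψ : X → ℂ, IsAut (A := A) O ψ → IsEig (A := A) O lam ψ → ∀ (x : X) (v : Aˣ),
    algebraMap O A a = v → wh O θ ψ a x = c * wh O θ ψ 1 (dg v 1 • x)

theorem wh_smul_fun {ψ : X → ℂ} (c : ℂ) (a : O) (x : X) :
    wh O θ (fun x => c * ψ x) a x = c * wh O θ ψ a x := coef_const_mul a c _

theorem exists_num_aux [IsDomain O] [IsPrincipalIdealRing O] [IsClosed (lat O A : Set A)]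
    (hinj : Function.Injective (algebraMap O A)) (hθ : SelfDual O θ)
    (hunit : ∀ a : O, a ≠ 0 → IsUnit (algebraMap O A a)) (lam : O → ℂ) (a : O) (ha : a ≠ 0) :
    ∀ d, d ∣ a → ∃ c, IsNum (A := A) O X θ lam d c := by
  induction a using UniqueFactorizationMonoid.induction_on_prime with
  | h₁ => exact absurd rfl ha
  | h₂ e he =>
    intro d hd
    obtain ⟨e', rfl⟩ := isUnit_of_dvd_unit hd he
    refine ⟨1, fun ψ h _ x v hv => ?_⟩
    rw [one_mul]
    exact wh_unit hθ h e' v hv x
  | h₃ a p ha0 hp ih =>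
    have ih' := ih ha0
    intro d hd
    by_cases hpd : p ∣ d
    · obtain ⟨d', rfl⟩ := hpd
      have hd' : d' ∣ a := (mul_dvd_mul_iff_left hp.ne_zero).mp hd
      have hd0 : d' ≠ 0 := fun h => ha0 (by rw [h] at hd'; exact zero_dvd_iff.mp hd')
      obtain ⟨c, hc⟩ := ih' d' hd'
      by_cases hpd' : p ∣ d'
      · obtain ⟨d'', rfl⟩ := hpd'
        obtain ⟨c', hc'⟩ := ih' d'' ((Dvd.intro_left p rfl).trans hd')
        have hd0' : d'' ≠ 0 := fun h => hd0 (by rw [h, mul_zero])
        obtain ⟨w, hw⟩ := hunit d'' hd0'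
        -- the cardinality of the residue ring
        by_cases hR : ∃ R : Finset O, IsReps p R
        · obtain ⟨R₀, hR₀⟩ := hR
          refine ⟨(R₀.card : ℂ)⁻¹ * (lam p * c - c'), fun ψ h he x v hv => ?_⟩
          obtain ⟨u, R, hu, hR, hev⟩ := he p hp
          have hcard : R.card = R₀.card := hR.card_eq hR₀
          have hne : (R₀.card : ℂ) ≠ 0 := by exact_mod_cast hR₀.card_ne_zero
          have key := wh_hecke_mul hθ h hu hR d'' (dg 1 u⁻¹ • x)
          rw [show hecke u R ψ = fun x => lam p * ψ x from funext hev, wh_smul_fun,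
            hc ψ h he _ (u * w) (by rw [map_mul, hu, ← hw]; rfl), hc' ψ h he _ w hw.symm,
            ← mul_smul, ← mul_smul, ← mul_smul, ← mul_smul, dg_mul_dg, dg_mul_dg, dg_mul_dg,
            dg_mul_dg] at key
          have e1 : dg (u * w * 1) (1 * u⁻¹) = dg u⁻¹ u⁻¹ * dg v 1 := by
            rw [dg_mul_dg]
            congr 1
            · ext
              have : (v : A) = u * (u * w) := by
                rw [← hv, map_mul, map_mul, hu, hw]
              push_cast
              rw [this]
              rw [← mul_assoc, Units.inv_mul, one_mul, mul_one]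
            · simp
          have e2 : dg (w * u * 1) (1 * 1 * u⁻¹) = dg u⁻¹ u⁻¹ * dg v 1 := by
            rw [dg_mul_dg]
            congr 1
            · ext
              have : (v : A) = u * (u * w) := by
                rw [← hv, map_mul, map_mul, hu, hw]
              push_cast
              rw [this]
              rw [← mul_assoc ((u⁻¹ : Aˣ) : A), Units.inv_mul, one_mul, mul_one, mul_comm]
            · simp
          have e3 : dg (1 * 1) (u * u⁻¹) = (1 : GL (Fin 2) A) := by
            rw [mul_one, mul_inv_cancel, dg_one]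
          rw [e1, e2, e3, one_smul, mul_smul, wh_scal h, hcard] at key
          rw [eq_comm, mul_assoc, inv_mul_eq_iff_eq_mul₀ hne]
          linear_combination key
        · refine ⟨0, fun ψ h he => ?_⟩
          obtain ⟨u, R, hu, hR', -⟩ := he p hp
          exact absurd ⟨R, hR'⟩ hR
      · obtain ⟨w, hw⟩ := hunit d' hd0
        by_cases hR : ∃ R : Finset O, IsReps p R
        · obtain ⟨R₀, hR₀⟩ := hR
          refine ⟨(R₀.card : ℂ)⁻¹ * (lam p * c), fun ψ h he x v hv => ?_⟩
          obtain ⟨u, R, hu, hR, hev⟩ := he p hp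
          have hcard : R.card = R₀.card := hR.card_eq hR₀
          have hne : (R₀.card : ℂ) ≠ 0 := by exact_mod_cast hR₀.card_ne_zero
          have key := wh_hecke_of_not_dvd hinj hθ h hu hR hpd' (dg 1 u⁻¹ • x)
          rw [show hecke u R ψ = fun x => lam p * ψ x from funext hev, wh_smul_fun,
            hc ψ h he _ w hw.symm,
            ← mul_smul, ← mul_smul, dg_mul_dg, dg_mul_dg] at key
          have e1 : dg (w * 1) (1 * u⁻¹) = dg u⁻¹ u⁻¹ * dg v 1 := by
            rw [dg_mul_dg]
            congr 1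
            · ext
              have : (v : A) = u * w := by
                rw [← hv, map_mul, hu, hw]
              push_cast
              rw [this]
              rw [← mul_assoc, Units.inv_mul, one_mul, mul_one]
            · simp
          have e3 : dg (1 * 1) (u * u⁻¹) = (1 : GL (Fin 2) A) := by
            rw [mul_one, mul_inv_cancel, dg_one]
          rw [e1, e3, one_smul, mul_smul, wh_scal h, hcard] at key
          rw [eq_comm, mul_assoc, inv_mul_eq_iff_eq_mul₀ hne]
          linear_combination key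
        · refine ⟨0, fun ψ h he => ?_⟩
          obtain ⟨u, R, hu, hR', -⟩ := he p hp
          exact absurd ⟨R, hR'⟩ hR
    · have : d ∣ a := (hp.coprime_iff_not_dvd.mpr hpd).symm.dvd_of_dvd_mul_left hd
      exact ih' d this

/-- **The Hecke relations determine all coefficients by the first one.** -/
theorem exists_num [IsDomain O] [IsPrincipalIdealRing O] [IsClosed (lat O A : Set A)]
    (hinj : Function.Injective (algebraMap O A)) (hθ : SelfDual O θ)
    (hunit : ∀ a : O, a ≠ 0 → IsUnit (algebraMap O A a)) (lam : O → ℂ) :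
    ∃ n : O → ℂ, ∀ a, a ≠ 0 → IsNum (A := A) O X θ lam a (n a) := by
  classical
  choose! n hn using fun a (ha : a ≠ 0) =>
    exists_num_aux (X := X) hinj hθ hunit lam a ha a dvd_rfl
  exact ⟨n, hn⟩

/-- **Injectivity**, pointwise form. -/
theorem eq_zero_of_wh [IsDomain O] [IsPrincipalIdealRing O] [IsClosed (lat O A : Set A)]
    (hinj : Function.Injective (algebraMap O A)) (hθ : SelfDual O θ)
    (hunit : ∀ a : O, a ≠ 0 → IsUnit (algebraMap O A a)) {lam : O → ℂ} {ψ : X → ℂ}
    (h : IsAut (A := A) O ψ) (he : IsEig (A := A) O lam ψ) {x : X} (h0 : wh O θ ψ 0 x = 0)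
    (h1 : ∀ (a : O) (v : Aˣ), algebraMap O A a = v → wh O θ ψ 1 (dg v 1 • x) = 0) : ψ x = 0 := by
  obtain ⟨n, hn⟩ := exists_num (X := X) hinj hθ hunit lam
  have h2 := eq_zero_of_coef hθ (h.per x) (h.cont x) (fun a => by
    by_cases ha : a = 0
    · rw [ha]; exact h0
    · obtain ⟨v, hv⟩ := hunit a ha
      have := hn a ha ψ h he x v hv.symm
      rw [h1 a v hv.symm, mul_zero] at this
      exact this) 0
  rwa [nn_zero, one_smul] at h2

end Fermat.Agent.LT.Kap
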