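import Fermat.Agent.LT.Kappa.Space

/-!
# The numbers `n(a)`
-/

namespace Fermat.Agent.LT.Kap

open MeasureTheory Topology

variable {O A : Type*} [CommRing O] [CommRing A] [TopologicalSpace A] [IsTopologicalRing A]
  [Algebra O A] {θ : AddChar A Circle} {X : Type*} [MulAction (GL (Fin 2) A) X]
  [CompactSpace (A ⧸ lat O A)] {lam : O → ℂ}

theorem isNum_unit [IsClosed (lat O A : Set A)] (hθ : SelfDual O θ) (e : Oˣ) :
    IsNum (A := A) O X θ lam (e : O) 1 := fun ψ h _ x v hv => by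
  rw [one_mul]; exact wh_unit hθ h e v hv x

theorem IsNum.step [IsDomain O] [IsClosed (lat O A : Set A)]
    (hinj : Function.Injective (algebraMap O A)) (hθ : SelfDual O θ)
    (hunit : ∀ a : O, a ≠ 0 → IsUnit (algebraMap O A a)) {p : O} (hp : Prime p) {q : ℂ}
    (hq : ∀ R : Finset O, IsReps p R → (R.card : ℂ) = q) {a : O} (ha : a ≠ 0) (hpa : ¬ p ∣ a)
    {c : ℂ} (hc : IsNum (A := A) O X θ lam a c) :
    IsNum (A := A) O X θ lam (p * a) (q⁻¹ * (lam p * c)) := by
  obtain ⟨w, hw⟩ := hunit a ha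
  intro ψ h he x v hv
  obtain ⟨u, R, hu, hR, hev⟩ := he p hp
  have hcard : (R.card : ℂ) = q := hq R hR
  have hne : q ≠ 0 := by rw [← hcard]; exact_mod_cast hR.card_ne_zero
  have key := wh_hecke_of_not_dvd hinj hθ h hu hR hpa (dg 1 u⁻¹ • x)
  rw [show hecke u R ψ = fun x => lam p * ψ x from funext hev, wh_smul_fun,
    hc ψ h he _ w hw.symm,
    ← mul_smul, ← mul_smul, dg_mul_dg, dg_mul_dg] at key
  have e1 : dg (w * 1) (1 * u⁻¹) = dg u⁻¹ u⁻¹ * dg v 1 := by
    rw [dg_mul_dg]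
    congr 1
    · ext
      have : (v : A) = u * w := by
        rw [← hv, map_mul, hu, hw]
      push_cast
      rw [this]
      rw [← mul_assoc, Units.inv_mul, one_mul, mul_one]
    · simp
  have e3 : dg (1 * 1) (u * u⁻¹) = (1 : GL (Fin 2) A) := by
    rw [mul_one, mul_inv_cancel, dg_one]
  rw [e1, e3, one_smul, mul_smul, wh_scal h, hcard] at key
  rw [eq_comm, mul_assoc, inv_mul_eq_iff_eq_mul₀ hne]
  linear_combination key

theorem IsNum.step' [IsDomain O] [IsClosed (lat O A : Set A)]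
    (hθ : SelfDual O θ)
    (hunit : ∀ a : O, a ≠ 0 → IsUnit (algebraMap O A a)) {p : O} (hp : Prime p) {q : ℂ}
    (hq : ∀ R : Finset O, IsReps p R → (R.card : ℂ) = q) {b : O} (hb : b ≠ 0)
    {c c' : ℂ} (hc : IsNum (A := A) O X θ lam (p * b) c) (hc' : IsNum (A := A) O X θ lam b c') :
    IsNum (A := A) O X θ lam (p * (p * b)) (q⁻¹ * (lam p * c - c')) := by
  obtain ⟨w, hw⟩ := hunit b hb
  intro ψ h he x v hv
  obtain ⟨u, R, hu, hR, hev⟩ := he p hp
  have hcard : (R.card : ℂ) = q := hq R hR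
  have hne : q ≠ 0 := by rw [← hcard]; exact_mod_cast hR.card_ne_zero
  have key := wh_hecke_mul hθ h hu hR b (dg 1 u⁻¹ • x)
  rw [show hecke u R ψ = fun x => lam p * ψ x from funext hev, wh_smul_fun,
    hc ψ h he _ (u * w) (by rw [map_mul, hu, ← hw]; rfl), hc' ψ h he _ w hw.symm,
    ← mul_smul, ← mul_smul, ← mul_smul, ← mul_smul, dg_mul_dg, dg_mul_dg, dg_mul_dg,
    dg_mul_dg] at key
  have e1 : dg (u * w * 1) (1 * u⁻¹) = dg u⁻¹ u⁻¹ * dg v 1 := by
    rw [dg_mul_dg]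
    congr 1
    · ext
      have : (v : A) = u * (u * w) := by
        rw [← hv, map_mul, map_mul, hu, hw]
      push_cast
      rw [this]
      rw [← mul_assoc, Units.inv_mul, one_mul, mul_one]
    · simp
  have e2 : dg (w * u * 1) (1 * 1 * u⁻¹) = dg u⁻¹ u⁻¹ * dg v 1 := by
    rw [dg_mul_dg]
    congr 1
    · ext
      have : (v : A) = u * (u * w) := by
        rw [← hv, map_mul, map_mul, hu, hw]
      push_cast
      rw [this]
      rw [← mul_assoc ((u⁻¹ : Aˣ) : A), Units.inv_mul, one_mul, mul_one, mul_comm]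
    · simp
  have e3 : dg (1 * 1) (u * u⁻¹) = (1 : GL (Fin 2) A) := by
    rw [mul_one, mul_inv_cancel, dg_one]
  rw [e1, e2, e3, one_smul, mul_smul, wh_scal h, hcard] at key
  rw [eq_comm, mul_assoc, inv_mul_eq_iff_eq_mul₀ hne]
  linear_combination key

/-- The recursion satisfied by the numbers `n(a)`; `q p` is the cardinality of `O / p`. -/
structure IsRec (lam q : O → ℂ) (n : O → ℂ) : Prop where
  unit : ∀ e : Oˣ, n (e : O) = 1
  step : ∀ p, Prime p → ∀ a, a ≠ 0 → ¬ p ∣ a → q p * n (p * a) = lam p * n a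
  step' : ∀ p, Prime p → ∀ b, b ≠ 0 → q p * n (p * (p * b)) = lam p * n (p * b) - n b

theorem isNum_of_isRec_aux [IsDomain O] [IsPrincipalIdealRing O] [IsClosed (lat O A : Set A)]
    (hinj : Function.Injective (algebraMap O A)) (hθ : SelfDual O θ)
    (hunit : ∀ a : O, a ≠ 0 → IsUnit (algebraMap O A a)) {q : O → ℂ}
    (hq : ∀ p, Prime p → ∀ R : Finset O, IsReps p R → (R.card : ℂ) = q p)
    (hq0 : ∀ p, Prime p → q p ≠ 0) {n : O → ℂ}
    (hn : IsRec lam q n) (a : O) (ha : a ≠ 0) :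
    ∀ d, d ∣ a → IsNum (A := A) O X θ lam d (n d) := by
  induction a using UniqueFactorizationMonoid.induction_on_prime with
  | h₁ => exact absurd rfl ha
  | h₂ e he =>
    intro d hd
    obtain ⟨e', rfl⟩ := isUnit_of_dvd_unit hd he
    rw [hn.unit]
    exact isNum_unit hθ e'
  | h₃ a p ha0 hp ih =>
    have ih' := ih ha0
    intro d hd
    by_cases hpd : p ∣ d
    · obtain ⟨d', rfl⟩ := hpd
      have hd' : d' ∣ a := (mul_dvd_mul_iff_left hp.ne_zero).mp hd
      have hd0 : d' ≠ 0 := fun h => ha0 (by rw [h] at hd'; exact zero_dvd_iff.mp hd')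
      by_cases hpd' : p ∣ d'
      · obtain ⟨d'', rfl⟩ := hpd'
        have hd0' : d'' ≠ 0 := fun h => hd0 (by rw [h, mul_zero])
        have h1 := IsNum.step' hθ hunit hp (hq p hp) hd0' (ih' _ hd')
          (ih' d'' ((Dvd.intro_left p rfl).trans hd'))
        rw [← hn.step' p hp d'' hd0', inv_mul_cancel_left₀ (hq0 p hp)] at h1
        exact h1
      · have h1 := IsNum.step hinj hθ hunit hp (hq p hp) hd0 hpd' (ih' _ hd')
        rw [← hn.step p hp d' hd0 hpd', inv_mul_cancel_left₀ (hq0 p hp)] at h1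
        exact h1
    · have : d ∣ a := (hp.coprime_iff_not_dvd.mpr hpd).symm.dvd_of_dvd_mul_left hd
      exact ih' d this

/-- **Form (i)**: every solution of the recursion computes the coefficients. -/
theorem isNum_of_isRec [IsDomain O] [IsPrincipalIdealRing O] [IsClosed (lat O A : Set A)]
    (hinj : Function.Injective (algebraMap O A)) (hθ : SelfDual O θ)
    (hunit : ∀ a : O, a ≠ 0 → IsUnit (algebraMap O A a)) {q : O → ℂ}
    (hq : ∀ p, Prime p → ∀ R : Finset O, IsReps p R → (R.card : ℂ) = q p)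
    (hq0 : ∀ p, Prime p → q p ≠ 0) {n : O → ℂ}
    (hn : IsRec lam q n) {a : O} (ha : a ≠ 0) : IsNum (A := A) O X θ lam a (n a) :=
  isNum_of_isRec_aux hinj hθ hunit hq hq0 hn a ha a dvd_rfl

omit [IsTopologicalRing A] in
theorem isNum_unique [IsTopologicalRing A] {ψ : X → ℂ} (h : IsAut (A := A) O ψ)
    (he : IsEig (A := A) O lam ψ) {x : X}
    (hx : wh O θ ψ 1 x ≠ 0) {a : O} (ha : IsUnit (algebraMap O A a)) {c c' : ℂ}
    (hc : IsNum (A := A) O X θ lam a c) (hc' : IsNum (A := A) O X θ lam a c') : c = c' := by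
  obtain ⟨v, hv⟩ := ha
  have h1 := hc ψ h he (dg v⁻¹ 1 • x) v hv.symm
  have h2 := hc' ψ h he (dg v⁻¹ 1 • x) v hv.symm
  rw [← mul_smul, dg_mul_dg, mul_inv_cancel, one_mul, dg_one, one_smul] at h1 h2
  exact mul_right_cancel₀ hx (h1.symm.trans h2)

/-- **Form (ii)**: if `W ≠ 0` the numbers exist, are unique and satisfy the recursion. -/
theorem exists_isRec [IsDomain O] [IsPrincipalIdealRing O] [IsClosed (lat O A : Set A)]
    (hinj : Function.Injective (algebraMap O A)) (hθ : SelfDual O θ)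
    (hunit : ∀ a : O, a ≠ 0 → IsUnit (algebraMap O A a)) {q : O → ℂ}
    (hq : ∀ p, Prime p → ∀ R : Finset O, IsReps p R → (R.card : ℂ) = q p)
    {ψ : X → ℂ} (h : IsAut (A := A) O ψ)
    (he : IsEig (A := A) O lam ψ) {x : X} (hx : wh O θ ψ 1 x ≠ 0) :
    ∃ n : O → ℂ, IsRec lam q n ∧ ∀ a, a ≠ 0 → IsNum (A := A) O X θ lam a (n a) := by
  obtain ⟨n, hn⟩ := exists_num (X := X) hinj hθ hunit lam
  have hq0 : ∀ p, Prime p → q p ≠ 0 := by
    intro p hp
    obtain ⟨u, R, hu, hR, -⟩ := he p hp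
    rw [← hq p hp R hR]
    exact_mod_cast hR.card_ne_zero
  have huniq : ∀ {a : O} {c c' : ℂ}, a ≠ 0 → IsNum (A := A) O X θ lam a c →
      IsNum (A := A) O X θ lam a c' → c = c' := fun ha hc hc' =>
    isNum_unique h he hx (hunit _ ha) hc hc'
  refine ⟨n, ⟨fun e => ?_, fun p hp a ha hpa => ?_, fun p hp b hb => ?_⟩, hn⟩
  · exact huniq e.ne_zero (hn _ e.ne_zero) (isNum_unit hθ e)
  · rw [huniq (mul_ne_zero hp.ne_zero ha) (hn _ (mul_ne_zero hp.ne_zero ha))
      (IsNum.step hinj hθ hunit hp (hq p hp) ha hpa (hn a ha)), mul_inv_cancel_left₀ (hq0 p hp)]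
  · rw [huniq (mul_ne_zero hp.ne_zero (mul_ne_zero hp.ne_zero hb))
      (hn _ (mul_ne_zero hp.ne_zero (mul_ne_zero hp.ne_zero hb)))
      (IsNum.step' hθ hunit hp (hq p hp) hb (hn _ (mul_ne_zero hp.ne_zero hb)) (hn b hb)),
      mul_inv_cancel_left₀ (hq0 p hp)]

end Fermat.Agent.LT.Kap
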