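import Fermat.Agent.LT.Kappa.Mult

/-!
# The action of an automorphism `τ` of `(O, R_∞ × R_f, X_∞)` on the space `W`
-/

namespace Fermat.Agent.LT.Kap

open MeasureTheory Topology

variable {O Ri Rf Xi : Type*} [CommRing O] [CommRing Ri] [TopologicalSpace Ri]
  [IsTopologicalRing Ri] [CommRing Rf] [TopologicalSpace Rf] [IsTopologicalRing Rf]
  [Algebra O Ri] [Algebra O Rf]
  [MulAction (GL (Fin 2) Ri) Xi] {θ : AddChar (Ri × Rf) Circle} {lam : O → ℂ}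

/-- An automorphism of all the data. -/
structure TauDat (O Ri Rf Xi : Type*) [CommRing O] [CommRing Ri] [TopologicalSpace Ri]
    [CommRing Rf] [TopologicalSpace Rf] [Algebra O Ri] [Algebra O Rf]
    [MulAction (GL (Fin 2) Ri) Xi] (θ : AddChar (Ri × Rf) Circle) where
  /-- on `O` -/
  o : O ≃+* O
  /-- on `R_∞` -/
  i : Ri ≃+* Ri
  /-- on `R_f` -/
  f : Rf ≃+* Rf
  /-- on `X_∞` -/
  x : Xi → Xi
  i_cont : Continuous i
  f_cont : Continuous f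
  comm_i : ∀ a, i (algebraMap O Ri a) = algebraMap O Ri (o a)
  comm_f : ∀ a, f (algebraMap O Rf a) = algebraMap O Rf (o a)
  smul : ∀ (g : GL (Fin 2) Ri) (z : Xi),
    x (g • z) = Matrix.GeneralLinearGroup.map (i : Ri →+* Ri) g • x z
  theta : ∀ (s : Ri) (t : Rf), θ (i s, f t) = θ (s, t)

namespace TauDat

variable (σ : TauDat O Ri Rf Xi θ)

/-- the automorphism of `R_∞ × R_f`. -/
def a : Ri × Rf ≃+* Ri × Rf where
  toFun t := (σ.i t.1, σ.f t.2)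
  invFun t := (σ.i.symm t.1, σ.f.symm t.2)
  left_inv t := by simp
  right_inv t := by simp
  map_mul' s t := by simp
  map_add' s t := by simp

omit [IsTopologicalRing Ri] [IsTopologicalRing Rf] in
theorem a_apply (t : Ri × Rf) : σ.a t = (σ.i t.1, σ.f t.2) := rfl

omit [IsTopologicalRing Ri] [IsTopologicalRing Rf] in
theorem a_cont : Continuous σ.a :=
  (σ.i_cont.comp continuous_fst).prodMk (σ.f_cont.comp continuous_snd)

omit [IsTopologicalRing Ri] [IsTopologicalRing Rf] in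
theorem comm_a (b : O) : σ.a (algebraMap O (Ri × Rf) b) = algebraMap O (Ri × Rf) (σ.o b) :=
  Prod.ext (σ.comm_i b) (σ.comm_f b)

omit [IsTopologicalRing Ri] [IsTopologicalRing Rf] in
theorem theta_a (t : Ri × Rf) : θ (σ.a t) = θ t := σ.theta t.1 t.2

/-- the action on the space -/
def sp (p : Sp Xi Rf) : Sp Xi Rf := ⟨σ.x p.i, Matrix.GeneralLinearGroup.map (σ.f : Rf →+* Rf) p.f⟩

omit [IsTopologicalRing Ri] [IsTopologicalRing Rf] in
theorem sp_smul (g : GL (Fin 2) (Ri × Rf)) (p : Sp Xi Rf) :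
    σ.sp (g • p) = Matrix.GeneralLinearGroup.map (σ.a : Ri × Rf →+* Ri × Rf) g • σ.sp p := by
  rw [smul_eq, smul_eq]
  unfold sp
  congr 1
  · show σ.x (_ • _) = _
    rw [σ.smul]
    congr 1
  · show Matrix.GeneralLinearGroup.map (σ.f : Rf →+* Rf) (_ * _) = _
    rw [map_mul]
    congr 1

/-- the twist of a function. -/
def tw (ψ : Sp Xi Rf → ℂ) : Sp Xi Rf → ℂ := fun p => ψ (σ.sp p)

omit [IsTopologicalRing Ri] [IsTopologicalRing Rf] in
theorem tw_smul (ψ : Sp Xi Rf → ℂ) (g : GL (Fin 2) (Ri × Rf)) (p : Sp Xi Rf) :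
    σ.tw ψ (g • p) = ψ (Matrix.GeneralLinearGroup.map (σ.a : Ri × Rf →+* Ri × Rf) g • σ.sp p) := by
  unfold tw; rw [sp_smul]

omit [IsTopologicalRing Ri] [IsTopologicalRing Rf] in
theorem tw_nn (ψ : Sp Xi Rf → ℂ) (t : Ri × Rf) (p : Sp Xi Rf) :
    σ.tw ψ (nn t • p) = ψ (nn (σ.a t) • σ.sp p) := by
  rw [tw_smul, map_nn]; rfl

theorem isAut {ψ : Sp Xi Rf → ℂ} (h : IsAut (A := Ri × Rf) O ψ) :
    IsAut (A := Ri × Rf) O (σ.tw ψ) where
  inv γ p := by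
    rw [tw_smul]
    have : Matrix.GeneralLinearGroup.map (σ.a : Ri × Rf →+* Ri × Rf)
        (Matrix.GeneralLinearGroup.map (algebraMap O (Ri × Rf)) γ) =
        Matrix.GeneralLinearGroup.map (algebraMap O (Ri × Rf))
          (Matrix.GeneralLinearGroup.map (σ.o : O →+* O) γ) :=
      Units.ext (Matrix.ext fun i j => σ.comm_a _)
    rw [this, h.inv]; rfl
  scal z p := by rw [tw_smul, map_dg, h.scal]; rfl
  cont p := by
    have := (h.cont (σ.sp p)).comp σ.a_cont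
    exact this.congr fun t => (σ.tw_nn ψ t p).symm

theorem isReps_map {p : O} {R : Finset O} (hR : IsReps (σ.o p) R) :
    IsReps p (R.map (σ.o.symm.toEquiv.toEmbedding)) := by
  intro a
  obtain ⟨b, ⟨hb, hd⟩, huniq⟩ := hR (σ.o a)
  refine ⟨σ.o.symm b, ⟨?_, ?_⟩, ?_⟩
  · rw [Finset.mem_map]; exact ⟨b, hb, rfl⟩
  · obtain ⟨c, hc⟩ := hd
    refine ⟨σ.o.symm c, ?_⟩
    apply σ.o.injective
    rw [map_sub, map_mul, σ.o.apply_symm_apply, σ.o.apply_symm_apply, hc]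
  · rintro c ⟨hc, hd⟩
    rw [Finset.mem_map] at hc
    obtain ⟨c', hc', rfl⟩ := hc
    have : c' = b := by
      refine huniq c' ⟨hc', ?_⟩
      obtain ⟨e, he⟩ := hd
      refine ⟨σ.o e, ?_⟩
      rw [← map_mul, ← he, map_sub]
      congr 1
      exact (σ.o.apply_symm_apply c').symm
    rw [this]; rfl

theorem isEig {ψ : Sp Xi Rf → ℂ} (h : IsEig (A := Ri × Rf) O lam ψ) :
    IsEig (A := Ri × Rf) O (fun p => lam (σ.o p)) (σ.tw ψ) := by
  intro p hp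
  have hp' : Prime (σ.o p) := (MulEquiv.prime_iff σ.o.toMulEquiv).mpr hp
  obtain ⟨u, R, hu, hR, h1⟩ := h (σ.o p) hp'
  have hu' : σ.a (algebraMap O (Ri × Rf) p) = u := by rw [σ.comm_a, hu]
  let u' : (Ri × Rf)ˣ := Units.map (σ.a.symm : Ri × Rf →* Ri × Rf) u
  have hu1 : algebraMap O (Ri × Rf) p = u' := by
    show _ = σ.a.symm u
    rw [← hu', RingEquiv.symm_apply_apply]
  have hu2 : Units.map (σ.a : Ri × Rf →* Ri × Rf) u' = u := by
    ext1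
    show σ.a (σ.a.symm u) = u
    exact σ.a.apply_symm_apply _
  have hu3 : σ.a ((u'⁻¹ : (Ri × Rf)ˣ) : Ri × Rf) = ((u⁻¹ : (Ri × Rf)ˣ) : Ri × Rf) := by
    have : Units.map (σ.a : Ri × Rf →* Ri × Rf) u'⁻¹ = u⁻¹ := by rw [map_inv, hu2]
    exact congrArg Units.val this
  refine ⟨u', _, hu1, σ.isReps_map hR, fun x => ?_⟩
  have h2 := h1 (σ.sp x)
  unfold hecke at h2 ⊢
  have e1 : σ.tw ψ (dg u' 1 • x) = ψ (dg u 1 • σ.sp x) := by
    have e0 : Matrix.GeneralLinearGroup.map (σ.a : Ri × Rf →+* Ri × Rf) (dg u' 1) = dg u 1 := by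
      rw [map_dg]
      congr 1
      exact map_one _
    rw [tw_smul, e0]
  rw [e1, Finset.sum_map]
  rw [show lam (σ.o p) * σ.tw ψ x = lam (σ.o p) * ψ (σ.sp x) from rfl, ← h2]
  congr 1
  refine Finset.sum_congr rfl fun b _ => ?_
  rw [← mul_smul, tw_smul, map_mul, map_nn, map_dg, mul_smul]
  congr 2
  · congr 1
    show σ.a (algebraMap O (Ri × Rf) (σ.o.symm b) * _) = _
    rw [map_mul, σ.comm_a, hu3, RingEquiv.apply_symm_apply]
  · congr 2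
    · exact map_one _

variable [CompactSpace ((Ri × Rf) ⧸ lat O (Ri × Rf))] [IsClosed (lat O (Ri × Rf) : Set (Ri × Rf))]

theorem wh_tw (hθ : SelfDual O θ) {ψ : Sp Xi Rf → ℂ} (h : IsAut (A := Ri × Rf) O ψ) (b : O)
    (p : Sp Xi Rf) : wh O θ (σ.tw ψ) b p = wh O θ ψ (σ.o b) (σ.sp p) := by
  unfold wh coef
  rw [← mean_comp ((per_ch_neg hθ (σ.o b)).mul (h.per (σ.sp p)))
    ((continuous_ch hθ _).mul (h.cont (σ.sp p))) (σ.a : Ri × Rf →+* Ri × Rf).toAddMonoidHom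
    σ.a_cont σ.a.surjective ?_]
  · refine mean_congr fun t => ?_
    show ch θ (-(algebraMap O (Ri × Rf)) b) t * σ.tw ψ (nn t • p) =
      ch θ (-(algebraMap O (Ri × Rf)) (σ.o b)) (σ.a t) * ψ (nn (σ.a t) • σ.sp p)
    rw [tw_nn]
    congr 1
    simp only [ch]
    congr 1
    rw [← σ.theta_a (-(algebraMap O (Ri × Rf) b) * t), map_mul, map_neg, σ.comm_a]
  · rintro l ⟨c, rfl⟩
    exact ⟨σ.o c, (σ.comm_a c).symm⟩

theorem smooth {ψ : Sp Xi Rf → ℂ} (h : Smooth ψ) : Smooth (σ.tw ψ) := by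
  obtain ⟨N, hN, h1⟩ := h
  refine ⟨σ.f ⁻¹' N, ?_, fun z g k hk => ?_⟩
  · have := σ.f_cont.tendsto 0
    rw [map_zero] at this
    exact this hN
  · show ψ ⟨_, Matrix.GeneralLinearGroup.map (σ.f : Rf →+* Rf) (g * k)⟩ = _
    rw [map_mul]
    refine h1 _ _ _ fun i j => ?_
    have h2 := hk i j
    have e1 : ((Matrix.GeneralLinearGroup.map (σ.f : Rf →+* Rf) k : GL (Fin 2) Rf) :
        Matrix (Fin 2) (Fin 2) Rf) i j = σ.f ((k : Matrix (Fin 2) (Fin 2) Rf) i j) := rfl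
    rw [e1]
    have e2 : (1 : Matrix (Fin 2) (Fin 2) Rf) i j = σ.f ((1 : Matrix (Fin 2) (Fin 2) Rf) i j) := by
      by_cases hij : i = j
      · rw [hij, Matrix.one_apply_eq, map_one]
      · rw [Matrix.one_apply_ne hij, map_zero]
    rw [e2, ← map_sub]
    exact h2

theorem inW (hθ : SelfDual O θ) {wi : Xi → ℂ} {ψ : Sp Xi Rf → ℂ} (h : InW O θ lam wi ψ) :
    InW O θ (fun p => lam (σ.o p)) (fun z => wi (σ.x z)) (σ.tw ψ) where
  aut := σ.isAut h.aut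
  eig := σ.isEig h.eig
  cusp p := by rw [σ.wh_tw hθ h.aut, map_zero, h.cusp]
  smooth := σ.smooth h.smooth
  line g := by
    obtain ⟨c, hc⟩ := h.line (Matrix.GeneralLinearGroup.map (σ.f : Rf →+* Rf) g)
    refine ⟨c, fun z => ?_⟩
    rw [σ.wh_tw hθ h.aut, map_one]
    exact hc (σ.x z)

/-- stability of the pair `(V, χ)` -/
structure Stab (D : TyDat Rf) (a₀ : Rfˣ) : Prop where
  α : ∀ x ∈ D.α, σ.f x ∈ D.α
  β : ∀ x ∈ D.β, σ.f x ∈ D.β
  γ : ∀ x ∈ D.γ, σ.f x ∈ D.γ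
  a₀ : σ.f a₀ = a₀

omit [IsTopologicalRing Ri] [IsTopologicalRing Rf]
  [CompactSpace ((Ri × Rf) ⧸ lat O (Ri × Rf))] [IsClosed (lat O (Ri × Rf) : Set (Ri × Rf))] in
theorem eqV {D : TyDat Rf} {a₀ : Rfˣ} (hD : D.Compat θ a₀) (hS : σ.Stab D a₀)
    {ψ : Sp Xi Rf → ℂ} (h : EqV D ψ) : EqV D (σ.tw ψ) := by
  rintro z g v ⟨y, a, b, c, hv⟩
  show ψ ⟨_, Matrix.GeneralLinearGroup.map (σ.f : Rf →+* Rf) (g * v)⟩ = _
  rw [map_mul]
  have hv' : D.Mem (Matrix.GeneralLinearGroup.map (σ.f : Rf →+* Rf) v)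
      (Units.map (σ.f : Rf →* Rf) y) (σ.f a) (σ.f b) (σ.f c) := by
    obtain ⟨ha, hb, hc, hv⟩ := hv
    refine ⟨hS.α a ha, hS.β b hb, hS.γ c hc, ?_⟩
    have e1 : ∀ i j, ((Matrix.GeneralLinearGroup.map (σ.f : Rf →+* Rf) v : GL (Fin 2) Rf) :
        Matrix (Fin 2) (Fin 2) Rf) i j = σ.f ((v : Matrix (Fin 2) (Fin 2) Rf) i j) :=
      fun i j => rfl
    ext i j
    rw [e1, hv]
    fin_cases i <;> fin_cases j <;> simp
  rw [h _ _ _ ⟨_, _, _, _, hv'⟩, hv'.chi, hv.chi]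
  have hb := hv.2.1
  rw [hD.θ₀ _ hb, hD.θ₀ _ (hS.β b hb)]
  have e2 : θ ((0 : Ri), (a₀ : Rf) * σ.f b) = θ ((0 : Ri), (a₀ : Rf) * b) := by
    rw [← σ.theta 0 ((a₀ : Rf) * b), map_zero, map_mul, hS.a₀]
  rw [e2]
  rfl

variable [IsDomain O] [IsPrincipalIdealRing O]

/-- **`τ = 1` on the `(V, χ)`-line of a `τ`-stable system.** -/
theorem tw_eq_self (F : Type*) [Field F] [Algebra O F] [Algebra F Rf] [IsScalarTower O F Rf]
    [IsFractionRing O F] [Nontrivial Rf]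
    (hinj : Function.Injective (algebraMap O (Ri × Rf)))
    (hθ : SelfDual O θ) (hunit : ∀ a : O, a ≠ 0 → IsUnit (algebraMap O (Ri × Rf) a))
    (hdense : DenseRange (algebraMap F Rf)) (hu : ∀ᶠ x in 𝓝 (1 : Rf), IsUnit x)
    {D : TyDat Rf} {a₀ : Rfˣ} (hD : D.Compat θ a₀) (hS : σ.Stab D a₀) {wi : Xi → ℂ}
    (hlam : ∀ p, Prime p → lam (σ.o p) = lam p) (hwi : ∃ c : ℂ, ∀ z, wi (σ.x z) = c * wi z)
    {z₀ : Xi} (hz₀ : wi z₀ ≠ 0) (hfix : σ.x z₀ = z₀)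
    {ψ : Sp Xi Rf → ℂ} (h : InW O θ lam wi ψ) (hV : EqV D ψ) (p : Sp Xi Rf) :
    σ.tw ψ p = ψ p := by
  by_cases hne : ∃ x, ψ x ≠ 0
  swap
  · push Not at hne
    unfold tw
    rw [hne, hne]
  have h1 := σ.inW hθ h
  have h2 : InW O θ lam wi (σ.tw ψ) :=
    { h1 with
      eig := fun q hq => by
        obtain ⟨u, R, hu, hR, h3⟩ := h1.eig q hq
        exact ⟨u, R, hu, hR, fun x => by rw [h3, ← hlam q hq]⟩
      line := fun g => by
        obtain ⟨c, hc⟩ := h1.line g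
        obtain ⟨c', hc'⟩ := hwi
        exact ⟨c * c', fun z => by rw [hc, hc']; ring⟩ }
  obtain ⟨c, hc⟩ := exists_smul_eq F hinj hθ hunit hdense hu hD h hV h2 (σ.eqV hD hS hV) hne
  have h3 := wh_ne_zero F hinj hθ hunit hdense hu hD h hV hne hz₀
  have h4 : wh O θ (σ.tw ψ) 1 (⟨z₀, dg a₀ 1⟩ : Sp Xi Rf) =
      wh O θ ψ 1 (⟨z₀, dg a₀ 1⟩ : Sp Xi Rf) := by
    rw [σ.wh_tw hθ h.aut, map_one]
    congr 1
    unfold sp
    congr 1
    rw [map_dg]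
    congr 1
    · ext1; exact hS.a₀
    · exact map_one _
  have h5 : wh O θ (σ.tw ψ) 1 (⟨z₀, dg a₀ 1⟩ : Sp Xi Rf) =
      c * wh O θ ψ 1 (⟨z₀, dg a₀ 1⟩ : Sp Xi Rf) := by
    rw [← wh_smul_fun]
    congr 1
    ext x; exact hc x
  have hc1 : c = 1 := by
    rw [h4] at h5
    exact mul_right_cancel₀ h3 (by rw [← h5, one_mul])
  rw [hc, hc1, one_mul]

end TauDat

end Fermat.Agent.LT.Kap
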