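import Fermat.Agent.LT.Kappa.Exist
import Fermat.Agent.LT.Kappa.Tau

/-!
# The concrete family of pairs `(V, χ)`

`α = N^m 𝔡⁻¹`, `β = N^(k-m) O_f`, `γ = N^M O_f`, `κ = N^k 𝔡⁻¹`, `a₀ = N^(-k)`.
-/

namespace Fermat.Agent.LT.Kap

open MeasureTheory Topology

variable {O Ri Rf Xi : Type*} [CommRing O] [CommRing Ri] [TopologicalSpace Ri]
  [IsTopologicalRing Ri] [CommRing Rf] [TopologicalSpace Rf] [IsTopologicalRing Rf]
  [Algebra O Ri] [Algebra O Rf]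
  [MulAction (GL (Fin 2) Ri) Xi] {θ : AddChar (Ri × Rf) Circle} {lam : O → ℂ}

/-- The ring of integers `O_f`, a topologically nilpotent unit `N` and the conductor of `θ_f`. -/
structure FBase {Ri Rf : Type*} [CommRing Ri] [CommRing Rf] [TopologicalSpace Rf]
    (θ : AddChar (Ri × Rf) Circle) where
  /-- the maximal compact subring -/
  Of : Subring Rf
  /-- the topologically nilpotent unit -/
  N : Rfˣ
  op : (Of : Set Rf) ∈ 𝓝 (0 : Rf)
  cpt : IsCompact (Of : Set Rf)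
  NOf : (N : Rf) ∈ Of
  small : ∀ U ∈ 𝓝 (0 : Rf), ∃ n : ℕ, ∀ x ∈ Of, (N : Rf) ^ n * x ∈ U
  unit : ∀ x ∈ Of, ∃ y ∈ Of, (1 + N * x) * y = 1
  θOf : ∀ x ∈ Of, θ (0, x) = 1
  cond : ∃ j : ℕ, ∀ x : Rf, (∀ y ∈ Of, θ (0, x * y) = 1) → (N : Rf) ^ j * x ∈ Of

/-- multiplication of an additive subgroup by a unit. -/
def sc (u : Rfˣ) (S : AddSubgroup Rf) : AddSubgroup Rf :=
  S.comap (AddMonoidHom.mulLeft ((u⁻¹ : Rfˣ) : Rf))

omit [TopologicalSpace Rf] [IsTopologicalRing Rf] in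
theorem mem_sc {u : Rfˣ} {S : AddSubgroup Rf} {x : Rf} :
    x ∈ sc u S ↔ ((u⁻¹ : Rfˣ) : Rf) * x ∈ S := Iff.rfl

omit [TopologicalSpace Rf] [IsTopologicalRing Rf] in
theorem exists_of_mem_sc {u : Rfˣ} {S : AddSubgroup Rf} {x : Rf} (h : x ∈ sc u S) :
    ∃ y ∈ S, x = u * y := ⟨((u⁻¹ : Rfˣ) : Rf) * x, h, by rw [Units.mul_inv_cancel_left]⟩

omit [TopologicalSpace Rf] [IsTopologicalRing Rf] in
theorem mul_mem_sc {u : Rfˣ} {S : AddSubgroup Rf} {y : Rf} (h : y ∈ S) : (u : Rf) * y ∈ sc u S := by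
  rw [mem_sc, Units.inv_mul_cancel_left]; exact h

theorem sc_mem_nhds (u : Rfˣ) {S : AddSubgroup Rf} (hS : (S : Set Rf) ∈ 𝓝 (0 : Rf)) :
    (sc u S : Set Rf) ∈ 𝓝 (0 : Rf) := by
  have hc : Continuous fun x : Rf => ((u⁻¹ : Rfˣ) : Rf) * x := continuous_const.mul continuous_id
  have := hc.tendsto 0
  rw [mul_zero] at this
  exact this hS

theorem isCompact_sc (u : Rfˣ) {S : AddSubgroup Rf} (hS : IsCompact (S : Set Rf)) :
    IsCompact (sc u S : Set Rf) := by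
  have hc : Continuous fun x : Rf => (u : Rf) * x := continuous_const.mul continuous_id
  have h1 := hS.image hc
  convert h1 using 1
  ext x
  constructor
  · intro hx
    obtain ⟨y, hy, rfl⟩ := exists_of_mem_sc hx
    exact ⟨y, hy, rfl⟩
  · rintro ⟨y, hy, rfl⟩
    exact mul_mem_sc hy

namespace FBase

variable (B : FBase θ)

/-- the inverse different of `θ_f`. -/
def Dinv : AddSubgroup Rf where
  carrier := {x | ∀ y ∈ B.Of, θ (0, x * y) = 1}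
  add_mem' := by
    intro a b ha hb y hy
    rw [show ((0 : Ri), (a + b) * y) = ((0 : Ri), a * y) + ((0 : Ri), b * y) by
      ext <;> simp [add_mul], AddChar.map_add_eq_mul, ha y hy, hb y hy, mul_one]
  zero_mem' := by
    intro y _
    rw [zero_mul]
    exact AddChar.map_zero_eq_one θ
  neg_mem' := by
    intro a ha y hy
    rw [show ((0 : Ri), -a * y) = -((0 : Ri), a * y) by ext <;> simp, AddChar.map_neg_eq_inv,
      ha y hy, inv_one]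

omit [IsTopologicalRing Rf] [TopologicalSpace Ri] [IsTopologicalRing Ri] in
theorem mem_Dinv {x : Rf} : x ∈ B.Dinv ↔ ∀ y ∈ B.Of, θ (0, x * y) = 1 := Iff.rfl

omit [IsTopologicalRing Rf] [TopologicalSpace Ri] [IsTopologicalRing Ri] in
theorem mul_mem_Dinv {x y : Rf} (hx : x ∈ B.Dinv) (hy : y ∈ B.Of) : x * y ∈ B.Dinv := by
  intro z hz
  rw [mul_assoc]
  exact hx _ (B.Of.mul_mem hy hz)

omit [IsTopologicalRing Rf] [TopologicalSpace Ri] [IsTopologicalRing Ri] in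
theorem Of_le_Dinv {x : Rf} (hx : x ∈ B.Of) : x ∈ B.Dinv :=
  fun _ hy => B.θOf _ (B.Of.mul_mem hx hy)

/-- admissible parameters `u = N^m`, `w = N^k`, `y = N^M`. -/
structure Adm (u w y : Rfˣ) : Prop where
  h1 : ∀ d ∈ B.Dinv, ∃ e ∈ B.Of, (u : Rf) * d = B.N * e
  h5 : ((w * u⁻¹ * u⁻¹ * y : Rfˣ) : Rf) ∈ B.Of

variable {B}

omit [IsTopologicalRing Rf] [TopologicalSpace Ri] [IsTopologicalRing Ri] in
theorem Adm.memOf {u w y : Rfˣ} (h : B.Adm u w y) {x : Rf} (hx : x ∈ sc u B.Dinv) : x ∈ B.Of := by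
  obtain ⟨d, hd, rfl⟩ := exists_of_mem_sc hx
  obtain ⟨e, he, h2⟩ := h.h1 d hd
  rw [h2]; exact B.Of.mul_mem B.NOf he

variable (B)

/-- the pair `(V, χ)` attached to `u = N^m`, `w = N^k`, `y = N^M`. -/
noncomputable def dat (u w y : Rfˣ) (h : B.Adm u w y) : TyDat Rf where
  α := sc u B.Dinv
  β := sc (w * u⁻¹) B.Of.toAddSubgroup
  γ := sc y B.Of.toAddSubgroup
  κ := sc w B.Dinv
  unit := by
    intro x hx
    have hxO := h.memOf hx
    obtain ⟨d, hd, rfl⟩ := exists_of_mem_sc hx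
    obtain ⟨e, he, h2⟩ := h.h1 d hd
    obtain ⟨z, hz, h3⟩ := B.unit e he
    rw [← h2] at h3
    refine ⟨-(u * (d * z)), (sc u B.Dinv).neg_mem (mul_mem_sc (B.mul_mem_Dinv hd hz)), ?_⟩
    linear_combination (-((u : Rf) * d)) * h3
  αα := by
    intro x hx x' hx'
    have hxO := h.memOf hx'
    obtain ⟨d, hd, rfl⟩ := exists_of_mem_sc hx
    rw [mul_assoc]
    exact mul_mem_sc (B.mul_mem_Dinv hd hxO)
  αβ := by
    intro x hx b hb
    obtain ⟨d, hd, rfl⟩ := exists_of_mem_sc hx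
    obtain ⟨e, he, rfl⟩ := exists_of_mem_sc hb
    have : (u : Rf) * d * (((w * u⁻¹ : Rfˣ) : Rf) * e) = w * (d * e) := by
      rw [Units.val_mul]
      have h2 : (u : Rf) * ((u⁻¹ : Rfˣ) : Rf) = 1 := Units.mul_inv u
      linear_combination (w : Rf) * d * e * h2
    rw [this]
    exact mul_mem_sc (B.mul_mem_Dinv hd he)
  αγ := by
    intro x hx c hc
    have hxO := h.memOf hx
    obtain ⟨e, he, rfl⟩ := exists_of_mem_sc hc
    rw [mul_left_comm]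
    exact mul_mem_sc (B.Of.mul_mem hxO he)
  βγ := by
    intro b hb c hc
    obtain ⟨e, he, rfl⟩ := exists_of_mem_sc hb
    obtain ⟨e', he', rfl⟩ := exists_of_mem_sc hc
    have : ((w * u⁻¹ : Rfˣ) : Rf) * e * ((y : Rf) * e') =
        u * (((w * u⁻¹ * u⁻¹ * y : Rfˣ) : Rf) * (e * e')) := by
      simp only [Units.val_mul]
      have h2 : (u : Rf) * ((u⁻¹ : Rfˣ) : Rf) = 1 := Units.mul_inv u
      linear_combination (-(w : Rf) * ((u⁻¹ : Rfˣ) : Rf) * y * e * e') * h2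
    rw [this]
    exact mul_mem_sc (B.Of_le_Dinv (B.Of.mul_mem h.h5 (B.Of.mul_mem he he')))
  κβ := by
    intro x hx
    obtain ⟨d, hd, rfl⟩ := exists_of_mem_sc hx
    rw [mem_sc]
    have : (((w * u⁻¹)⁻¹ : Rfˣ) : Rf) * (w * d) = u * d := by
      rw [mul_inv, inv_inv, Units.val_mul]
      have h2 : ((w⁻¹ : Rfˣ) : Rf) * (w : Rf) = 1 := Units.inv_mul w
      linear_combination (u : Rf) * d * h2
    rw [this]
    exact h.memOf (mul_mem_sc hd)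
  θ₀ := 
    { toFun := fun b => θ (0, ((w⁻¹ : Rfˣ) : Rf) * b)
      map_zero_eq_one' := by rw [mul_zero]; exact AddChar.map_zero_eq_one θ
      map_add_eq_mul' := by
        intro a b
        rw [← AddChar.map_add_eq_mul]
        congr 1
        ext <;> simp [mul_add] }
  θκ := by
    intro x hx
    obtain ⟨d, hd, rfl⟩ := exists_of_mem_sc hx
    show θ (0, ((w⁻¹ : Rfˣ) : Rf) * (w * d)) = 1
    rw [Units.inv_mul_cancel_left]
    have := hd 1 B.Of.one_mem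
    rwa [mul_one] at this

variable {B}

theorem Adm.compat {u w y : Rfˣ} (h : B.Adm u w y) : (B.dat u w y h).Compat θ w⁻¹ where
  θ₀ := fun b _ => rfl
  supp := by
    intro x hx
    rw [show (B.dat u w y h).α = sc u B.Dinv from rfl, mem_sc]
    intro e he
    have h1 := hx (((w * u⁻¹ : Rfˣ) : Rf) * e) (mul_mem_sc (S := B.Of.toAddSubgroup) he)
    rw [← h1]
    congr 2
    rw [Units.val_mul]
    have h2 : ((w⁻¹ : Rfˣ) : Rf) * (w : Rf) = 1 := Units.inv_mul w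
    linear_combination (-((u⁻¹ : Rfˣ) : Rf) * x * e) * h2

theorem Adm.isCompact_β {u w y : Rfˣ} (h : B.Adm u w y) :
    IsCompact ((B.dat u w y h).β : Set Rf) := isCompact_sc _ B.cpt

variable (B) in
theorem Dinv_mem_nhds : (B.Dinv : Set Rf) ∈ 𝓝 (0 : Rf) :=
  Filter.mem_of_superset B.op fun _ hx => B.Of_le_Dinv hx

theorem Adm.κ_mem_nhds {u w y : Rfˣ} (h : B.Adm u w y) :
    ((B.dat u w y h).κ : Set Rf) ∈ 𝓝 (0 : Rf) := sc_mem_nhds _ B.Dinv_mem_nhds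

variable (B) in
theorem adm_pow {j : ℕ} (hj : ∀ x : Rf, (∀ y ∈ B.Of, θ (0, x * y) = 1) → (B.N : Rf) ^ j * x ∈ B.Of)
    {m k M : ℕ} (hm : j + 1 ≤ m) (hk : m ≤ k) (hM : m ≤ M) :
    B.Adm (B.N ^ m) (B.N ^ k) (B.N ^ M) where
  h1 := by
    intro d hd
    obtain ⟨l, rfl⟩ := Nat.exists_eq_add_of_le hm
    refine ⟨(B.N : Rf) ^ l * ((B.N : Rf) ^ j * d), B.Of.mul_mem (B.Of.pow_mem B.NOf l) (hj d hd), ?_⟩
    rw [Units.val_pow_eq_pow_val]; ring
  h5 := by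
    obtain ⟨l, rfl⟩ := Nat.exists_eq_add_of_le hk
    obtain ⟨l', rfl⟩ := Nat.exists_eq_add_of_le hM
    have : B.N ^ (m + l) * (B.N ^ m)⁻¹ * (B.N ^ m)⁻¹ * B.N ^ (m + l') = B.N ^ l * B.N ^ l' := by
      rw [pow_add, pow_add, mul_comm (B.N ^ m) (B.N ^ l), mul_inv_cancel_right, mul_assoc,
        inv_mul_cancel_left]
    rw [this, Units.val_mul, Units.val_pow_eq_pow_val, Units.val_pow_eq_pow_val]
    exact B.Of.mul_mem (B.Of.pow_mem B.NOf l) (B.Of.pow_mem B.NOf l')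

/-- stability under an automorphism fixing `N` and `O_f`. -/
theorem Adm.stab (σ : TauDat O Ri Rf Xi θ) {m k M : ℕ}
    (h : B.Adm (B.N ^ m) (B.N ^ k) (B.N ^ M)) (hN : σ.f B.N = B.N)
    (hO : ∀ x, σ.f x ∈ B.Of ↔ x ∈ B.Of) :
    σ.Stab (B.dat (B.N ^ m) (B.N ^ k) (B.N ^ M) h) (B.N ^ k)⁻¹ := by
  have hNu : Units.map (σ.f : Rf →* Rf) B.N = B.N := Units.ext hN
  have hD : ∀ x ∈ B.Dinv, σ.f x ∈ B.Dinv := by
    intro x hx y hy
    have h1 : σ.f (σ.f.symm y) ∈ B.Of := by rw [σ.f.apply_symm_apply]; exact hy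
    have h2 := hx _ ((hO _).mp h1)
    rw [← σ.theta 0 (x * σ.f.symm y), map_zero, map_mul, σ.f.apply_symm_apply] at h2
    exact h2
  have key : ∀ (v : Rfˣ), Units.map (σ.f : Rf →* Rf) v = v → ∀ (S : AddSubgroup Rf),
      (∀ x ∈ S, σ.f x ∈ S) → ∀ x ∈ sc v S, σ.f x ∈ sc v S := by
    intro v hv S hS x hx
    obtain ⟨y, hy, rfl⟩ := exists_of_mem_sc hx
    rw [map_mul]
    have : σ.f v = v := congrArg Units.val hv
    rw [this]
    exact mul_mem_sc (hS y hy)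
  have hpow : ∀ n : ℕ, Units.map (σ.f : Rf →* Rf) (B.N ^ n) = B.N ^ n := fun n => by
    rw [map_pow, hNu]
  exact
    { α := key _ (hpow m) _ hD
      β := key _ (by rw [map_mul, map_inv, hpow, hpow]) _ fun x hx => (hO x).mpr hx
      γ := key _ (hpow M) _ fun x hx => (hO x).mpr hx
      a₀ := by
        have : Units.map (σ.f : Rf →* Rf) (B.N ^ k)⁻¹ = (B.N ^ k)⁻¹ := by rw [map_inv, hpow]
        exact congrArg Units.val this }

variable [CompactSpace ((Ri × Rf) ⧸ lat O (Ri × Rf))]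

/-- **Existence of arbitrarily small pairs `(V, χ)` with a non-zero `(V, χ)`-vector.** -/
theorem exists_small (hθ : SelfDual O θ) {wi : Xi → ℂ} {Φ : Sp Xi Rf → ℂ}
    (h : InW O θ lam wi Φ) (a₁ : Rfˣ) {U : Set Rf} (hU : U ∈ 𝓝 (0 : Rf)) (n₀ : ℕ) :
    ∃ (m k M : ℕ) (hadm : B.Adm (B.N ^ m) (B.N ^ k) (B.N ^ M)), n₀ ≤ m ∧ n₀ ≤ k - m ∧ m ≤ k ∧
      n₀ ≤ M ∧ m ≤ M ∧
      (∀ x ∈ (B.dat _ _ _ hadm).α, x ∈ U) ∧ (∀ x ∈ (B.dat _ _ _ hadm).β, x ∈ U) ∧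
      (∀ x ∈ (B.dat _ _ _ hadm).γ, x ∈ U) ∧
      ∃ ψ ∈ rspan Φ, EqV (B.dat _ _ _ hadm) ψ ∧ ∀ z,
        wh O θ ψ 1 (⟨z, dg (B.N ^ k)⁻¹ 1⟩ : Sp Xi Rf) = wh O θ Φ 1 (⟨z, dg a₁ 1⟩ : Sp Xi Rf) := by
  obtain ⟨j, hj⟩ := B.cond
  obtain ⟨N₁, hN₁, hΦ⟩ := h.smooth
  obtain ⟨m₁, hm₁⟩ := B.small (U ∩ N₁) (Filter.inter_mem hU hN₁)
  -- `N^n O_f ⊂ U ∩ N₁` for `n ≥ m₁`
  have hpow : ∀ {n : ℕ}, m₁ ≤ n → ∀ x ∈ B.Of, (B.N : Rf) ^ n * x ∈ U ∩ N₁ := by
    intro n hn x hx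
    obtain ⟨l, rfl⟩ := Nat.exists_eq_add_of_le hn
    rw [pow_add, mul_assoc]
    exact hm₁ _ (B.Of.mul_mem (B.Of.pow_mem B.NOf l) hx)
  set m : ℕ := m₁ + j + 1 + n₀ with hm
  set k : ℕ := m + (m₁ + n₀) with hk
  set a₀ : Rfˣ := (B.N ^ k)⁻¹ with ha₀
  set s : Rfˣ := a₀⁻¹ * a₁ with hs
  set Φ' : Sp Xi Rf → ℂ := rt (dg s 1) Φ with hΦ'
  have hW' : InW O θ lam wi Φ' := h.rt _
  obtain ⟨N₂, hN₂, hΦ2⟩ := hW'.smooth
  obtain ⟨m₂, hm₂⟩ := B.small (U ∩ N₂) (Filter.inter_mem hU hN₂)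
  set M : ℕ := m + m₂ + n₀ with hM
  have hadm : B.Adm (B.N ^ m) (B.N ^ k) (B.N ^ M) := B.adm_pow hj (by omega) (by omega) (by omega)
  have hα : ∀ x ∈ (B.dat _ _ _ hadm).α, x ∈ U ∩ N₁ := by
    intro x hx
    obtain ⟨d, hd, rfl⟩ := exists_of_mem_sc (show x ∈ sc (B.N ^ m) B.Dinv from hx)
    have h1 := hj d hd
    have h2 : ((B.N ^ m : Rfˣ) : Rf) * d = (B.N : Rf) ^ (m₁ + 1 + n₀) * ((B.N : Rf) ^ j * d) := by
      rw [Units.val_pow_eq_pow_val, hm]; ring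
    rw [h2]
    exact hpow (by omega) _ h1
  refine ⟨m, k, M, hadm, by omega, by omega, by omega, by omega, by omega,
    fun x hx => (hα x hx).1, ?_, ?_, ?_⟩
  · intro x hx
    obtain ⟨e, he, rfl⟩ := exists_of_mem_sc
      (show x ∈ sc (B.N ^ k * (B.N ^ m)⁻¹) B.Of.toAddSubgroup from hx)
    have h2 : B.N ^ k * (B.N ^ m)⁻¹ = B.N ^ (m₁ + n₀) := by
      rw [hk, pow_add, mul_comm (B.N ^ m), mul_inv_cancel_right]
    rw [h2, Units.val_pow_eq_pow_val]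
    exact (hpow (by omega) e he).1
  · intro x hx
    obtain ⟨e, he, rfl⟩ := exists_of_mem_sc (show x ∈ sc (B.N ^ M) B.Of.toAddSubgroup from hx)
    rw [Units.val_pow_eq_pow_val]
    exact (hpow (by omega) e he).1
  · have hlow : LowInv (B.dat _ _ _ hadm) Φ' := by
      constructor
      · intro u hu z g
        show Φ ⟨z, g * dg u 1 * dg s 1⟩ = Φ ⟨z, g * dg s 1⟩
        rw [mul_assoc g, dg_mul_dg, mul_comm u s, ← dg_mul_dg s 1, ← mul_assoc g]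
        refine hΦ _ _ _ fun i j => ?_
        have h0 : (0 : Rf) ∈ N₁ := mem_of_mem_nhds hN₁
        have h3 := (hα _ hu).2
        rw [coe_dg]
        fin_cases i <;> fin_cases j
        · simpa using h3
        · simpa using h0
        · simpa using h0
        · simpa using h0
      · intro c hc z g
        refine hΦ2 _ _ _ fun i j => ?_
        have h0 : (0 : Rf) ∈ N₂ := mem_of_mem_nhds hN₂
        obtain ⟨e, he, rfl⟩ := exists_of_mem_sc (show c ∈ sc (B.N ^ M) B.Of.toAddSubgroup from hc)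
        have h3 : ((B.N ^ M : Rfˣ) : Rf) * e ∈ N₂ := by
          have h4 := hm₂ ((B.N : Rf) ^ (m + n₀) * e) (B.Of.mul_mem (B.Of.pow_mem B.NOf _) he)
          have h5 : ((B.N ^ M : Rfˣ) : Rf) * e = (B.N : Rf) ^ m₂ * ((B.N : Rf) ^ (m + n₀) * e) := by
            rw [Units.val_pow_eq_pow_val, hM]; ring
          rw [h5]; exact h4.2
        have hnl : ((TyDat.nl (((B.N ^ M : Rfˣ) : Rf) * e) : GL (Fin 2) Rf) :
          Matrix (Fin 2) (Fin 2) Rf) = !![1, 0; ((B.N ^ M : Rfˣ) : Rf) * e, 1] := rfl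
        rw [hnl]
        fin_cases i <;> fin_cases j
        · simpa using h0
        · simpa using h0
        · simpa using h3
        · simpa using h0
    obtain ⟨ψ, hψ, hV, hwh⟩ := exists_eqV hθ hadm.compat hadm.isCompact_β hadm.κ_mem_nhds hW' hlow
    refine ⟨ψ, rspan_rt_le _ _ hψ, hV, fun z => ?_⟩
    rw [hwh, hΦ', wh_rt]
    show wh O θ Φ 1 (⟨z, dg (B.N ^ k)⁻¹ 1 * dg s 1⟩ : Sp Xi Rf) = _
    rw [dg_mul_dg, hs, ← ha₀, mul_inv_cancel_left, mul_one]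

end FBase

end Fermat.Agent.LT.Kap
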