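import Fermat.Agent.LT.Kappa.Inst
import Fermat.Agent.LT.Kappa.Fam
import Fermat.Agent.LT.Adapt.InfAct

/-!
# The `S`-arithmetic instance of the family of pairs `(V, χ)`
-/

set_option autoImplicit false

open NumberField IsDedekindDomain HeightOneSpectrum WithZero
open scoped WithZero Topology

noncomputable section

namespace Fermat.Agent.LT.Kap

open Fermat.Agent.LT.Loc
open Fermat.Agent.LT.Chr hiding Rf

variable {F : Type*} [Field F] [NumberField F] (S : Finset (HeightOneSpectrum (𝓞 F)))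

/-- the image in `∏_{v ∈ S} F_v` of a non-zero algebraic integer, as a unit -/
def nfu {N : 𝓞 F} (hN0 : N ≠ 0) : (Rf S)ˣ :=
  Units.map (algebraMap F (Rf S) : F →* Rf S)
    (Units.mk0 (N : F) (fun h => hN0 (RingOfIntegers.ext h)))

@[simp] theorem coe_nfu {N : 𝓞 F} (hN0 : N ≠ 0) :
    ((nfu S hN0 : (Rf S)ˣ) : Rf S) = algebraMap F (Rf S) (N : F) := rfl

theorem exists_pow_small {N : 𝓞 F} (hN : ∀ v ∈ S, v.valuation F (N : F) < 1) {U : Set (Rf S)}
    (hU : U ∈ 𝓝 (0 : Rf S)) : ∃ n : ℕ, ∀ x ∈ Of S, algebraMap F (Rf S) (N : F) ^ n * x ∈ U := by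
  classical
  rw [nhds_pi, Filter.mem_pi'] at hU
  obtain ⟨I, t, ht, htU⟩ := hU
  have h1 : ∀ v : S, ∃ n : ℕ, ∀ y : v.1.adicCompletion F, Valued.v y < exp (-(n : ℤ)) → y ∈ t v := by
    intro v
    obtain ⟨n, hn⟩ := (Loc.mem_nhds_iff v.1).mp (ht v)
    refine ⟨n, fun y hy => hn ?_⟩
    rw [Set.mem_ofPred_eq, Pi.zero_apply, sub_zero]
    exact hy
  choose n hn using h1
  have hN1 : ∀ v : S, Valued.v (ι v.1 (N : F)) ≤ exp (-1 : ℤ) := by
    intro v
    have h2 := hN v v.2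
    rw [v_ι]
    by_cases h0 : v.1.valuation F (N : F) = 0
    · rw [h0]; exact zero_le
    · rw [← exp_log h0] at h2 ⊢
      rw [← exp_zero, exp_lt_exp] at h2
      rw [exp_le_exp]
      omega
  refine ⟨Finset.univ.sup n + 1, fun x hx => htU fun v _ => hn v _ ?_⟩
  have h3 : n v ≤ Finset.univ.sup n := Finset.le_sup (f := n) (Finset.mem_univ v)
  rw [Pi.mul_apply, Pi.pow_apply, algebraMap_f, map_mul, map_pow]
  calc Valued.v (ι v.1 (N : F)) ^ (Finset.univ.sup n + 1) * Valued.v (x v)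
      ≤ exp (-1 : ℤ) ^ (Finset.univ.sup n + 1) * 1 := by
        gcongr
        · exact hN1 v
        · exact hx v
    _ < exp (-(n v : ℤ)) := by
        rw [mul_one, ← exp_nsmul, exp_lt_exp]
        simp only [nsmul_eq_mul]
        push_cast
        omega

theorem mem_condF_of_thetaA {δ : F} {x : Rf S} (h : ∀ y ∈ Of S, thetaA S δ (0, x * y) = 1) :
    algebraMap F (Rf S) δ * x ∈ condF S := by
  intro y hy
  have := h y hy
  rw [thetaA_inr, ← mul_assoc] at this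
  exact this

/-- the family of pairs `(V, χ)` at `S` -/
def fbase {δ : F} (hδ : δ ≠ 0) (hδO : algebraMap F (Rf S) δ ∈ condF S) {N : 𝓞 F} (hN0 : N ≠ 0)
    (hN : ∀ v ∈ S, v.valuation F (N : F) < 1) :
    FBase (Ri := Rinf F) (Rf := Rf S) (thetaA S δ) where
  Of := Of S
  N := nfu S hN0
  op := (isOpen_Of S).mem_nhds (Of S).zero_mem
  cpt := isCompact_Of S
  NOf := algebraMap_int_mem_Of S N
  small U hU := exists_pow_small S hN hU
  unit x hx := by
    have h1 : (⟨1 + algebraMap F (Rf S) (N : F) * x, (Of S).add_mem (Of S).one_mem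
        ((Of S).mul_mem (algebraMap_int_mem_Of S N) hx)⟩ : Of S) - 1 ∈ idealOf S N :=
      mem_idealOf.mpr ⟨x, hx, by
        show 1 + algebraMap F (Rf S) (N : F) * x - 1 = _
        rw [add_sub_cancel_left]⟩
    obtain ⟨u, hu⟩ := isUnit_one_add S hN h1
    have hu1 : ((u : Of S) : Rf S) = 1 + algebraMap F (Rf S) (N : F) * x := congrArg Subtype.val hu
    have hu2 : ((u : Of S) : Rf S) * ((u⁻¹ : (Of S)ˣ) : Of S) = 1 :=
      congrArg Subtype.val (Units.mul_inv u)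
    refine ⟨((u⁻¹ : (Of S)ˣ) : Of S), ((u⁻¹ : (Of S)ˣ) : Of S).2, ?_⟩
    rw [coe_nfu, ← hu1]
    exact hu2
  θOf x hx := by
    rw [thetaA_inr]
    exact hδO x hx
  cond := by
    obtain ⟨i, hi⟩ := exists_pow_mul_mem_intF (S := S) N hN
    obtain ⟨j, hj⟩ := exists_pow_mul_le S N hN (algebraMap F (Rf S) δ⁻¹) one_ne_zero
    refine ⟨i + j, fun x hx => ?_⟩
    have h2 : algebraMap F (Rf S) δ⁻¹ * algebraMap F (Rf S) δ = 1 := by
      rw [← map_mul, inv_mul_cancel₀ hδ, map_one]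
    have h1 : ((nfu S hN0 : (Rf S)ˣ) : Rf S) ^ (i + j) * x =
        (algebraMap F (Rf S) (N : F) ^ j * algebraMap F (Rf S) δ⁻¹) *
        (algebraMap F (Rf S) (N : F) ^ i * (algebraMap F (Rf S) δ * x)) := by
      rw [coe_nfu]
      calc algebraMap F (Rf S) (N : F) ^ (i + j) * x = algebraMap F (Rf S) (N : F) ^ (i + j) *
            (algebraMap F (Rf S) δ⁻¹ * algebraMap F (Rf S) δ) * x := by rw [h2, mul_one]
        _ = _ := by ring
    rw [h1]
    refine (Of S).mul_mem (fun v => ?_) ?_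
    · exact hj v
    · exact hi _ (mem_condF_of_thetaA S hx)

theorem one_mem_condF : algebraMap F (Rf S) (1 : F) ∈ condF S := by
  rw [map_one]
  exact intF_le_condF (intF S).one_mem

/-- the case `δ = 1` -/
def fbase1 {N : 𝓞 F} (hN0 : N ≠ 0) (hN : ∀ v ∈ S, v.valuation F (N : F) < 1) :
    FBase (Ri := Rinf F) (Rf := Rf S) (thetaA S 1) :=
  fbase S one_ne_zero (one_mem_condF S) hN0 hN

section Main

variable [IsTotallyComplex F] [IsPrincipalIdealRing (OS S)] [Nontrivial (Rf S)]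
  {θ : AddChar (Rinf F × Rf S) Circle} {lam : OS S → ℂ} {wi : Xi F → ℂ}

variable {S}

/-- **injectivity of `κ`** -/
theorem S_eq_zero_of_kappa (hθ : SelfDual (OS S) θ) {ψ : Sp (Xi F) (Rf S) → ℂ}
    (h : InW (OS S) θ lam wi ψ)
    (h1 : ∀ (z : Xi F) (a : (Rf S)ˣ), wh (OS S) θ ψ 1 (⟨z, dg a 1⟩ : Sp (Xi F) (Rf S)) = 0)
    (x : Sp (Xi F) (Rf S)) : ψ x = 0 :=
  eq_zero_of_kappa F (algebraMap_OS_injective S) hθ (isUnit_algebraMap_OS S)
    (denseRange_algebraMap_Rf S) (eventually_isUnit S) h.aut h.eig h.cusp h.smooth h1 x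

/-- **multiplicity one** -/
theorem S_exists_smul_eq (hθ : SelfDual (OS S) θ) {D : TyDat (Rf S)} {a₀ : (Rf S)ˣ}
    (hD : D.Compat θ a₀) {ψ ψ' : Sp (Xi F) (Rf S) → ℂ} (h : InW (OS S) θ lam wi ψ) (hV : EqV D ψ)
    (h' : InW (OS S) θ lam wi ψ') (hV' : EqV D ψ') (hne : ∃ x, ψ x ≠ 0) :
    ∃ c : ℂ, ∀ x, ψ' x = c * ψ x :=
  exists_smul_eq F (algebraMap_OS_injective S) hθ (isUnit_algebraMap_OS S)
    (denseRange_algebraMap_Rf S) (eventually_isUnit S) hD h hV h' hV' hne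

theorem S_wh_ne_zero (hθ : SelfDual (OS S) θ) {D : TyDat (Rf S)} {a₀ : (Rf S)ˣ}
    (hD : D.Compat θ a₀) {ψ : Sp (Xi F) (Rf S) → ℂ} (h : InW (OS S) θ lam wi ψ) (hV : EqV D ψ)
    (hne : ∃ x, ψ x ≠ 0) {z : Xi F} (hz : wi z ≠ 0) :
    wh (OS S) θ ψ 1 (⟨z, dg a₀ 1⟩ : Sp (Xi F) (Rf S)) ≠ 0 :=
  wh_ne_zero F (algebraMap_OS_injective S) hθ (isUnit_algebraMap_OS S)
    (denseRange_algebraMap_Rf S) (eventually_isUnit S) hD h hV hne hz

/-- **`τ = 1`** on the `(V, χ)`-vectors of a `τ`-stable system -/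
theorem S_tw_eq_self (hθ : SelfDual (OS S) θ) (σ : TauDat (OS S) (Rinf F) (Rf S) (Xi F) θ)
    {D : TyDat (Rf S)} {a₀ : (Rf S)ˣ} (hD : D.Compat θ a₀) (hS : σ.Stab D a₀)
    (hlam : ∀ p, Prime p → lam (σ.o p) = lam p) (hwi : ∃ c : ℂ, ∀ z, wi (σ.x z) = c * wi z)
    {z₀ : Xi F} (hz₀ : wi z₀ ≠ 0) (hfix : σ.x z₀ = z₀) {ψ : Sp (Xi F) (Rf S) → ℂ}
    (h : InW (OS S) θ lam wi ψ) (hV : EqV D ψ) (p : Sp (Xi F) (Rf S)) : σ.tw ψ p = ψ p :=
  σ.tw_eq_self F (algebraMap_OS_injective S) hθ (isUnit_algebraMap_OS S)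
    (denseRange_algebraMap_Rf S) (eventually_isUnit S) hD hS hlam hwi hz₀ hfix h hV p

end Main

end Fermat.Agent.LT.Kap
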