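import Fermat.Agent.LT.Kappa.Line
import Fermat.Agent.LT.Kappa.Main
import Fermat.Agent.LT.H3.Whittaker

/-!
# The infinite part of the first Whittaker coefficient

`ψ` on `(ι → ℍ³) × GL₂(R_f)`, eigenfunction of the radial kernels in every variable with
eigenvalues `sph (ν i)`, bounded: then
`wh ψ 1 (z, g) = a(g) ∏ i, whit (ν i) (c i) (z i)`, where `θ(t, 0) = ∏ i, e(2 Re(c_i t_i))`.
-/

set_option autoImplicit false
set_option linter.unusedSectionVars false

open MeasureTheory Set Filter Topology Complex Function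

noncomputable section

namespace Fermat.Agent.LT.Kap

open H3

/-- one variable -/
theorem eq_whit_one {W : H3 → ℂ} {ν c : ℂ} (hc : c ≠ 0) (hW : H3.IsEig W (sph ν))
    (hθ : ∀ P : H3, W P = e2 c P.z * W (ofPair (0, P.y))) {M : ℝ} (hb : ∀ P, ‖W P‖ ≤ M) :
    ∃ a : ℂ, ∀ P, W P = a * whit ν c P :=
  eq_whit_of_bounded hc hW hθ hb

theorem e2_ne_zero (c z : ℂ) : e2 c z ≠ 0 := Complex.exp_ne_zero _

theorem exists_whit_ne_zero (ν : ℂ) {c : ℂ} (hc : c ≠ 0) :
    ∃ Y : ℝ, 0 < Y ∧ ∀ P : H3, Y ≤ P.y → whit ν c P ≠ 0 := by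
  obtain ⟨Y, hY⟩ := eventually_atTop.mp (eventually_besselK_ne_zero ν)
  have hc' : 0 < 4 * Real.pi * ‖c‖ := by
    have := norm_pos_iff.mpr hc
    have := Real.pi_pos
    positivity
  refine ⟨max (Y / (4 * Real.pi * ‖c‖)) 1, lt_max_of_lt_right one_pos, fun P hP => ?_⟩
  have h1 : Y ≤ 4 * Real.pi * ‖c‖ * P.y := by
    have := (le_max_left _ _).trans hP
    rw [div_le_iff₀ hc'] at this
    linarith
  exact mul_ne_zero (e2_ne_zero _ _) (mul_ne_zero (by exact_mod_cast P.y_ne) (hY _ h1))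

section Pro

variable {ι : Type*} [Fintype ι] [DecidableEq ι]

theorem eq_prod_fun {X : Type*} {W : (ι → X) → ℂ} {f : ι → X → ℂ}
    (x₀ : ι → X) (hx₀ : ∀ i, f i (x₀ i) ≠ 0)
    (h : ∀ x i, ∃ a : ℂ, ∀ P, W (update x i P) = a * f i P) :
    ∃ a : ℂ, ∀ x, W x = a * ∏ i, f i (x i) := by
  have key : ∀ (x : ι → X) (s : Finset ι), W x * ∏ i ∈ s, f i (x₀ i) =
      W (s.piecewise x₀ x) * ∏ i ∈ s, f i (x i) := by
    intro x s
    induction s using Finset.induction_on with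
    | empty => simp
    | insert j s hj ih =>
      rw [Finset.prod_insert hj, Finset.prod_insert hj, Finset.piecewise_insert]
      set y := s.piecewise x₀ x with hy
      have hyj : y j = x j := Finset.piecewise_eq_of_notMem _ _ _ hj
      obtain ⟨a, ha⟩ := h y j
      have h1 := ha (x₀ j)
      have h2 := ha (y j)
      rw [update_eq_self, hyj] at h2
      rw [h1]
      linear_combination (f j (x₀ j)) * ih + (∏ i ∈ s, f i (x i)) * f j (x₀ j) * h2
  have hne : ∏ i, f i (x₀ i) ≠ 0 := Finset.prod_ne_zero_iff.mpr fun i _ => hx₀ i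
  refine ⟨W x₀ / ∏ i, f i (x₀ i), fun x => ?_⟩
  have h1 := key x Finset.univ
  rw [Finset.piecewise_univ] at h1
  field_simp
  exact h1

/-- **Product form.** -/
theorem eq_prod_whit {W : (ι → H3) → ℂ} {c ν : ι → ℂ} (hc : ∀ i, c i ≠ 0)
    (h : ∀ x i, ∃ a : ℂ, ∀ P, W (update x i P) = a * whit (ν i) (c i) P) :
    ∃ a : ℂ, ∀ x, W x = a * ∏ i, whit (ν i) (c i) (x i) := by
  choose Y hY hYne using fun i => exists_whit_ne_zero (ν i) (hc i)
  exact eq_prod_fun (fun i => mk 0 (Y i) (hY i)) (fun i => hYne i _ le_rfl) h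

end Pro

section Mean

attribute [local instance 10000] instMQ instBorelQ

variable {A : Type*} [AddCommGroup A] [TopologicalSpace A] [IsTopologicalAddGroup A]
  {Λ : AddSubgroup A} {X : Type*} [TopologicalSpace X]

theorem continuous_lft_joint {F : X → A → ℂ} (hF : Continuous fun p : X × A => F p.1 p.2)
    (hper : ∀ x, Per Λ (F x)) : Continuous fun p : X × (A ⧸ Λ) => lft Λ (F p.1) p.2 := by
  have hq : IsOpenQuotientMap (Prod.map (id : X → X) (QuotientAddGroup.mk : A → A ⧸ Λ)) :=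
    IsOpenQuotientMap.id.prodMap QuotientAddGroup.isOpenQuotientMap_mk
  rw [← hq.continuous_comp_iff]
  refine hF.congr fun p => ?_
  exact (lft_mk (hper p.1) p.2).symm

variable [CompactSpace (A ⧸ Λ)]

theorem continuous_mean [FirstCountableTopology X] [LocallyCompactSpace X] {F : X → A → ℂ}
    (hF : Continuous fun p : X × A => F p.1 p.2) (hper : ∀ x, Per Λ (F x)) :
    Continuous fun x => mean Λ (F x) := by
  have h1 := continuous_lft_joint hF hper
  have h2 := continuous_parametric_integral_of_continuous (μ := qm Λ)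
    (f := fun x q => lft Λ (F x) q) h1 isCompact_univ
  rw [Measure.restrict_univ] at h2
  exact h2

theorem integral_mul_mean [R1Space X] [MeasurableSpace X] [OpensMeasurableSpace X] {μ : Measure X}
    [IsFiniteMeasureOnCompacts μ] {F : X → A → ℂ}
    (hF : Continuous fun p : X × A => F p.1 p.2) (hper : ∀ x, Per Λ (F x)) {k : X → ℂ}
    (hk : Continuous k) (hks : HasCompactSupport k) :
    ∫ x, k x * mean Λ (F x) ∂μ = mean Λ fun t => ∫ x, k x * F x t ∂μ := by
  have h1 := continuous_lft_joint hF hper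
  have h2 : Continuous (Function.uncurry fun (x : X) (q : A ⧸ Λ) => k x * lft Λ (F x) q) :=
    (hk.comp continuous_fst).mul h1
  have h3 : HasCompactSupport (Function.uncurry fun (x : X) (q : A ⧸ Λ) =>
      k x * lft Λ (F x) q) := by
    refine HasCompactSupport.intro (hks.isCompact.prod isCompact_univ) ?_
    rintro ⟨x, q⟩ hx
    have hx' : x ∉ tsupport k := fun h => hx ⟨h, mem_univ _⟩
    show k x * _ = 0
    rw [image_eq_zero_of_notMem_tsupport hx', zero_mul]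
  have h4 := integral_integral_swap_of_hasCompactSupport (μ := μ) (ν := qm Λ) h2 h3
  simp only [integral_const_mul] at h4
  exact h4

end Mean

section Eig

variable {A : Type*} [AddCommGroup A] [TopologicalSpace A] [IsTopologicalAddGroup A]
  {Λ : AddSubgroup A} [CompactSpace (A ⧸ Λ)]

theorem isEig_mean {F : H3 → A → ℂ} {lam : (ℝ → ℂ) → ℂ}
    (hF : Continuous fun p : H3 × A => F p.1 p.2) (hper : ∀ x, Per Λ (F x))
    (h : ∀ t, H3.IsEig (fun P => F P t) lam) : H3.IsEig (fun P => mean Λ (F P)) lam where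
  cont := continuous_mean hF hper
  eig k hk P := by
    have h1 := integral_mul_mean (μ := volume) hF hper (hk.continuous_cu P)
      (hk.hasCompactSupport P)
    show ∫ Q : H3, k (cu P Q) * mean Λ (F Q) = _
    rw [h1, ← mean_const_mul]
    exact mean_congr fun t => (h t).eig k hk P

theorem isEig_const_mul {f : H3 → ℂ} {lam : (ℝ → ℂ) → ℂ} (h : H3.IsEig f lam) (c : ℂ) :
    H3.IsEig (fun P => c * f P) lam where
  cont := continuous_const.mul h.cont
  eig k hk P := by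
    have h1 := h.eig k hk P
    show ∫ Q : H3, k (cu P Q) * (c * f Q) = _
    have h2 : (fun Q : H3 => k (cu P Q) * (c * f Q)) = fun Q => c * (k (cu P Q) * f Q) :=
      funext fun Q => by ring
    rw [h2, integral_const_mul]
    have h3 : ∫ Q : H3, k (cu P Q) * f Q = lam k * f P := h1
    rw [h3]
    ring

end Eig

theorem coe_nn_add {R : Type*} [CommRing R] (s : R) :
    ((nn s : GL (Fin 2) R) : Matrix (Fin 2) (Fin 2) R) = 1 + !![0, s; 0, 0] := by
  rw [coe_nn]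
  ext i j
  fin_cases i <;> fin_cases j <;> simp

theorem conj_nn_apply {R : Type*} [CommRing R] (g : GL (Fin 2) R) (s : R) (i j : Fin 2) :
    ((g⁻¹ * nn s * g : GL (Fin 2) R) : Matrix (Fin 2) (Fin 2) R) i j -
      (1 : Matrix (Fin 2) (Fin 2) R) i j =
      ((g⁻¹ : GL (Fin 2) R) : Matrix (Fin 2) (Fin 2) R) i 0 * s *
        (g : Matrix (Fin 2) (Fin 2) R) 1 j := by
  have h1 : ((g⁻¹ * nn s * g : GL (Fin 2) R) : Matrix (Fin 2) (Fin 2) R) =
      ((g⁻¹ : GL (Fin 2) R) : Matrix (Fin 2) (Fin 2) R) *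
        ((nn s : GL (Fin 2) R) : Matrix (Fin 2) (Fin 2) R) * (g : Matrix (Fin 2) (Fin 2) R) := rfl
  have h2 : ((g⁻¹ : GL (Fin 2) R) : Matrix (Fin 2) (Fin 2) R) * (g : Matrix (Fin 2) (Fin 2) R) =
      1 := by
    have : ((g⁻¹ * g : GL (Fin 2) R) : Matrix (Fin 2) (Fin 2) R) = 1 := by
      rw [inv_mul_cancel]; rfl
    exact this
  rw [h1, coe_nn_add, Matrix.mul_add, Matrix.mul_one, Matrix.add_mul, h2, Matrix.add_apply,
    add_sub_cancel_left]
  simp [Matrix.mul_apply, Fin.sum_univ_two]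

theorem nn_smul_z (s : ℂ) (P : H3) : ((nn s : GL (Fin 2) ℂ) • P).z = P.z + s := by
  rw [z_smul_of_upper (by simp [coe_nn])]
  simp [coe_nn]

theorem nn_smul_y (s : ℂ) (P : H3) : ((nn s : GL (Fin 2) ℂ) • P).y = P.y := by
  rw [y_smul_of_upper (by simp [coe_nn])]
  simp [coe_nn]

theorem ofPair_zero_z (P : H3) : (ofPair (0, P.y)).z = 0 := by
  rw [ofPair_of_pos (p := ((0 : ℂ), P.y)) P.y_pos]; rfl

theorem ofPair_zero_y (P : H3) : (ofPair (0, P.y)).y = P.y := by
  rw [ofPair_of_pos (p := ((0 : ℂ), P.y)) P.y_pos]; rfl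

theorem nn_smul_ofPair (P : H3) : (nn P.z : GL (Fin 2) ℂ) • ofPair (0, P.y) = P := by
  apply H3.ext
  · rw [nn_smul_z, ofPair_zero_z, zero_add]
  · rw [nn_smul_y, ofPair_zero_y]

section Main

variable {ι : Type*} [Fintype ι] [DecidableEq ι]

/-- unipotents act on `ι → ℍ³` coordinatewise -/
def UAct (ι : Type*) [MulAction (GL (Fin 2) (ι → ℂ)) (ι → H3)] : Prop :=
  ∀ (t : ι → ℂ) (x : ι → H3) (i : ι),
    ((nn t : GL (Fin 2) (ι → ℂ)) • x) i = (nn (t i) : GL (Fin 2) ℂ) • x i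

variable {O Rf : Type*} [CommRing O] [CommRing Rf] [TopologicalSpace Rf] [IsTopologicalRing Rf]
  [Algebra O (ι → ℂ)] [Algebra O Rf] [MulAction (GL (Fin 2) (ι → ℂ)) (ι → H3)]
  {θ : AddChar ((ι → ℂ) × Rf) Circle}

theorem UAct.continuous (hact : UAct ι) :
    Continuous fun p : (ι → ℂ) × (ι → H3) => (nn p.1 : GL (Fin 2) (ι → ℂ)) • p.2 := by
  refine continuous_pi fun i => ?_
  show Continuous fun p : (ι → ℂ) × (ι → H3) => ((nn p.1 : GL (Fin 2) (ι → ℂ)) • p.2) i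
  have h0 : (fun p : (ι → ℂ) × (ι → H3) => ((nn p.1 : GL (Fin 2) (ι → ℂ)) • p.2) i) =
      fun p => (nn (p.1 i) : GL (Fin 2) ℂ) • p.2 i := funext fun p => hact _ _ _
  rw [h0]
  have h1 : Continuous fun p : (ι → ℂ) × (ι → H3) => p.1 i :=
    (continuous_apply i).comp continuous_fst
  have h2 : Continuous fun p : (ι → ℂ) × (ι → H3) => p.2 i :=
    (continuous_apply i).comp continuous_snd
  rw [H3.continuous_iff]
  constructor
  · simp only [nn_smul_z]
    exact (continuous_z.comp h2).add h1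
  · simp only [nn_smul_y]
    exact continuous_y.comp h2

/-- joint continuity -/
theorem continuous_joint (hact : UAct ι) {ψ : Sp (ι → H3) Rf → ℂ} (hs : Smooth ψ)
    (hz : ∀ g, Continuous fun z => ψ ⟨z, g⟩) (g : GL (Fin 2) Rf) :
    Continuous fun p : ((ι → ℂ) × Rf) × (ι → H3) =>
      ψ ((nn p.1 : GL (Fin 2) ((ι → ℂ) × Rf)) • (⟨p.2, g⟩ : Sp (ι → H3) Rf)) := by
  obtain ⟨N, hN, hNψ⟩ := hs
  rw [continuous_iff_continuousAt]
  rintro ⟨⟨t₁, t₂⟩, z⟩
  have h1 : Continuous fun p : ((ι → ℂ) × Rf) × (ι → H3) =>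
      ψ ⟨(nn p.1.1 : GL (Fin 2) (ι → ℂ)) • p.2, nn t₂ * g⟩ :=
    (hz (nn t₂ * g)).comp (hact.continuous.comp
      ((continuous_fst.comp continuous_fst).prodMk continuous_snd))
  refine h1.continuousAt.congr ?_
  have h2 : ∀ᶠ s : Rf in 𝓝 t₂, ∀ i j,
      ((g⁻¹ : GL (Fin 2) Rf) : Matrix (Fin 2) (Fin 2) Rf) i 0 * (s - t₂) *
        (g : Matrix (Fin 2) (Fin 2) Rf) 1 j ∈ N := by
    rw [Filter.eventually_all]
    intro i
    rw [Filter.eventually_all]
    intro j
    have hc : Continuous fun s : Rf => ((g⁻¹ : GL (Fin 2) Rf) : Matrix (Fin 2) (Fin 2) Rf) i 0 *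
        (s - t₂) * (g : Matrix (Fin 2) (Fin 2) Rf) 1 j := by fun_prop
    have h3 := hc.tendsto t₂
    rw [sub_self, mul_zero, zero_mul] at h3
    exact h3 hN
  have h4 : Tendsto (fun p : ((ι → ℂ) × Rf) × (ι → H3) => p.1.2) (𝓝 ((t₁, t₂), z)) (𝓝 t₂) :=
    (continuous_snd.comp continuous_fst).tendsto ((t₁, t₂), z)
  filter_upwards [h4.eventually h2] with p hp
  rw [nn_smul_mk]
  have e1 : (nn p.1.2 * g : GL (Fin 2) Rf) = nn t₂ * g * (g⁻¹ * nn (p.1.2 - t₂) * g) := by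
    have : nn t₂ * g * (g⁻¹ * nn (p.1.2 - t₂) * g) = nn t₂ * nn (p.1.2 - t₂) * g := by group
    rw [this, nn_mul_nn, add_sub_cancel]
  rw [e1]
  refine (hNψ _ _ _ fun i j => ?_).symm
  rw [conj_nn_apply]
  exact hp i j

variable [CompactSpace (((ι → ℂ) × Rf) ⧸ lat O ((ι → ℂ) × Rf))]

theorem nn_smul_update (hact : UAct ι) (t : ι → ℂ) (z : ι → H3) (i : ι) (P : H3) :
    (nn t : GL (Fin 2) (ι → ℂ)) • update z i P =
      update ((nn t : GL (Fin 2) (ι → ℂ)) • z) i ((nn (t i) : GL (Fin 2) ℂ) • P) := by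
  funext j
  rw [hact]
  by_cases h : j = i
  · subst h
    rw [update_self, update_self]
  · rw [update_of_ne h, update_of_ne h, hact]

/-- the coefficients are eigenfunctions of the radial kernels -/
theorem isEig_wh (hact : UAct ι) (hθ : SelfDual O θ) {ψ : Sp (ι → H3) Rf → ℂ}
    (haut : IsAut (A := (ι → ℂ) × Rf) O ψ) (hs : Smooth ψ)
    (hz : ∀ g, Continuous fun z => ψ ⟨z, g⟩) {lam : (ℝ → ℂ) → ℂ} {i : ι}
    (heig : ∀ g z, H3.IsEig (fun P => ψ ⟨update z i P, g⟩) lam) (a : O) (z : ι → H3)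
    (g : GL (Fin 2) Rf) :
    H3.IsEig (fun P => wh O θ ψ a (⟨update z i P, g⟩ : Sp (ι → H3) Rf)) lam := by
  unfold wh coef
  refine isEig_mean (F := fun P t => ch θ (-(algebraMap O ((ι → ℂ) × Rf) a)) t *
    ψ ((nn t : GL (Fin 2) ((ι → ℂ) × Rf)) • (⟨update z i P, g⟩ : Sp (ι → H3) Rf))) ?_ ?_ ?_
  · have h1 := continuous_joint hact hs hz g
    have h2 : Continuous fun p : H3 × ((ι → ℂ) × Rf) => (p.2, update z i p.1) :=
      continuous_snd.prodMk (continuous_const.update i continuous_fst)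
    have h3 : Continuous fun p : H3 × ((ι → ℂ) × Rf) =>
        ch θ (-(algebraMap O ((ι → ℂ) × Rf) a)) p.2 :=
      Continuous.comp (g := ch θ (-(algebraMap O ((ι → ℂ) × Rf) a))) (continuous_ch hθ _)
        continuous_snd
    have h4 : Continuous fun p : H3 × ((ι → ℂ) × Rf) =>
        ψ ((nn p.2 : GL (Fin 2) ((ι → ℂ) × Rf)) • (⟨update z i p.1, g⟩ : Sp (ι → H3) Rf)) :=
      Continuous.comp (f := fun p : H3 × ((ι → ℂ) × Rf) => (p.2, update z i p.1)) h1 h2
    exact h3.mul h4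
  · intro P
    exact (per_ch_neg hθ a).mul (haut.per (⟨update z i P, g⟩ : Sp (ι → H3) Rf))
  · intro t
    refine isEig_const_mul ?_ _
    have h3 := (heig (nn t.2 * g) ((nn t.1 : GL (Fin 2) (ι → ℂ)) • z)).comp_smul (nn (t.1 i))
    have h4 : (fun P : H3 => ψ ((nn t : GL (Fin 2) ((ι → ℂ) × Rf)) •
        (⟨update z i P, g⟩ : Sp (ι → H3) Rf))) = fun P =>
        ψ ⟨update ((nn t.1 : GL (Fin 2) (ι → ℂ)) • z) i ((nn (t.1 i) : GL (Fin 2) ℂ) • P),
          nn t.2 * g⟩ := by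
      funext P
      rw [nn_smul_mk, nn_smul_update hact]
    rw [h4]
    exact h3

theorem wh_equivariant (hact : UAct ι) (hθ : SelfDual O θ) {ψ : Sp (ι → H3) Rf → ℂ}
    (haut : IsAut (A := (ι → ℂ) × Rf) O ψ) {a : O} {c : ι → ℂ}
    (hc : ∀ t : ι → ℂ, ch θ (algebraMap O ((ι → ℂ) × Rf) a) (t, 0) = ∏ i, e2 (c i) (t i))
    (z : ι → H3) (g : GL (Fin 2) Rf) (i : ι) (P : H3) :
    wh O θ ψ a (⟨update z i P, g⟩ : Sp (ι → H3) Rf) =
      e2 (c i) P.z * wh O θ ψ a (⟨update z i (ofPair (0, P.y)), g⟩ : Sp (ι → H3) Rf) := by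
  have h1 := wh_nn hθ haut a ((Pi.single i P.z, 0) : (ι → ℂ) × Rf)
    (⟨update z i (ofPair (0, P.y)), g⟩ : Sp (ι → H3) Rf)
  rw [hc, nn_smul_mk, nn_smul_update hact, nn_zero, one_mul] at h1
  dsimp only at h1
  rw [Pi.single_eq_same, nn_smul_ofPair] at h1
  have h2 : (nn (Pi.single i P.z) : GL (Fin 2) (ι → ℂ)) • z = update z i
      ((nn P.z : GL (Fin 2) ℂ) • z i) := by
    funext j
    rw [hact]
    by_cases h : j = i
    · subst h
      rw [update_self, Pi.single_eq_same]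
    · rw [update_of_ne h, Pi.single_eq_of_ne h, nn_zero, one_smul]
  have h3 : ∏ j, e2 (c j) ((Pi.single i P.z : ι → ℂ) j) = e2 (c i) P.z := by
    rw [Finset.prod_eq_single i]
    · rw [Pi.single_eq_same]
    · intro j _ hj
      rw [Pi.single_eq_of_ne hj, e2_zero]
    · intro h
      exact absurd (Finset.mem_univ i) h
  rw [h2, h3, update_idem] at h1
  exact h1

/-- **The infinite part of the Whittaker coefficients.** -/
theorem exists_wh_eq (hact : UAct ι) (hθ : SelfDual O θ) {ψ : Sp (ι → H3) Rf → ℂ}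
    (haut : IsAut (A := (ι → ℂ) × Rf) O ψ) (hs : Smooth ψ)
    (hz : ∀ g, Continuous fun z => ψ ⟨z, g⟩) {M : ℝ} (hM : ∀ x, ‖ψ x‖ ≤ M) {ν : ι → ℂ}
    (heig : ∀ i g z, H3.IsEig (fun P => ψ ⟨update z i P, g⟩) (sph (ν i))) {a : O} {c : ι → ℂ}
    (hc0 : ∀ i, c i ≠ 0)
    (hc : ∀ t : ι → ℂ, ch θ (algebraMap O ((ι → ℂ) × Rf) a) (t, 0) = ∏ i, e2 (c i) (t i))
    (g : GL (Fin 2) Rf) :
    ∃ C : ℂ, ∀ z, wh O θ ψ a (⟨z, g⟩ : Sp (ι → H3) Rf) = C * ∏ i, whit (ν i) (c i) (z i) := by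
  refine eq_prod_whit (W := fun z => wh O θ ψ a (⟨z, g⟩ : Sp (ι → H3) Rf)) hc0 fun z i => ?_
  refine eq_whit_one (hc0 i) (isEig_wh hact hθ haut hs hz (heig i) a z g) (fun P => ?_)
    (M := M) (fun P => ?_)
  · exact wh_equivariant hact hθ haut hc z g i P
  · exact norm_coef_le a fun t => hM _

end Main

section Uniform

theorem isEig_zero (lam : (ℝ → ℂ) → ℂ) : H3.IsEig (fun _ => 0) lam where
  cont := continuous_const
  eig k _ P := by
    show ∫ Q : H3, k (cu P Q) * 0 = _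
    simp

/-- the parameters depend on the eigenvalues only -/
theorem exists_nu_all {ι : Type*} (lam : ι → (ℝ → ℂ) → ℂ) :
    ∃ ν : ι → ℂ, ∀ (i : ι) (f : H3 → ℂ), H3.IsEig f (lam i) → H3.IsEig f (sph (ν i)) := by
  have h : ∀ i, ∃ ν : ℂ, ∀ f : H3 → ℂ, H3.IsEig f (lam i) → H3.IsEig f (sph ν) := by
    intro i
    by_cases hex : ∃ f : H3 → ℂ, H3.IsEig f (lam i) ∧ ∃ P, f P ≠ 0
    · obtain ⟨f, hf, hne⟩ := hex
      obtain ⟨ν, hν⟩ := hf.exists_nu hne
      exact ⟨ν, fun f' hf' => ⟨hf'.cont, fun k hk P => by rw [← hν k hk]; exact hf'.eig k hk P⟩⟩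
    · push Not at hex
      refine ⟨0, fun f hf => ?_⟩
      have : f = fun _ => 0 := funext fun P => hex f hf P
      rw [this]
      exact isEig_zero _
  choose ν hν using h
  exact ⟨ν, hν⟩

variable {ι : Type*} [Fintype ι]

theorem continuous_prod_whit (ν : ι → ℂ) {c : ι → ℂ} (hc : ∀ i, c i ≠ 0) :
    Continuous fun z : ι → H3 => ∏ i, whit (ν i) (c i) (z i) := by
  refine continuous_finsetProd _ fun i _ => ?_
  exact (continuous_whit (ν := ν i) (hc i)).comp (continuous_apply i)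

theorem exists_prod_whit_ne_zero {ν c : ι → ℂ} (hc : ∀ i, c i ≠ 0) :
    ∃ Y : ℝ, 0 < Y ∧ ∀ z : ι → H3, (∀ i, Y ≤ (z i).y) → ∏ i, whit (ν i) (c i) (z i) ≠ 0 := by
  choose Y hY hYne using fun i => exists_whit_ne_zero (ν i) (hc i)
  refine ⟨1 + ∑ i, Y i, by
    have := Finset.sum_nonneg fun i (_ : i ∈ Finset.univ) => (hY i).le
    linarith, fun z hz => ?_⟩
  refine Finset.prod_ne_zero_iff.mpr fun i _ => hYne i _ ?_
  have h1 := Finset.single_le_sum (fun i (_ : i ∈ Finset.univ) => (hY i).le) (Finset.mem_univ i)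
  have h2 := hz i
  linarith

end Uniform

end Fermat.Agent.LT.Kap
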