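import Fermat.Agent.LT.Kappa.Mult
import Mathlib.GroupTheory.Coset.Basic
import Mathlib.GroupTheory.GroupAction.Quotient

/-!
# Projection onto the `(V, χ)`-part
-/

namespace Fermat.Agent.LT.Kap

open MeasureTheory Topology

section Avg

variable {G : Type*} [Group G] {V V' : Subgroup G} {χ F : G → ℂ}

/-- the twisted average over `V / V'` -/
noncomputable def avg (V V' : Subgroup G) [Fintype (V ⧸ V'.subgroupOf V)] (χ F : G → ℂ) (g : G) :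
    ℂ := ∑ q : V ⧸ V'.subgroupOf V, (χ (q.out : V))⁻¹ * F (g * (q.out : V))

theorem avg_mul [Fintype (V ⧸ V'.subgroupOf V)] (hχ : ∀ v ∈ V, ∀ w ∈ V, χ (v * w) = χ v * χ w)
    (hχ0 : ∀ v ∈ V, χ v ≠ 0) (hχ1 : ∀ v ∈ V', χ v = 1)
    (hF : ∀ g, ∀ v ∈ V', F (g * v) = F g) (g : G) {v₀ : G} (hv₀ : v₀ ∈ V) :
    avg V V' χ F (g * v₀) = χ v₀ * avg V V' χ F g := by
  unfold avg
  rw [Finset.mul_sum, ← Equiv.sum_comp (MulAction.toPerm (⟨v₀, hv₀⟩ : V) : Equiv.Perm _)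
    (fun q : V ⧸ V'.subgroupOf V => χ v₀ * ((χ (q.out : V))⁻¹ * F (g * (q.out : V))))]
  refine Finset.sum_congr rfl fun q _ => ?_
  -- `(v₀ q).out = v₀ q.out v'`
  have h1 : ∃ v' : V, v' ∈ V'.subgroupOf V ∧
      ((MulAction.toPerm (⟨v₀, hv₀⟩ : V)) q).out = (⟨v₀, hv₀⟩ : V) * q.out * v' := by
    refine ⟨((⟨v₀, hv₀⟩ : V) * q.out)⁻¹ * ((MulAction.toPerm (⟨v₀, hv₀⟩ : V)) q).out, ?_, ?_⟩
    · rw [← QuotientGroup.eq]
      rw [MulAction.toPerm_apply]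
      conv_rhs => rw [QuotientGroup.out_eq']
      rw [← smul_eq_mul, MulAction.Quotient.coe_smul_out]
    · group
  obtain ⟨v', hv', h2⟩ := h1
  rw [Subgroup.mem_subgroupOf] at hv'
  rw [h2]
  have e1 : ((((⟨v₀, hv₀⟩ : V) * q.out * v' : V)) : G) = v₀ * (q.out : V) * (v' : G) := rfl
  rw [e1, hχ _ (V.mul_mem hv₀ (q.out).2) _ v'.2, hχ _ hv₀ _ (q.out).2, hχ1 _ hv', mul_one,
    ← mul_assoc g, hF _ _ hv', ← mul_assoc g, mul_inv, ← mul_assoc, ← mul_assoc,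
    mul_inv_cancel₀ (hχ0 _ hv₀), one_mul]

end Avg

variable {O Ri Rf Xi : Type*} [CommRing O] [CommRing Ri] [TopologicalSpace Ri]
  [IsTopologicalRing Ri] [CommRing Rf] [TopologicalSpace Rf] [IsTopologicalRing Rf]
  [Algebra O Ri] [Algebra O Rf]
  [MulAction (GL (Fin 2) Ri) Xi] {θ : AddChar (Ri × Rf) Circle} {lam : O → ℂ}

/-- the span of the right translates of `Φ`. -/
def rspan (Φ : Sp Xi Rf → ℂ) : Submodule ℂ (Sp Xi Rf → ℂ) :=
  Submodule.span ℂ (Set.range fun k => rt k Φ)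

theorem rt_mem_rspan (Φ : Sp Xi Rf → ℂ) (k : GL (Fin 2) Rf) : rt k Φ ∈ rspan Φ :=
  Submodule.subset_span ⟨k, rfl⟩

theorem rt_rt (Φ : Sp Xi Rf → ℂ) (k l : GL (Fin 2) Rf) : rt k (rt l Φ) = rt (k * l) Φ := by
  ext p
  show Φ ⟨_, _ * _ * _⟩ = Φ ⟨_, _ * (_ * _)⟩
  rw [mul_assoc]

theorem rspan_rt_le (Φ : Sp Xi Rf → ℂ) (l : GL (Fin 2) Rf) : rspan (rt l Φ) ≤ rspan Φ := by
  unfold rspan
  rw [Submodule.span_le]
  rintro - ⟨k, rfl⟩
  show rt k (rt l Φ) ∈ _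
  rw [rt_rt]
  exact rt_mem_rspan Φ _

variable [CompactSpace ((Ri × Rf) ⧸ lat O (Ri × Rf))]

theorem InW.of_mem_rspan (hθ : SelfDual O θ) {wi : Xi → ℂ} {Φ ψ : Sp Xi Rf → ℂ}
    (h : InW O θ lam wi Φ) (hψ : ψ ∈ rspan Φ) : InW O θ lam wi ψ := by
  refine Submodule.span_induction ?_ ?_ ?_ ?_ hψ
  · rintro - ⟨k, rfl⟩; exact h.rt k
  · have := h.add hθ h 0 0
    refine (funext fun x => ?_ : (fun x => (0 : ℂ) * Φ x + 0 * Φ x) = 0) ▸ this
    simp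
  · intro x y _ _ hx hy
    have := hx.add hθ hy 1 1
    refine (funext fun p => ?_ : (fun p => (1 : ℂ) * x p + 1 * y p) = x + y) ▸ this
    simp
  · intro c x _ hx
    have := hx.add hθ hx c 0
    refine (funext fun p => ?_ : (fun p => c * x p + 0 * x p) = c • x) ▸ this
    simp

theorem wh_sum (hθ : SelfDual O θ) {ι : Type*} (s : Finset ι) (c : ι → ℂ) {ψ : ι → Sp Xi Rf → ℂ}
    (h : ∀ i ∈ s, IsAut (A := Ri × Rf) O (ψ i)) (a : O) (x : Sp Xi Rf) :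
    wh O θ (fun x => ∑ i ∈ s, c i * ψ i x) a x = ∑ i ∈ s, c i * wh O θ (ψ i) a x := by
  unfold wh
  have h1 := coef_sum (O := O) hθ a s (f := fun i t => c i * ψ i (nn t • x))
    (fun i hi => ((h i hi).per x).const_mul (c i))
    (fun i hi => continuous_const.mul ((h i hi).cont x))
  rw [h1]
  exact Finset.sum_congr rfl fun i _ => coef_const_mul a (c i) _

/-- right invariance of `Φ` under the lower triangular part of `V`. -/
structure LowInv (D : TyDat Rf) (Φ : Sp Xi Rf → ℂ) : Prop where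
  T : ∀ (u : Rfˣ), (u : Rf) - 1 ∈ D.α → ∀ z g, Φ ⟨z, g * dg u 1⟩ = Φ ⟨z, g⟩
  N : ∀ c ∈ D.γ, ∀ z g, Φ ⟨z, g * TyDat.nl c⟩ = Φ ⟨z, g⟩

/-- **Projection**: the `(V, χ)`-average of `Φ`. -/
theorem exists_eqV (hθ : SelfDual O θ) {D : TyDat Rf} {a₀ : Rfˣ} (hD : D.Compat θ a₀)
    (hβ : IsCompact (D.β : Set Rf)) (hκ : (D.κ : Set Rf) ∈ 𝓝 (0 : Rf)) {wi : Xi → ℂ}
    {Φ : Sp Xi Rf → ℂ} (h : InW O θ lam wi Φ) (hl : LowInv D Φ) :
    ∃ ψ ∈ rspan Φ, EqV D ψ ∧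
      ∀ z, wh O θ ψ 1 (⟨z, dg a₀ 1⟩ : Sp Xi Rf) = wh O θ Φ 1 (⟨z, dg a₀ 1⟩ : Sp Xi Rf) := by
  classical
  -- the subgroup `V'`
  let V' : Subgroup (GL (Fin 2) Rf) :=
    { carrier := {v | v ∈ D.V ∧ D.chi v = 1 ∧ ∀ z g, Φ ⟨z, g * v⟩ = Φ ⟨z, g⟩}
      mul_mem' := by
        rintro v w ⟨h1, h2, h3⟩ ⟨h1', h2', h3'⟩
        refine ⟨D.V.mul_mem h1 h1', ?_, fun z g => ?_⟩
        · rw [D.chi_mul h1 h1', h2, h2', one_mul]
        · rw [← mul_assoc, h3', h3]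
      one_mem' := by
        refine ⟨D.V.one_mem, ?_, fun z g => by rw [mul_one]⟩
        have := D.chi_mul D.V.one_mem D.V.one_mem
        rw [mul_one] at this
        exact (mul_left_cancel (a := D.chi 1) (by rw [mul_one]; exact this)).symm
      inv_mem' := by
        rintro v ⟨h1, h2, h3⟩
        refine ⟨D.V.inv_mem h1, ?_, fun z g => ?_⟩
        · have := D.chi_mul h1 (D.V.inv_mem h1)
          rw [mul_inv_cancel, h2, one_mul] at this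
          rw [← this]
          have h5 := D.chi_mul D.V.one_mem D.V.one_mem
          rw [mul_one] at h5
          exact (mul_left_cancel (a := D.chi 1) (by rw [mul_one]; exact h5)).symm
        · rw [← h3 z (g * v⁻¹), inv_mul_cancel_right] }
  have hV'le : V' ≤ D.V := fun v hv => hv.1
  -- lower triangular elements are in `V'`
  have hlow : ∀ {l : GL (Fin 2) Rf} {y : Rfˣ} {a c : Rf}, D.Mem l y a 0 c → l ∈ V' := by
    intro l y a c hm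
    refine ⟨⟨_, _, _, _, hm⟩, ?_, fun z g => ?_⟩
    · rw [hm.chi, AddChar.map_zero_eq_one]
    · obtain ⟨u, hu, rfl⟩ := hm.eq_mul
      rw [← mul_assoc, ← mul_assoc, right_scal h.aut, hl.N c hm.2.2.1,
        hl.T u (by rw [hu, add_sub_cancel_left]; exact hm.1)]
  -- finiteness of the index
  obtain ⟨N, hN, hNΦ⟩ := h.smooth
  have hN' : N ∩ D.κ ∈ 𝓝 (0 : Rf) := Filter.inter_mem hN hκ
  have hcov : ∃ s : Finset Rf, (∀ b ∈ s, b ∈ D.β) ∧ ∀ b ∈ D.β, ∃ b' ∈ s, b - b' ∈ N ∩ D.κ := by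
    obtain ⟨s, hs, hs2⟩ := hβ.elim_nhds_subcover (fun b' => {b | b - b' ∈ N ∩ D.κ}) (by
      intro b' _
      have hc : Continuous fun b : Rf => b - b' := continuous_id.sub continuous_const
      have := hc.tendsto b'
      rw [sub_self] at this
      exact this hN')
    refine ⟨s, hs, fun b hb => ?_⟩
    obtain ⟨b', hb', h1⟩ := Set.mem_iUnion₂.mp (hs2 hb)
    exact ⟨b', hb', h1⟩
  obtain ⟨s, hs, hs2⟩ := hcov
  have hnn : ∀ b ∈ N ∩ (D.κ : Set Rf), nn b ∈ V' := by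
    rintro b ⟨hb1, hb2⟩
    refine ⟨D.nn_mem_V (D.κβ hb2), ?_, fun z g => ?_⟩
    · rw [D.chi_nn (D.κβ hb2), D.θκ b hb2]
    · refine hNΦ z g _ fun i j => ?_
      have h0 : (0 : Rf) ∈ N := mem_of_mem_nhds hN
      rw [coe_nn]
      fin_cases i <;> fin_cases j
      · simpa using h0
      · simpa using hb1
      · simpa using h0
      · simpa using h0
  have hsurj : ∀ q : D.V ⧸ V'.subgroupOf D.V, ∃ b : s, ∃ hb : nn (b : Rf) ∈ D.V,
      ((⟨nn (b : Rf), hb⟩ : D.V) : D.V ⧸ V'.subgroupOf D.V) = q := by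
    intro q
    obtain ⟨⟨v, hv⟩, rfl⟩ := QuotientGroup.mk_surjective q
    obtain ⟨y, a, b, c, hm⟩ := hv
    obtain ⟨b', hb', hbb⟩ := hs2 b hm.2.1
    refine ⟨⟨b', hb'⟩, D.nn_mem_V (hs b' hb'), ?_⟩
    rw [QuotientGroup.eq, Subgroup.mem_subgroupOf]
    show (nn b')⁻¹ * v ∈ V'
    have e1 : (nn b')⁻¹ * v = nn (b - b') * (nn (-b) * v) := by
      rw [inv_mul_eq_iff_eq_mul, ← mul_assoc, ← mul_assoc, nn_mul_nn, nn_mul_nn,
        show b' + (b - b') + -b = 0 by ring, nn_zero, one_mul]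
    rw [e1]
    exact V'.mul_mem (hnn _ hbb) (hlow hm.nn_inv_mul)
  haveI : Finite (D.V ⧸ V'.subgroupOf D.V) := by
    let f : s → D.V ⧸ V'.subgroupOf D.V := fun b => ((⟨nn (b : Rf), D.nn_mem_V (hs b b.2)⟩ : D.V) :
      D.V ⧸ V'.subgroupOf D.V)
    refine Finite.of_surjective f fun q => ?_
    obtain ⟨b, hb, h1⟩ := hsurj q
    exact ⟨b, h1⟩
  haveI : Fintype (D.V ⧸ V'.subgroupOf D.V) := Fintype.ofFinite _
  set n : ℂ := (Fintype.card (D.V ⧸ V'.subgroupOf D.V) : ℂ) with hn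
  have hn0 : n ≠ 0 := by
    rw [hn]
    exact_mod_cast Fintype.card_ne_zero
  let cf : D.V ⧸ V'.subgroupOf D.V → ℂ := fun q => n⁻¹ * ((D.chi (q.out : D.V) : Circle) : ℂ)⁻¹
  let ψ : Sp Xi Rf → ℂ := fun p => ∑ q : D.V ⧸ V'.subgroupOf D.V,
    cf q * rt ((q.out : D.V) : GL (Fin 2) Rf) Φ p
  have hψ : ∀ z g, ψ ⟨z, g⟩ = n⁻¹ * avg D.V V' (fun v => ((D.chi v : Circle) : ℂ))
      (fun g => Φ ⟨z, g⟩) g := by
    intro z g
    unfold avg
    rw [Finset.mul_sum]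
    refine Finset.sum_congr rfl fun q _ => ?_
    show n⁻¹ * _ * Φ ⟨z, g * _⟩ = _
    rw [mul_assoc]
  refine ⟨ψ, ?_, ?_, ?_⟩
  · have : ψ = ∑ q : D.V ⧸ V'.subgroupOf D.V, cf q • rt ((q.out : D.V) : GL (Fin 2) Rf) Φ := by
      ext p
      rw [Finset.sum_apply]
      rfl
    rw [this]
    exact Submodule.sum_mem _ fun q _ => Submodule.smul_mem _ _ (rt_mem_rspan Φ _)
  · intro z g v hv
    rw [hψ, hψ, avg_mul (χ := fun v => ((D.chi v : Circle) : ℂ)) (F := fun g => Φ ⟨z, g⟩)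
      ?_ ?_ ?_ ?_ g hv]
    · ring
    · intro v hv w hw
      show ((D.chi (v * w) : Circle) : ℂ) = _
      rw [D.chi_mul hv hw]; rfl
    · intro v _; exact Circle.coe_ne_zero _
    · intro v hv
      show ((D.chi v : Circle) : ℂ) = 1
      rw [hv.2.1]; rfl
    · intro g v hv; exact hv.2.2 z g
  · intro z
    rw [wh_sum hθ _ _ (fun q _ => (h.rt _).aut)]
    have hterm : ∀ q : D.V ⧸ V'.subgroupOf D.V,
        cf q * wh O θ (rt ((q.out : D.V) : GL (Fin 2) Rf) Φ) 1 (⟨z, dg a₀ 1⟩ : Sp Xi Rf) =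
          n⁻¹ * wh O θ Φ 1 (⟨z, dg a₀ 1⟩ : Sp Xi Rf) := by
      intro q
      rw [wh_rt]
      obtain ⟨y, a, b, c, hm⟩ := (q.out : D.V).2
      show n⁻¹ * ((D.chi (q.out : D.V) : Circle) : ℂ)⁻¹ *
        wh O θ Φ 1 (⟨z, dg a₀ 1 * (q.out : D.V)⟩ : Sp Xi Rf) = _
      have e1 : dg a₀ 1 * ((q.out : D.V) : GL (Fin 2) Rf) =
          dg a₀ 1 * nn b * (nn (-b) * ((q.out : D.V) : GL (Fin 2) Rf)) := by
        rw [← mul_assoc (dg a₀ 1 * nn b), mul_assoc (dg a₀ 1), nn_mul_nn, add_neg_cancel, nn_zero,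
          mul_one]
      have hlowq := hlow hm.nn_inv_mul
      have e2 : wh O θ Φ 1 (⟨z, dg a₀ 1 * (q.out : D.V)⟩ : Sp Xi Rf) =
          wh O θ Φ 1 (⟨z, dg a₀ 1 * nn b⟩ : Sp Xi Rf) := by
        rw [e1]
        unfold wh
        congr 1
        ext t
        rw [smul_mk, smul_mk, ← mul_assoc _ (dg a₀ 1 * nn b), hlowq.2.2]
      rw [e2, wh_nn_right hθ h.aut, hm.chi, hD.θ₀ b hm.2.1]
      have h0 : ((θ (0, (a₀ : Rf) * b) : Circle) : ℂ) ≠ 0 := Circle.coe_ne_zero _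
      field_simp
    rw [Finset.sum_congr rfl fun q _ => hterm q, Finset.sum_const, Finset.card_univ, nsmul_eq_mul,
      ← hn, mul_inv_cancel_left₀ hn0]

end Fermat.Agent.LT.Kap
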