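import Fermat.Agent.LT.Kappa.Lev
import Fermat.Agent.LT.Kappa.Fam
import Fermat.Agent.LT.Adapt.Fin

/-!
# `s_V` on `D U` and `(V, χ)`-equivariance on `X × GL₂(∏_{v ∈ S} F_v)` (helper70)

`D : TyDat (Rf S)` stable under the idempotents of `Rf S = ∏_{v ∈ S} F_v`.

* `D.loc hD v : TyDat F_v`, `mem_V_iff`, `chi_eq_prod`;
* `LevOK U (D.loc hD)` for small levels: `levOK_of_small`;
* `eqV_toKap_iff`: `s_V f(x, ·) = f(x, ·)` for all `x` iff `EqV D (toKap S U f)`;
* `FBase.isProd_dat`: helper31's family.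
-/

set_option autoImplicit false

open Matrix NumberField IsDedekindDomain WithZero HeightOneSpectrum
open scoped WithZero Topology

noncomputable section

namespace Fermat.Agent.LT.Kap

open Fermat.Agent.LT.Lvl HK
open Fermat.Agent.LT.Loc (Rf)

variable {F : Type*} [Field F] [NumberField F] {S : Finset (HeightOneSpectrum (𝓞 F))}

/-! ### The embedding of one factor -/

open Classical in
/-- the embedding of `F_v` in `∏_{v ∈ S} F_v`. -/
def inj (v : S) : v.1.adicCompletion F →+ Rf S :=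
  AddMonoidHom.single (fun v : S => v.1.adicCompletion F) v

@[simp] theorem inj_same (v : S) (x : v.1.adicCompletion F) : inj v x v = x := by
  classical
  exact @Pi.single_eq_same S (fun v : S => v.1.adicCompletion F) _ _ v x

theorem inj_of_ne {v w : S} (h : w ≠ v) (x : v.1.adicCompletion F) : inj v x w = 0 := by
  classical
  exact @Pi.single_eq_of_ne S (fun v : S => v.1.adicCompletion F) _ _ v w h x

theorem mul_inj (v : S) (y : Rf S) (x : v.1.adicCompletion F) : y * inj v x = inj v (y v * x) := by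
  funext w
  by_cases h : w = v
  · subst h
    rw [Pi.mul_apply, inj_same, inj_same]
  · rw [Pi.mul_apply, inj_of_ne h, inj_of_ne h, mul_zero]

theorem inj_mul (v : S) (x y : v.1.adicCompletion F) : inj v (x * y) = inj v x * inj v y := by
  rw [mul_inj, inj_same]

theorem sum_inj (x : Rf S) : ∑ v, inj v (x v) = x := by
  classical
  exact Finset.univ_sum_single x

theorem continuous_inj (v : S) : Continuous (inj v) := by
  refine continuous_pi fun w => ?_
  by_cases h : w = v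
  · subst h
    simp only [inj_same]
    exact continuous_id
  · simp only [inj_of_ne h]
    exact continuous_const

theorem addChar_sum {A M ι : Type*} [AddCommMonoid A] [CommMonoid M] (ψ : AddChar A M)
    (s : Finset ι) (f : ι → A) : ψ (∑ i ∈ s, f i) = ∏ i ∈ s, ψ (f i) := by
  classical
  induction s using Finset.induction_on with
  | empty => rw [Finset.sum_empty, Finset.prod_empty, AddChar.map_zero_eq_one]
  | insert a s ha ih => rw [Finset.sum_insert ha, Finset.prod_insert ha, AddChar.map_add_eq_mul, ih]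

/-! ### The local data -/

/-- `D` is stable under the idempotents of `∏ F_v`. -/
structure TyDat.IsProd (D : TyDat (Rf S)) : Prop where
  α : ∀ (v : S) (x : Rf S), x ∈ D.α → inj v (x v) ∈ D.α
  β : ∀ (v : S) (x : Rf S), x ∈ D.β → inj v (x v) ∈ D.β
  γ : ∀ (v : S) (x : Rf S), x ∈ D.γ → inj v (x v) ∈ D.γ
  κ : ∀ (v : S) (x : Rf S), x ∈ D.κ → inj v (x v) ∈ D.κ

variable {D : TyDat (Rf S)}

/-- **the component at `v`.** -/
def TyDat.loc (hD : D.IsProd) (v : S) : TyDat (v.1.adicCompletion F) where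
  α := D.α.comap (inj v)
  β := D.β.comap (inj v)
  γ := D.γ.comap (inj v)
  κ := D.κ.comap (inj v)
  unit x hx := by
    obtain ⟨y, hy, h⟩ := D.unit _ hx
    refine ⟨y v, hD.α v y hy, ?_⟩
    have h1 := congrFun h v
    rwa [Pi.mul_apply, Pi.add_apply, Pi.add_apply, inj_same] at h1
  αα x hx y hy := by
    rw [AddSubgroup.mem_comap] at *
    rw [inj_mul]
    exact D.αα _ hx _ hy
  αβ x hx y hy := by
    rw [AddSubgroup.mem_comap] at *
    rw [inj_mul]
    exact D.αβ _ hx _ hy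
  αγ x hx y hy := by
    rw [AddSubgroup.mem_comap] at *
    rw [inj_mul]
    exact D.αγ _ hx _ hy
  βγ x hx y hy := by
    rw [AddSubgroup.mem_comap] at *
    rw [inj_mul]
    exact D.βγ _ hx _ hy
  κβ x hx := D.κβ hx
  θ₀ := D.θ₀.compAddMonoidHom (inj v)
  θκ x hx := D.θκ _ hx

theorem mem_loc_α {hD : D.IsProd} {v : S} {x : v.1.adicCompletion F} :
    x ∈ (D.loc hD v).α ↔ inj v x ∈ D.α := Iff.rfl

theorem mem_loc_β {hD : D.IsProd} {v : S} {x : v.1.adicCompletion F} :
    x ∈ (D.loc hD v).β ↔ inj v x ∈ D.β := Iff.rfl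

theorem mem_loc_γ {hD : D.IsProd} {v : S} {x : v.1.adicCompletion F} :
    x ∈ (D.loc hD v).γ ↔ inj v x ∈ D.γ := Iff.rfl

theorem mem_loc_κ {hD : D.IsProd} {v : S} {x : v.1.adicCompletion F} :
    x ∈ (D.loc hD v).κ ↔ inj v x ∈ D.κ := Iff.rfl

theorem mem_of_inj {A : AddSubgroup (Rf S)} {x : Rf S} (h : ∀ v, inj v (x v) ∈ A) : x ∈ A := by
  rw [← sum_inj x]
  exact A.sum_mem fun v _ => h v

/-- membership in `V` at the component `v`. -/
theorem TyDat.Mem.loc {hD : D.IsProd} {g : GL (Fin 2) (Rf S)} {z : (Rf S)ˣ} {a b c : Rf S}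
    (h : D.Mem g z a b c) (v : S) :
    (D.loc hD v).Mem (Adapt.loc S v.1 g) (Units.map (Adapt.evF S v : Rf S →* _) z)
      (a v) (b v) (c v) := by
  obtain ⟨ha, hb, hc, hg⟩ := h
  refine ⟨hD.α v a ha, hD.β v b hb, hD.γ v c hc, ?_⟩
  ext i j
  have h1 : (Adapt.loc S v.1 g : Matrix (Fin 2) (Fin 2) (v.1.adicCompletion F)) i j = g i j v :=
    Adapt.loc_apply_of_mem v.2 g i j
  rw [h1, hg]
  fin_cases i <;> fin_cases j <;> rfl

theorem mem_V_iff (hD : D.IsProd) {g : GL (Fin 2) (Rf S)} :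
    g ∈ D.V ↔ ∀ v : S, Adapt.loc S v.1 g ∈ (D.loc hD v).V := by
  constructor
  · rintro ⟨z, a, b, c, h⟩ v
    exact ⟨_, _, _, _, h.loc v⟩
  · intro h
    choose z a b c hm using h
    refine ⟨MulEquiv.piUnits.symm z, a, b, c, mem_of_inj fun v => (hm v).1,
      mem_of_inj fun v => (hm v).2.1, mem_of_inj fun v => (hm v).2.2.1, ?_⟩
    refine Matrix.ext fun i j => funext fun v => ?_
    have h1 : (Adapt.loc S v.1 g : Matrix (Fin 2) (Fin 2) (v.1.adicCompletion F)) i j = g i j v :=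
      Adapt.loc_apply_of_mem v.2 g i j
    rw [← h1, (hm v).2.2.2]
    fin_cases i <;> fin_cases j <;> rfl

theorem chi_eq_prod (hD : D.IsProd) {g : GL (Fin 2) (Rf S)} (hg : g ∈ D.V) :
    D.chi g = ∏ v : S, (D.loc hD v).chi (Adapt.loc S v.1 g) := by
  obtain ⟨z, a, b, c, h⟩ := hg
  rw [h.chi]
  simp only [fun v => (h.loc (hD := hD) v).chi]
  conv_lhs => rw [← sum_inj b]
  rw [addChar_sum]
  rfl

/-! ### Small levels -/

/-- the local data are small if `D` is. -/
theorem small_loc (hD : D.IsProd) {v : S} {r : ℤᵐ⁰} (hr : r < 1)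
    (hα : ∀ x ∈ D.α, Valued.v (x v) ≤ r) (hβ : ∀ x ∈ D.β, Valued.v (x v) ≤ r)
    (hγ : ∀ x ∈ D.γ, Valued.v (x v) ≤ r) : (D.loc hD v).Small (vF v.1) r where
  lt := hr
  α x hx := by
    have := hα _ (mem_loc_α.mp hx)
    rwa [inj_same] at this
  β x hx := by
    have := hβ _ (mem_loc_β.mp hx)
    rwa [inj_same] at this
  γ x hx := by
    have := hγ _ (mem_loc_γ.mp hx)
    rwa [inj_same] at this

theorem comap_inj_mem_nhds {A : AddSubgroup (Rf S)} (hA : (A : Set (Rf S)) ∈ 𝓝 (0 : Rf S)) (v : S) :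
    ((A.comap (inj v) : AddSubgroup (v.1.adicCompletion F)) : Set (v.1.adicCompletion F)) ∈
      𝓝 (0 : v.1.adicCompletion F) := by
  have h := (continuous_inj v).tendsto 0
  rw [map_zero] at h
  exact h hA

/-- **principal subgroups in `Vk`.** -/
theorem exists_Kn_le_Vk_loc (hD : D.IsProd) (hα : (D.α : Set (Rf S)) ∈ 𝓝 0)
    (hκ : (D.κ : Set (Rf S)) ∈ 𝓝 0) (hγ : (D.γ : Set (Rf S)) ∈ 𝓝 0) (v : S) :
    ∃ n₀ : ℕ, ∀ n : ℕ, n₀ ≤ n → Kn (vF v.1) (exp (-(n : ℤ))) ≤ (D.loc hD v).Vk :=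
  TyDat.exists_Kn_le_Vk (comap_inj_mem_nhds hα v) (comap_inj_mem_nhds hκ v)
    (comap_inj_mem_nhds hγ v)

/-- **the hypotheses `LevOK` for all levels which are small at `S`.** -/
theorem levOK_of_small (hD : D.IsProd) {r : S → ℤᵐ⁰} (hr : ∀ v, r v < 1)
    (h1 : ∀ x ∈ D.α, ∀ v : S, Valued.v (x v) ≤ r v) (h2 : ∀ x ∈ D.β, ∀ v : S, Valued.v (x v) ≤ r v)
    (h3 : ∀ x ∈ D.γ, ∀ v : S, Valued.v (x v) ≤ r v) {U : Lev F}
    (hU : ∀ v : S, U.U v.1 ≤ (D.loc hD v).Vk) : LevOK U (D.loc hD) where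
  small v := ⟨r v, small_loc hD (hr v) (fun x hx => h1 x hx v) (fun x hx => h2 x hx v)
    fun x hx => h3 x hx v⟩
  le := hU

/-! ### Equivariance at all places of `S` -/

section EqAt

variable [DecidableEq (HeightOneSpectrum (𝓞 F))] {U : Lev F}
  {T : ∀ v : S, TyDat (v.1.adicCompletion F)} {E : Type*} [AddCommGroup E] [Module ℂ E]

/-- moving all the coordinates at the places of `S`. -/
theorem act_prod_of_forall {f : Lvl.D U → E}
    (hf : ∀ (v : S) (x : Lvl.D U) (g k : GL (Fin 2) (v.1.adicCompletion F)), k ∈ (T v).V →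
      f (upd x v.1 (Cos.mk (U.U v.1) (g * k))) = ((T v).chi k : ℂ) • f (upd x v.1 (Cos.mk (U.U v.1) g)))
    {x : Lvl.D U} {g k : ∀ v : S, GL (Fin 2) (v.1.adicCompletion F)} (hk : ∀ v, k v ∈ (T v).V)
    (hx : ∀ v : S, x v.1 = Cos.mk (U.U v.1) (g v)) {x' : Lvl.D U}
    (hx' : ∀ v : S, x' v.1 = Cos.mk (U.U v.1) (g v * k v)) (hoff : ∀ v ∉ S, x' v = x v) :
    f x' = (∏ v : S, ((T v).chi (k v) : ℂ)) • f x := by
  have key : ∀ (A : Finset S) (x' : Lvl.D U),
      (∀ v ∈ A, x' v.1 = Cos.mk (U.U v.1) (g v * k v)) → (∀ v : S, v ∉ A → x' v.1 = x v.1) →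
      (∀ v ∉ S, x' v = x v) → f x' = (∏ v ∈ A, ((T v).chi (k v) : ℂ)) • f x := by
    intro A
    induction A using Finset.induction_on with
    | empty =>
      intro x' _ h2 h3
      rw [Finset.prod_empty, one_smul]
      congr 1
      refine RProd.ext' fun v => ?_
      by_cases hv : v ∈ S
      · exact h2 ⟨v, hv⟩ (Finset.notMem_empty _)
      · exact h3 v hv
    | insert a A ha ih =>
      intro x' h1 h2 h3
      have h4 : upd x' a.1 (Cos.mk (U.U a.1) (g a * k a)) = x' := by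
        rw [← h1 a (Finset.mem_insert_self a A), upd_eq_self]
      rw [← h4, hf a x' _ _ (hk a), ih (upd x' a.1 (Cos.mk (U.U a.1) (g a))), Finset.prod_insert ha,
        mul_smul]
      · intro v hv
        have hva : v.1 ≠ a.1 := fun h => ha (Subtype.ext h ▸ hv)
        rw [upd_of_ne _ _ hva]
        exact h1 v (Finset.mem_insert_of_mem hv)
      · intro v hv
        by_cases hva : v = a
        · subst hva
          rw [upd_self, hx]
        · have hva' : v.1 ≠ a.1 := fun h => hva (Subtype.ext h)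
          rw [upd_of_ne _ _ hva']
          exact h2 v (by rw [Finset.mem_insert, not_or]; exact ⟨hva, hv⟩)
      · intro v hv
        have hva : v ≠ a.1 := fun h => hv (h ▸ a.2)
        rw [upd_of_ne _ _ hva]
        exact h3 v hv
  exact key Finset.univ x' (fun v _ => hx' v) (fun v hv => absurd (Finset.mem_univ v) hv) hoff

end EqAt

/-! ### The `κ` model -/

section ToKap

variable {U : Lev F} {f : Xi F × Lvl.D U → ℂ}

open Fermat.Agent.LT.Adapt

/-- `s_V f = f` implies `(V, χ)`-equivariance. -/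
theorem eqV_toKap (hD : D.IsProd) (h : LevOK U (D.loc hD))
    (hf : ∀ x : Xi F, (sV h).act (fun d => f (x, d)) = fun d => f (x, d)) :
    EqV D (toKap S U f) := by
  classical
  intro z g k hk
  have h1 := (act_sV_eq_iff h _).mp (hf z)
  rw [toKap_mk, toKap_mk]
  have h2 := act_prod_of_forall (T := D.loc hD) (f := fun d => f (z, d)) h1
    (x := jS S U g) (x' := jS S U (g * k)) (g := fun v => Adapt.loc S v.1 g)
    (k := fun v => Adapt.loc S v.1 k) ((mem_V_iff hD).mp hk) (fun v => rfl)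
    (fun v => by rw [jS_apply, map_mul]) (fun v hv => by
      rw [jS_apply_of_notMem _ _ hv, jS_apply_of_notMem _ _ hv])
  rw [chi_eq_prod hD hk]
  rw [smul_eq_mul] at h2
  rw [h2]
  congr 1
  exact (map_prod Circle.coeHom _ _).symm

theorem ker_chi_one (hD : D.IsProd) (v : S) : (D.loc hD v).chi 1 = 1 :=
  TyDat.chi_of_mem_Vk (D.loc hD v).Vk.one_mem

/-- `(V, χ)`-equivariance implies `s_V f = f`, for an invariant function. -/
theorem act_sV_of_eqV (hD : D.IsProd) (h : LevOK U (D.loc hD)) (hcl : CFT.Global.ClTrivial S)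
    (hU : OffS S U) (hinv : ∀ (γ : GL (Fin 2) F) z, f (γ • z) = f z)
    (hf : EqV D (toKap S U f)) (x : Xi F) :
    (sV h).act (fun d => f (x, d)) = fun d => f (x, d) := by
  classical
  refine (act_sV_eq_iff h _).mpr fun v y g k hk => ?_
  obtain ⟨γ, g₀, hγ⟩ := exists_jS hcl hU (upd y v.1 (Cos.mk (U.U v.1) g))
  have hv : Cos.mk (U.U v.1) (gmap v.1 γ * Adapt.loc S v.1 g₀) = Cos.mk (U.U v.1) g := by
    have := congrArg (fun d : Lvl.D U => d v.1) hγ
    simp only [RProd.smul_apply, upd_self] at this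
    exact this
  obtain ⟨z, u, hu, hg⟩ := Cos.mk_eq_iff.mp hv
  have huk : u ∈ (D.loc hD v).Vk := h.le v hu
  have huV : u ∈ (D.loc hD v).V := (D.loc hD v).Vk_le huk
  set G : ∀ w : S, GL (Fin 2) (w.1.adicCompletion F) := Function.update 1 v (u * k) with hG
  have hGv : G v = u * k := Function.update_self _ _ _
  have hGw : ∀ w, w ≠ v → G w = 1 := fun w hw => Function.update_of_ne hw _ _
  have hlocG : ∀ w : S, Adapt.loc S w.1 (ofLoc G) = G w := fun w => loc_ofLoc G w.2
  have hGV : ofLoc G ∈ D.V := by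
    refine (mem_V_iff hD).mpr fun w => ?_
    rw [hlocG]
    by_cases hw : w = v
    · subst hw
      rw [hGv]
      exact mul_mem huV hk
    · rw [hGw w hw]
      exact one_mem _
  have hchi : D.chi (ofLoc G) = (D.loc hD v).chi k := by
    rw [chi_eq_prod hD hGV, Finset.prod_eq_single v]
    · rw [hlocG, hGv, TyDat.chi_mul huV hk, TyDat.chi_of_mem_Vk huk, one_mul]
    · intro w _ hw
      rw [hlocG, hGw w hw, ker_chi_one]
    · exact fun h => absurd (Finset.mem_univ v) h
  have hj : upd y v.1 (Cos.mk (U.U v.1) (g * k)) = γ • jS S U (g₀ * ofLoc G) := by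
    refine RProd.ext' fun w => ?_
    rw [RProd.smul_apply]
    by_cases hw : w = v.1
    · subst hw
      rw [upd_self, jS_apply, map_mul, hlocG, hGv, smulF_def, Cos.smul_mk, hg]
      have e : GeneralLinearGroup.scalar (Fin 2) z * (gmap v.1 γ * Adapt.loc S v.1 g₀ * u) * k =
          GeneralLinearGroup.scalar (Fin 2) z * (gmap v.1 γ * (Adapt.loc S v.1 g₀ * (u * k))) := by
        group
      rw [e, Cos.mk_scalar_mul]
    · rw [upd_of_ne _ _ hw]
      have h1 : (upd y v.1 (Cos.mk (U.U v.1) g)) w = y w := upd_of_ne _ _ hw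
      rw [← h1, ← hγ, RProd.smul_apply]
      congr 1
      rw [jS_apply, jS_apply, map_mul]
      have h2 : Adapt.loc S w (ofLoc G) = 1 := by
        by_cases hwS : w ∈ S
        · have := hlocG ⟨w, hwS⟩
          rw [hGw ⟨w, hwS⟩ fun h => hw (congrArg Subtype.val h)] at this
          exact this
        · exact loc_of_notMem hwS _
      rw [h2, mul_one]
  have e1 : ∀ d : Lvl.D U, f (x, γ • d) = f (γ⁻¹ • x, d) := by
    intro d
    rw [← hinv γ⁻¹ (x, γ • d)]
    show f (γ⁻¹ • x, γ⁻¹ • γ • d) = _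
    rw [inv_smul_smul]
  show f (x, upd y v.1 (Cos.mk (U.U v.1) (g * k))) =
    ((D.loc hD v).chi k : ℂ) • f (x, upd y v.1 (Cos.mk (U.U v.1) g))
  rw [hj, ← hγ, e1, e1, ← toKap_mk (S := S) (f := f), ← toKap_mk (S := S) (f := f),
    hf _ _ _ hGV, hchi, smul_eq_mul]

/-- **`s_V f = f` if and only if `f` is `(V, χ)`-equivariant.** -/
theorem eqV_toKap_iff (hD : D.IsProd) (h : LevOK U (D.loc hD)) (hcl : CFT.Global.ClTrivial S)
    (hU : OffS S U) (hinv : ∀ (γ : GL (Fin 2) F) z, f (γ • z) = f z) :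
    (∀ x : Xi F, (sV h).act (fun d => f (x, d)) = fun d => f (x, d)) ↔ EqV D (toKap S U f) :=
  ⟨eqV_toKap hD h, act_sV_of_eqV hD h hcl hU hinv⟩

end ToKap

/-! ### The family of pairs -/

section Family

variable {Ri : Type*} [CommRing Ri] {θ : AddChar (Ri × Rf S) Circle}
  {B : FBase θ}

theorem inj_eq_mul (v : S) (x : Rf S) : inj v (x v) = x * inj v 1 := by
  rw [mul_inj, mul_one]

theorem sc_isProd {A : AddSubgroup (Rf S)} (u : (Rf S)ˣ) (hA : ∀ (v : S) (x : Rf S), x ∈ A →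
    inj v (x v) ∈ A) (v : S) (x : Rf S) (hx : x ∈ sc u A) : inj v (x v) ∈ sc u A := by
  rw [mem_sc] at *
  have := hA v _ hx
  rwa [inj_eq_mul, mul_assoc, ← inj_eq_mul] at this

/-- **helper31's family consists of products.** -/
theorem FBase.isProd_dat (hB : ∀ v : S, inj v 1 ∈ B.Of) {u w y : (Rf S)ˣ} (h : B.Adm u w y) :
    (B.dat u w y h).IsProd where
  α := sc_isProd u fun v x hx => by
    rw [inj_eq_mul]
    exact B.mul_mem_Dinv hx (hB v)
  β := sc_isProd _ fun v x hx => by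
    rw [inj_eq_mul]
    exact B.Of.mul_mem hx (hB v)
  γ := sc_isProd _ fun v x hx => by
    rw [inj_eq_mul]
    exact B.Of.mul_mem hx (hB v)
  κ := sc_isProd _ fun v x hx => by
    rw [inj_eq_mul]
    exact B.mul_mem_Dinv hx (hB v)

theorem inj_one_mem_Of (v : S) : inj v (1 : v.1.adicCompletion F) ∈ Loc.Of S := by
  intro w
  by_cases hw : w = v
  · subst hw
    rw [inj_same, map_one]
  · rw [inj_of_ne hw, map_zero]
    exact zero_le_one

variable [TopologicalSpace Ri] [IsTopologicalRing Ri]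

theorem FBase.α_mem_nhds {u w y : (Rf S)ˣ} (h : B.Adm u w y) :
    ((B.dat u w y h).α : Set (Rf S)) ∈ 𝓝 0 := sc_mem_nhds _ B.Dinv_mem_nhds

omit [TopologicalSpace Ri] [IsTopologicalRing Ri] in
theorem FBase.γ_mem_nhds {u w y : (Rf S)ˣ} (h : B.Adm u w y) :
    ((B.dat u w y h).γ : Set (Rf S)) ∈ 𝓝 0 := sc_mem_nhds (S := B.Of.toAddSubgroup) _ B.op

/-- **small principal levels for the family.** -/
theorem FBase.exists_Kn_le (hB : ∀ v : S, inj v 1 ∈ B.Of) {u w y : (Rf S)ˣ} (h : B.Adm u w y) :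
    ∃ n₀ : ℕ, ∀ (v : S) (n : ℕ), n₀ ≤ n →
      Kn (vF v.1) (exp (-(n : ℤ))) ≤ ((B.dat u w y h).loc (FBase.isProd_dat hB h) v).Vk := by
  choose n hn using fun v : S => exists_Kn_le_Vk_loc (FBase.isProd_dat hB h) (FBase.α_mem_nhds h)
    h.κ_mem_nhds (FBase.γ_mem_nhds h) v
  exact ⟨Finset.univ.sup n, fun v m hm => hn v m ((Finset.le_sup (Finset.mem_univ v)).trans hm)⟩

end Family

end Fermat.Agent.LT.Kap

end
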