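import Fermat.Agent.LT.Kappa.Type
import Fermat.Agent.LT.Level.Change
import Fermat.Agent.LT.HK.Coset

/-!
# The pair `(V, χ)` at one place and its idempotent (helper70)

* `TyDat.Vk = {g ∈ V | b ∈ κ}`: `χ = 1` there;
* `TyDat.Small w r`: `α, β, γ ⊂ {w ≤ r}`, `r < 1`; then `V ⊂ E^× · Kn w r`;
* `Kn_le_Vk`: small principal subgroups are contained in `Vk`;
* `isChar`: for a level `U ≤ Vk`, `(U ⊔ centre, V, χ)` is an `HK.IsChar`, so that `HK.idem` is the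
  projection onto the `(V, χ)`-equivariant functions at level `U`.
-/

set_option autoImplicit false

open Matrix NumberField IsDedekindDomain WithZero
open scoped WithZero

noncomputable section

namespace Fermat.Agent.LT.Kap

open Fermat.Agent.LT.Lvl

namespace TyDat

section Ring

variable {R : Type*} [CommRing R] {D : TyDat R}

theorem mem_one : D.Mem 1 1 0 0 0 := by
  refine ⟨D.α.zero_mem, D.β.zero_mem, D.γ.zero_mem, ?_⟩
  ext i j; fin_cases i <;> fin_cases j <;> simp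

theorem Mem.inv_sub {g : GL (Fin 2) R} {z : Rˣ} {a b c : R} (h : D.Mem g z a b c) :
    ∃ (z'' : Rˣ) (a'' b'' c'' : R), D.Mem g⁻¹ z'' a'' b'' c'' ∧ b + b'' ∈ D.κ := by
  obtain ⟨z', a', b', c', h'⟩ := h.inv
  refine ⟨z', a', b', c', h', ?_⟩
  obtain ⟨z'', a'', b'', c'', h'', hk⟩ := h.mul h'
  rw [mul_inv_cancel] at h''
  have h0 := (h''.eq mem_one).2.2.1
  rw [h0, zero_sub] at hk
  exact neg_mem_iff.mp hk

variable (D)

/-- The subgroup of the elements of `V` with `b ∈ κ`. -/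
def Vk : Subgroup (GL (Fin 2) R) where
  carrier := {g | ∃ z a b c, D.Mem g z a b c ∧ b ∈ D.κ}
  mul_mem' := by
    rintro g g' ⟨z, a, b, c, h, hb⟩ ⟨z', a', b', c', h', hb'⟩
    obtain ⟨z'', a'', b'', c'', h'', hk⟩ := h.mul h'
    refine ⟨z'', a'', b'', c'', h'', ?_⟩
    have : b'' = (b'' - (b + b')) + (b + b') := by ring
    rw [this]
    exact D.κ.add_mem hk (D.κ.add_mem hb hb')
  one_mem' := ⟨1, 0, 0, 0, mem_one, D.κ.zero_mem⟩
  inv_mem' := by
    rintro g ⟨z, a, b, c, h, hb⟩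
    obtain ⟨z'', a'', b'', c'', h'', hk⟩ := h.inv_sub
    refine ⟨z'', a'', b'', c'', h'', ?_⟩
    have : b'' = (b + b'') - b := by ring
    rw [this]
    exact D.κ.sub_mem hk hb

theorem mem_Vk {g : GL (Fin 2) R} : g ∈ D.Vk ↔ ∃ z a b c, D.Mem g z a b c ∧ b ∈ D.κ := Iff.rfl

theorem Vk_le : D.Vk ≤ D.V := by
  rintro g ⟨z, a, b, c, h, -⟩
  exact ⟨z, a, b, c, h⟩

variable {D}

theorem chi_of_mem_Vk {g : GL (Fin 2) R} (hg : g ∈ D.Vk) : D.chi g = 1 := by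
  obtain ⟨z, a, b, c, h, hb⟩ := hg
  rw [h.chi, D.θκ b hb]

theorem chi_inv {g : GL (Fin 2) R} (hg : g ∈ D.V) : D.chi g⁻¹ = (D.chi g)⁻¹ := by
  have h := chi_mul (D.V.inv_mem hg) hg
  rw [inv_mul_cancel, chi_of_mem_Vk D.Vk.one_mem] at h
  exact eq_inv_of_mul_eq_one_left h.symm

/-- multiplication by a scalar. -/
theorem Mem.scalar_mul {g : GL (Fin 2) R} {z : Rˣ} {a b c : R} (h : D.Mem g z a b c) (u : Rˣ) :
    D.Mem (GeneralLinearGroup.scalar (Fin 2) u * g) (u * z) a b c := by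
  obtain ⟨ha, hb, hc, hg⟩ := h
  refine ⟨ha, hb, hc, ?_⟩
  rw [Units.val_mul, hg, GeneralLinearGroup.coe_scalar]
  ext i j
  fin_cases i <;> fin_cases j <;>
    simp [Matrix.mul_apply, Fin.sum_univ_two, Matrix.scalar_apply, mul_assoc]

theorem scalar_mem_Vk (z : Rˣ) : GeneralLinearGroup.scalar (Fin 2) z ∈ D.Vk := by
  have h := (mem_one (D := D)).scalar_mul z
  rw [mul_one, mul_one] at h
  exact ⟨z, 0, 0, 0, h, D.κ.zero_mem⟩

variable (D) in
theorem center_le_Vk : Subgroup.center (GL (Fin 2) R) ≤ D.Vk := by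
  rw [GeneralLinearGroup.center_eq_range_scalar]
  rintro _ ⟨z, rfl⟩
  exact scalar_mem_Vk z

/-- the normalised element. -/
theorem Mem.inv_scalar_mul {g : GL (Fin 2) R} {z : Rˣ} {a b c : R} (h : D.Mem g z a b c) :
    D.Mem (GeneralLinearGroup.scalar (Fin 2) z⁻¹ * g) 1 a b c := by
  have := h.scalar_mul z⁻¹
  rwa [inv_mul_cancel] at this

/-- **`(U ⊔ centre, V, χ)`** is a character datum for every `U ≤ Vk` of finite index. -/
theorem isChar_chi {U : Subgroup (GL (Fin 2) R)} (hU : U ≤ D.Vk)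
    (hf : (U ⊔ Subgroup.center _).relIndex D.V ≠ 0) :
    HK.IsChar (U ⊔ Subgroup.center _) D.V (fun g => (D.chi g : ℂ)) where
  le := (sup_le hU D.center_le_Vk).trans D.Vk_le
  fin := hf
  one v hv := by
    rw [chi_of_mem_Vk (sup_le hU D.center_le_Vk hv), Circle.coe_one]
  mul a ha b hb := by rw [chi_mul ha hb, Circle.coe_mul]
  norm a _ := by
    rw [Complex.star_def, ← Circle.coe_inv_eq_conj, ← Circle.coe_mul, inv_mul_cancel,
      Circle.coe_one]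

end Ring

section Val

variable {E Γ : Type*} [Field E] [LinearOrderedCommGroupWithZero Γ] {w : Valuation E Γ}
  {D : TyDat E} {r : Γ}

/-- `α, β, γ ⊂ {w ≤ r}`, `r < 1`. -/
structure Small (D : TyDat E) (w : Valuation E Γ) (r : Γ) : Prop where
  lt : r < 1
  α : ∀ x ∈ D.α, w x ≤ r
  β : ∀ x ∈ D.β, w x ≤ r
  γ : ∀ x ∈ D.γ, w x ≤ r

theorem Small.mem_Kn (h : D.Small w r) {g : GL (Fin 2) E} {a b c : E} (hg : D.Mem g 1 a b c) :
    g ∈ Kn w r := by
  obtain ⟨ha, hb, hc, hg⟩ := hg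
  refine mem_Kn_of_bd h.lt ?_
  rw [hg]
  intro i j
  fin_cases i <;> fin_cases j <;> simp [h.α a ha, h.β b hb, h.γ c hc]

/-- every element of `V` is a scalar times a small element. -/
theorem Small.exists_scalar (h : D.Small w r) {g : GL (Fin 2) E} (hg : g ∈ D.V) :
    ∃ z : Eˣ, ∃ k ∈ Kn w r, k ∈ D.V ∧ D.chi k = D.chi g ∧
      g = GeneralLinearGroup.scalar (Fin 2) z * k := by
  obtain ⟨z, a, b, c, hm⟩ := hg
  have h1 := hm.inv_scalar_mul
  refine ⟨z, GeneralLinearGroup.scalar (Fin 2) z⁻¹ * g, h.mem_Kn h1, ⟨1, a, b, c, h1⟩, ?_, ?_⟩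
  · rw [h1.chi, hm.chi]
  · rw [← mul_assoc, ← map_mul, mul_inv_cancel, map_one, one_mul]

theorem Small.V_le (h : D.Small w r) : D.V ≤ Kn w r ⊔ Subgroup.center _ := by
  intro g hg
  obtain ⟨z, k, hk, -, -, rfl⟩ := h.exists_scalar hg
  exact mem_sup_center.mpr ⟨z, k, hk, rfl⟩

theorem Small.V_le_GLO (h : D.Small w r) : D.V ≤ GLO w ⊔ Subgroup.center _ :=
  h.V_le.trans (sup_le_sup_right (Kn_le r) _)

theorem Small.Vk_inf (h : D.Small w r) : (D.Vk ⊓ GLO w) ⊔ Subgroup.center _ = D.Vk := by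
  refine le_antisymm (sup_le inf_le_left D.center_le_Vk) ?_
  rintro g ⟨z, a, b, c, hm, hb⟩
  have h1 := hm.inv_scalar_mul
  refine mem_sup_center.mpr ⟨z, _, ⟨⟨1, a, b, c, h1, hb⟩, Kn_le r (h.mem_Kn h1)⟩, ?_⟩
  rw [← mul_assoc, ← map_mul, mul_inv_cancel, map_one, one_mul]

/-- small principal subgroups are contained in `Vk`. -/
theorem Kn_le_Vk {γ : Γ} (hγ : γ < 1) (h : ∀ x, w x ≤ γ → x ∈ D.α ∧ x ∈ D.κ ∧ x ∈ D.γ) :
    Kn w γ ≤ D.Vk := by
  intro g hg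
  have hb := hg.2
  have h11 : w (g.1 1 1 - 1) ≤ γ := by
    have := hb 1 1
    rwa [Matrix.sub_apply, Matrix.one_apply_eq] at this
  have hz : w (g.1 1 1) = 1 := by
    have h4 := Valuation.map_one_add_of_lt (v := w) (h11.trans_lt hγ)
    rwa [add_sub_cancel] at h4
  have hz0 : g.1 1 1 ≠ 0 := by
    intro h0
    rw [h0, map_zero] at hz
    exact zero_ne_one hz
  have hdiv : ∀ x, w x ≤ γ → w (x / g.1 1 1) ≤ γ := by
    intro x hx
    rw [map_div₀, hz, div_one]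
    exact hx
  have h00 : w (g.1 0 0 - g.1 1 1) ≤ γ := by
    have h1 : w (g.1 0 0 - 1) ≤ γ := by
      have := hb 0 0
      rwa [Matrix.sub_apply, Matrix.one_apply_eq] at this
    have e : g.1 0 0 - g.1 1 1 = (g.1 0 0 - 1) - (g.1 1 1 - 1) := by ring
    rw [e]
    exact (w.map_sub _ _).trans (max_le h1 h11)
  have h01 : w (g.1 0 1) ≤ γ := by
    have := hb 0 1
    rwa [Matrix.sub_apply, Matrix.one_apply_ne (by decide), sub_zero] at this
  have h10 : w (g.1 1 0) ≤ γ := by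
    have := hb 1 0
    rwa [Matrix.sub_apply, Matrix.one_apply_ne (by decide), sub_zero] at this
  refine ⟨Units.mk0 _ hz0, (g.1 0 0 - g.1 1 1) / g.1 1 1, g.1 0 1 / g.1 1 1, g.1 1 0 / g.1 1 1,
    ⟨(h _ (hdiv _ h00)).1, D.κβ (h _ (hdiv _ h01)).2.1, (h _ (hdiv _ h10)).2.2, ?_⟩,
    (h _ (hdiv _ h01)).2.1⟩
  rw [Units.val_mk0]
  ext i j
  fin_cases i <;> fin_cases j
  · show g.1 0 0 = g.1 1 1 * (1 + (g.1 0 0 - g.1 1 1) / g.1 1 1)
    field_simp
    ring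
  · show g.1 0 1 = g.1 1 1 * (g.1 0 1 / g.1 1 1)
    field_simp
  · show g.1 1 0 = g.1 1 1 * (g.1 1 0 / g.1 1 1)
    field_simp
  · show g.1 1 1 = g.1 1 1
    rfl

end Val

section Place

variable {F : Type*} [Field F] [NumberField F] {U : Lev F} {v : HeightOneSpectrum (𝓞 F)}
  {T : TyDat (v.adicCompletion F)} {r : ℤᵐ⁰}

theorem relIndex_ne_zero (U : Lev F) (h : T.Small (vF v) r) :
    (U.U v ⊔ Subgroup.center _).relIndex T.V ≠ 0 := by
  have h1 : (U.U v ⊔ Subgroup.center _).relIndex (GLO (vF v) ⊔ Subgroup.center _) ≠ 0 :=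
    locIndex_ne_zero (U := U) (U' := Lev.full F) U.le_full v
  exact fun h0 => h1 (Subgroup.relIndex_eq_zero_of_le_right h.V_le_GLO h0)

/-- **the character datum of a level contained in `Vk`.** -/
theorem isChar (U : Lev F) (h : T.Small (vF v) r) (hU : U.U v ≤ T.Vk) :
    HK.IsChar (U.U v ⊔ Subgroup.center _) T.V (fun g => (T.chi g : ℂ)) :=
  isChar_chi hU (relIndex_ne_zero U h)

/-- the balls `exp (-n)` are eventually contained in a neighbourhood of `0`. -/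
theorem exists_ball_subset {N : Set (v.adicCompletion F)} (hN : N ∈ nhds (0 : v.adicCompletion F)) :
    ∃ n₀ : ℕ, ∀ n : ℕ, n₀ ≤ n → ∀ x, vF v x ≤ exp (-(n : ℤ)) → x ∈ N := by
  obtain ⟨n₀, hn₀⟩ := (Loc.mem_nhds_iff v).mp hN
  refine ⟨n₀ + 1, fun n hn x hx => hn₀ ?_⟩
  rw [Set.mem_ofPred_eq, sub_zero]
  refine hx.trans_lt ?_
  rw [exp_lt_exp]
  omega

/-- **small principal subgroups are contained in `Vk`.** -/
theorem exists_Kn_le_Vk (hα : (T.α : Set (v.adicCompletion F)) ∈ nhds 0)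
    (hκ : (T.κ : Set (v.adicCompletion F)) ∈ nhds 0)
    (hγ : (T.γ : Set (v.adicCompletion F)) ∈ nhds 0) :
    ∃ n₀ : ℕ, ∀ n : ℕ, n₀ ≤ n → Kn (vF v) (exp (-(n : ℤ))) ≤ T.Vk := by
  obtain ⟨n₁, h₁⟩ := exists_ball_subset hα
  obtain ⟨n₂, h₂⟩ := exists_ball_subset hκ
  obtain ⟨n₃, h₃⟩ := exists_ball_subset hγ
  refine ⟨n₁ + n₂ + n₃ + 1, fun n hn => Kn_le_Vk (exp_neg_lt_one (by omega)) fun x hx =>
    ⟨h₁ n (by omega) x hx, h₂ n (by omega) x hx, h₃ n (by omega) x hx⟩⟩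

end Place

end TyDat

end Fermat.Agent.LT.Kap

end
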