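import Fermat.Agent.LT.Kappa.Whit
import Fermat.Agent.LT.H3.Spherical

/-!
# Whittaker functions on `ℍ³` are unique

`W` an eigenfunction of the radial kernels with eigenvalues `sph ν`,
`W(z + t, y) = e(2 Re(c t)) W(z, y)`, `c ≠ 0`, of moderate growth: then
`W(z, y) = a e(2 Re(c z)) y K_ν(4π|c|y)`.
-/

set_option autoImplicit false

open MeasureTheory Set Filter Topology Complex Asymptotics

noncomputable section

namespace Fermat.Agent.LT.Kap

open H3

/-- smooth bump kernels -/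
def bumpK (δ : ℝ) : ℝ → ℝ := fun u => Real.smoothTransition ((1 + δ - u) / δ)

theorem isTest_bumpK {δ : ℝ} (hδ : 0 < δ) : IsTest (bumpK δ) := by
  refine ⟨?_, 1 + δ, fun t ht => ?_⟩
  · exact Real.smoothTransition.contDiff.comp
      ((contDiff_const.sub contDiff_id).div_const δ)
  · exact Real.smoothTransition.zero_of_nonpos
      (div_nonpos_of_nonpos_of_nonneg (by linarith) hδ.le)

theorem bumpK_nonneg (δ u : ℝ) : 0 ≤ bumpK δ u := Real.smoothTransition.nonneg _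

theorem bumpK_one {δ : ℝ} (hδ : 0 < δ) : bumpK δ 1 = 1 := by
  refine Real.smoothTransition.one_of_one_le ?_
  rw [le_div_iff₀ hδ]
  linarith

theorem IsTest.isKer {k : ℝ → ℝ} (hk : IsTest k) : IsKer fun t => (k t : ℂ) := by
  obtain ⟨C, hC⟩ := hk.supp
  exact ⟨continuous_ofReal.comp hk.continuous, C, fun t ht => by rw [hC t ht, ofReal_zero]⟩

/-- a smooth kernel which does not kill `W` -/
theorem exists_test {W : H3 → ℂ} (hW : Continuous W) {P : H3} (hP : W P ≠ 0) :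
    ∃ k, IsTest k ∧ Rk (fun t => (k t : ℂ)) W P ≠ 0 := by
  have hn : 0 < ‖W P‖ := norm_pos_iff.mpr hP
  obtain ⟨δ, hδ, hU⟩ := exists_ball_subset P
    (hW.continuousAt (Metric.ball_mem_nhds (W P) (half_pos hn)))
  refine ⟨bumpK δ, isTest_bumpK hδ, fun h0 => ?_⟩
  have hkc : Continuous fun Q : H3 => bumpK δ (cu P Q) :=
    Continuous.comp (g := bumpK δ) (isTest_bumpK hδ).continuous (continuous_cu_right P)
  have hks : ∀ Q, Q ∉ {Q | cu P Q ≤ 1 + δ} → bumpK δ (cu P Q) = 0 := fun Q hQ =>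
    Real.smoothTransition.zero_of_nonpos
      (div_nonpos_of_nonpos_of_nonneg (by
        have : 1 + δ < cu P Q := not_le.mp hQ
        linarith) hδ.le)
  have hT := isCompact_ball P (1 + δ)
  have i0 : Integrable (fun Q : H3 => bumpK δ (cu P Q)) :=
    integrable_of_support hT hkc hks
  have i1 : Integrable fun Q : H3 => (bumpK δ (cu P Q) : ℂ) * W P := i0.ofReal.mul_const _
  have i2 : Integrable fun Q : H3 => (bumpK δ (cu P Q) : ℂ) * W Q :=
    integrable_of_support hT ((continuous_ofReal.comp hkc).mul hW)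
      fun Q hQ => by rw [hks Q hQ, ofReal_zero, zero_mul]
  have hI : 0 < ∫ Q : H3, bumpK δ (cu P Q) := by
    rw [integral_pos_iff_support_of_nonneg (fun Q => bumpK_nonneg _ _) i0]
    refine hkc.isOpen_support.measure_pos _ ⟨P, ?_⟩
    rw [Function.mem_support, cu_self, bumpK_one hδ]
    exact one_ne_zero
  have h1 : ∫ Q : H3, (bumpK δ (cu P Q) : ℂ) * (W P - W Q) =
      (∫ Q : H3, bumpK δ (cu P Q) : ℝ) * W P := by
    have e1 : (fun Q : H3 => (bumpK δ (cu P Q) : ℂ) * (W P - W Q)) =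
        fun Q => (bumpK δ (cu P Q) : ℂ) * W P - (bumpK δ (cu P Q) : ℂ) * W Q :=
      funext fun Q => mul_sub _ _ _
    rw [e1, integral_sub i1 i2, integral_mul_const, integral_complex_ofReal]
    have e2 : ∫ Q : H3, (bumpK δ (cu P Q) : ℂ) * W Q = 0 := h0
    rw [e2, sub_zero]
  have h2 : ‖∫ Q : H3, (bumpK δ (cu P Q) : ℂ) * (W P - W Q)‖ ≤
      ∫ Q : H3, bumpK δ (cu P Q) * (‖W P‖ / 2) := by
    refine (norm_integral_le_integral_norm _).trans ?_
    refine integral_mono_of_nonneg (Eventually.of_forall fun Q => norm_nonneg _)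
      (i0.mul_const _) (Eventually.of_forall fun Q => ?_)
    change ‖(bumpK δ (cu P Q) : ℂ) * (W P - W Q)‖ ≤ bumpK δ (cu P Q) * (‖W P‖ / 2)
    rw [norm_mul, Complex.norm_real, Real.norm_of_nonneg (bumpK_nonneg _ _)]
    by_cases hQ : cu P Q < 1 + δ
    · refine mul_le_mul_of_nonneg_left ?_ (bumpK_nonneg _ _)
      have h3 : dist (W Q) (W P) < ‖W P‖ / 2 := hU Q hQ
      rw [dist_eq_norm, norm_sub_rev] at h3
      exact h3.le
    · have h3 : bumpK δ (cu P Q) = 0 := Real.smoothTransition.zero_of_nonpos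
        (div_nonpos_of_nonpos_of_nonneg (by linarith [not_lt.mp hQ]) hδ.le)
      rw [h3, zero_mul, zero_mul]
  rw [h1, integral_mul_const, norm_mul, Complex.norm_real, Real.norm_of_nonneg hI.le] at h2
  nlinarith

/-- `sph ν` on test kernels -/
def spT (ν : ℂ) (k : ℝ → ℝ) : ℂ := sph ν fun t => (k t : ℂ)

theorem hasDerivAt_hp (ν : ℂ) {y : ℝ} (hy : 0 < y) :
    HasDerivAt (fun y : ℝ => (y : ℂ) * cexp (ν * (Real.log y : ℝ)))
      ((1 + ν) * cexp (ν * (Real.log y : ℝ))) y := by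
  have hy' : (y : ℂ) ≠ 0 := by exact_mod_cast hy.ne'
  have h1 : HasDerivAt (fun y : ℝ => ν * ((Real.log y : ℝ) : ℂ)) (ν * (y⁻¹ : ℝ)) y :=
    ((Real.hasDerivAt_log hy.ne').ofReal_comp).const_mul ν
  have h2 := (hasDerivAt_ofReal y).mul h1.cexp
  refine h2.congr_deriv ?_
  push_cast
  field_simp

theorem hasDerivAt_hp' (ν : ℂ) {y : ℝ} (hy : 0 < y) :
    HasDerivAt (fun y : ℝ => (1 + ν) * cexp (ν * (Real.log y : ℝ)))
      ((1 + ν) * ν * cexp (ν * (Real.log y : ℝ)) / y) y := by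
  have hy' : (y : ℂ) ≠ 0 := by exact_mod_cast hy.ne'
  have h1 : HasDerivAt (fun y : ℝ => ν * ((Real.log y : ℝ) : ℂ)) (ν * (y⁻¹ : ℝ)) y :=
    ((Real.hasDerivAt_log hy.ne').ofReal_comp).const_mul ν
  have h2 := h1.cexp.const_mul (1 + ν)
  refine h2.congr_deriv ?_
  push_cast
  field_simp

/-- the eigenvalue of the Laplacian on `y ^ (1 + ν)` is `ν² - 1` -/
theorem nu_sq_eq {ν : ℂ} {k : ℝ → ℝ} (hk : IsTest k) (h0 : spT ν k ≠ 0) :
    ν ^ 2 = 1 + spT ν (radD k) / spT ν k := by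
  obtain ⟨ν', hν'⟩ := IsAlgClosed.exists_pow_nat_eq (1 + spT ν (radD k) / spT ν k) zero_lt_two
  have hθ : ∀ P : H3, hpow ν P = ech 0 P.z * hpow ν (ofPair (0, P.y)) := by
    intro P
    rw [ofPair_of_pos (p := ((0 : ℂ), P.y)) P.y_pos]
    simp [hpow, ech]
  obtain ⟨w', hw1, hw2⟩ := isWhit_of_eigen (μ := volume) (c := 0) (h := spT ν)
    (continuous_hpow ν) hθ (fun k hk P => Rk_hpow hk.isKer ν P) hk h0 hν'
  have e0 : ∀ y : ℝ, 0 < y → hpow ν (ofPair (0, y)) = (y : ℂ) * cexp (ν * (Real.log y : ℝ)) := by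
    intro y hy
    rw [ofPair_of_pos (p := ((0 : ℂ), y)) hy]
    rfl
  have e1 : ∀ y : ℝ, 0 < y → w' y = (1 + ν) * cexp (ν * (Real.log y : ℝ)) := by
    intro y hy
    refine (hw1 y hy).unique ((hasDerivAt_hp ν hy).congr_of_eventuallyEq ?_)
    filter_upwards [lt_mem_nhds hy] with r hr
    exact e0 r hr
  have e2 := hw2 1 one_pos
  have e3 : HasDerivAt w' ((1 + ν) * ν * cexp (ν * (Real.log 1 : ℝ)) / (1 : ℝ)) 1 := by
    refine (hasDerivAt_hp' ν one_pos).congr_of_eventuallyEq ?_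
    filter_upwards [lt_mem_nhds one_pos] with r hr
    exact e1 r hr
  have e4 := e2.unique e3
  rw [e1 1 one_pos, e0 1 one_pos] at e4
  simp at e4
  rw [← hν']
  linear_combination -e4

/-- **Uniqueness of Whittaker functions on `ℍ³`.** -/
theorem eq_whit {W : H3 → ℂ} {ν c : ℂ} (hc : c ≠ 0) (hW : IsEig W (sph ν))
    (hθ : ∀ P : H3, W P = ech c P.z * W (ofPair (0, P.y))) {d : ℝ} (hd : d < 4 * Real.pi * ‖c‖)
    (hb : (fun y : ℝ => W (ofPair (0, y))) =O[atTop] fun y => Real.exp (d * y)) :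
    ∃ a : ℂ, ∀ P, W P = a * (ech c P.z * (P.y * besselK ν (4 * Real.pi * ‖c‖ * P.y))) := by
  by_cases hex : ∃ P, W P ≠ 0
  · obtain ⟨P, hP⟩ := hex
    obtain ⟨k, hk, hk0⟩ := exists_test hW.cont hP
    have h1 : spT ν k ≠ 0 := by
      intro h
      apply hk0
      rw [hW.eig _ hk.isKer]
      have : sph ν (fun t => (k t : ℂ)) = 0 := h
      rw [this, zero_mul]
    obtain ⟨w', hw⟩ := isWhit_of_eigen (μ := volume) (h := spT ν) hW.cont hθ
      (fun k hk P => hW.eig _ hk.isKer P) hk h1 (nu_sq_eq hk h1)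
    have hc' : 0 < 4 * Real.pi * ‖c‖ := by
      have := norm_pos_iff.mpr hc
      have := Real.pi_pos
      positivity
    obtain ⟨a, ha⟩ := hw.eq_mul_of_isBigO hc' hd hb
    refine ⟨a, fun P => ?_⟩
    rw [hθ P, ha P.y P.y_pos]
    ring
  · push Not at hex
    exact ⟨0, fun P => by rw [hex P, zero_mul]⟩

/-- bounded case -/
theorem eq_whit_of_bounded {W : H3 → ℂ} {ν c : ℂ} (hc : c ≠ 0) (hW : IsEig W (sph ν))
    (hθ : ∀ P : H3, W P = ech c P.z * W (ofPair (0, P.y))) {M : ℝ} (hb : ∀ P, ‖W P‖ ≤ M) :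
    ∃ a : ℂ, ∀ P, W P = a * (ech c P.z * (P.y * besselK ν (4 * Real.pi * ‖c‖ * P.y))) := by
  have hc' : 0 < 4 * Real.pi * ‖c‖ := by
    have := norm_pos_iff.mpr hc
    have := Real.pi_pos
    positivity
  refine eq_whit hc hW hθ hc' (IsBigO.of_bound M (Eventually.of_forall fun y => ?_))
  simpa using hb _

end Fermat.Agent.LT.Kap
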