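import Fermat.Agent.LT.Kappa.Main

/-!
# Multiplicity one for `(V, χ)` and the action of an automorphism
-/

namespace Fermat.Agent.LT.Kap

open MeasureTheory Topology

variable {O Ri Rf Xi : Type*} [CommRing O] [CommRing Ri] [TopologicalSpace Ri]
  [IsTopologicalRing Ri] [CommRing Rf] [TopologicalSpace Rf] [IsTopologicalRing Rf]
  [Algebra O Ri] [Algebra O Rf]
  [MulAction (GL (Fin 2) Ri) Xi] {θ : AddChar (Ri × Rf) Circle} {lam : O → ℂ}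

/-- right equivariance under `(V, χ)` -/
def EqV (D : TyDat Rf) (ψ : Sp Xi Rf → ℂ) : Prop :=
  ∀ (z : Xi) (g v : GL (Fin 2) Rf), v ∈ D.V → ψ ⟨z, g * v⟩ = (D.chi v : ℂ) * ψ ⟨z, g⟩

theorem EqV.add {D : TyDat Rf} {ψ ψ' : Sp Xi Rf → ℂ} (h : EqV D ψ) (h' : EqV D ψ') (c c' : ℂ) :
    EqV D (fun x => c * ψ x + c' * ψ' x) := by
  intro z g v hv
  show c * ψ _ + c' * ψ' _ = _ * (c * ψ _ + c' * ψ' _)
  rw [h z g v hv, h' z g v hv]; ring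

/-- compatibility of the pair `(V, χ)` with `θ` and the point `a₀`. -/
structure TyDat.Compat (D : TyDat Rf) (θ : AddChar (Ri × Rf) Circle) (a₀ : Rfˣ) : Prop where
  θ₀ : ∀ b ∈ D.β, D.θ₀ b = θ (0, a₀ * b)
  supp : ∀ x : Rf, (∀ b ∈ D.β, θ (0, a₀ * x * b) = 1) → x ∈ D.α

variable [CompactSpace ((Ri × Rf) ⧸ lat O (Ri × Rf))]

theorem EqV.wh_right {D : TyDat Rf} {ψ : Sp Xi Rf → ℂ} (h : EqV D ψ) (a : O) (z : Xi)
    (g v : GL (Fin 2) Rf) (hv : v ∈ D.V) :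
    wh O θ ψ a (⟨z, g * v⟩ : Sp Xi Rf) = (D.chi v : ℂ) * wh O θ ψ a (⟨z, g⟩ : Sp Xi Rf) := by
  unfold wh
  rw [← coef_const_mul]
  congr 1
  ext t
  rw [smul_mk, smul_mk, ← mul_assoc, h _ _ _ hv]

/-- support and constancy of `κ ψ`. -/
theorem EqV.wh_eq (hθ : SelfDual O θ) {D : TyDat Rf} {a₀ : Rfˣ} (hD : D.Compat θ a₀)
    {ψ : Sp Xi Rf → ℂ} (h0 : IsAut (A := Ri × Rf) O ψ) (h : EqV D ψ) (z : Xi) (a : Rfˣ) :
    wh O θ ψ 1 (⟨z, dg a 1⟩ : Sp Xi Rf) = 0 ∨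
      wh O θ ψ 1 (⟨z, dg a 1⟩ : Sp Xi Rf) = wh O θ ψ 1 (⟨z, dg a₀ 1⟩ : Sp Xi Rf) := by
  by_cases h1 : wh O θ ψ 1 (⟨z, dg a 1⟩ : Sp Xi Rf) = 0
  · exact Or.inl h1
  right
  -- `a = a₀ (1 + x)` with `x ∈ α`
  have h2 : ∀ b ∈ D.β, θ (0, a₀ * b) = θ (0, a * b) := by
    intro b hb
    have e1 := wh_nn_right hθ h0 z a b
    rw [h.wh_right 1 z _ _ (D.nn_mem_V hb), D.chi_nn hb] at e1
    rw [← hD.θ₀ b hb]
    exact Circle.ext (mul_right_cancel₀ h1 e1)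
  have hx : ((a₀⁻¹ : Rfˣ) : Rf) * a - 1 ∈ D.α := by
    refine hD.supp _ fun b hb => ?_
    have e2 : (a₀ : Rf) * (((a₀⁻¹ : Rfˣ) : Rf) * a - 1) * b = a * b + -(a₀ * b) := by
      have : (a₀ : Rf) * ((a₀⁻¹ : Rfˣ) : Rf) = 1 := Units.mul_inv _
      linear_combination (a : Rf) * b * this
    rw [e2, show ((0 : Ri), (a : Rf) * b + -(a₀ * b)) =
      ((0 : Ri), (a : Rf) * b) + -((0 : Ri), (a₀ : Rf) * b) by ext <;> simp,
      AddChar.map_add_eq_mul, AddChar.map_neg_eq_inv, h2 b hb, mul_inv_cancel]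
  have hmem : dg (a₀⁻¹ * a) 1 ∈ D.V := by
    obtain ⟨x, hx'⟩ := D.dg_mem (u := a₀⁻¹ * a) (z := 1)
      ⟨_, hx, by rw [Units.val_one, Units.val_mul]; ring⟩
    exact ⟨_, _, _, _, hx'⟩
  have hchi : D.chi (dg (a₀⁻¹ * a) 1) = 1 := by
    obtain ⟨x, hx'⟩ := D.dg_mem (u := a₀⁻¹ * a) (z := 1)
      ⟨_, hx, by rw [Units.val_one, Units.val_mul]; ring⟩
    rw [hx'.chi, AddChar.map_zero_eq_one]
  have e3 : dg a (1 : Rfˣ) = dg a₀ 1 * dg (a₀⁻¹ * a) 1 := by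
    rw [dg_mul_dg, mul_inv_cancel_left, one_mul]
  rw [e3, h.wh_right 1 z _ _ hmem, hchi]
  simp

variable [IsDomain O] [IsPrincipalIdealRing O]

/-- `κ ψ (a₀) = 0` implies `ψ = 0`, for `(V, χ)`-equivariant `ψ`. -/
theorem eq_zero_of_eqV (F : Type*) [Field F] [Algebra O F] [Algebra F Rf] [IsScalarTower O F Rf]
    [IsFractionRing O F] [IsClosed (lat O (Ri × Rf) : Set (Ri × Rf))] [Nontrivial Rf]
    (hinj : Function.Injective (algebraMap O (Ri × Rf)))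
    (hθ : SelfDual O θ) (hunit : ∀ a : O, a ≠ 0 → IsUnit (algebraMap O (Ri × Rf) a))
    (hdense : DenseRange (algebraMap F Rf)) (hu : ∀ᶠ x in 𝓝 (1 : Rf), IsUnit x)
    {D : TyDat Rf} {a₀ : Rfˣ} (hD : D.Compat θ a₀) {wi : Xi → ℂ}
    {ψ : Sp Xi Rf → ℂ} (h : InW O θ lam wi ψ) (hV : EqV D ψ)
    (h0 : ∀ z : Xi, wh O θ ψ 1 (⟨z, dg a₀ 1⟩ : Sp Xi Rf) = 0) (x : Sp Xi Rf) : ψ x = 0 := by
  refine eq_zero_of_kappa F hinj hθ hunit hdense hu h.aut h.eig h.cusp h.smooth ?_ x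
  intro z a
  rcases hV.wh_eq hθ hD h.aut z a with h1 | h1
  · exact h1
  · rw [h1, h0]

/-- **Multiplicity one**: the `(V, χ)`-equivariant part of `W` has dimension at most one. -/
theorem exists_smul_eq (F : Type*) [Field F] [Algebra O F] [Algebra F Rf] [IsScalarTower O F Rf]
    [IsFractionRing O F] [IsClosed (lat O (Ri × Rf) : Set (Ri × Rf))] [Nontrivial Rf]
    (hinj : Function.Injective (algebraMap O (Ri × Rf)))
    (hθ : SelfDual O θ) (hunit : ∀ a : O, a ≠ 0 → IsUnit (algebraMap O (Ri × Rf) a))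
    (hdense : DenseRange (algebraMap F Rf)) (hu : ∀ᶠ x in 𝓝 (1 : Rf), IsUnit x)
    {D : TyDat Rf} {a₀ : Rfˣ} (hD : D.Compat θ a₀) {wi : Xi → ℂ}
    {ψ ψ' : Sp Xi Rf → ℂ} (h : InW O θ lam wi ψ) (hV : EqV D ψ) (h' : InW O θ lam wi ψ')
    (hV' : EqV D ψ') (hne : ∃ x, ψ x ≠ 0) : ∃ c : ℂ, ∀ x, ψ' x = c * ψ x := by
  obtain ⟨c, hc⟩ := h.line (dg a₀ 1)
  obtain ⟨c', hc'⟩ := h'.line (dg a₀ 1)
  have hc0 : c ≠ 0 := by
    rintro rfl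
    obtain ⟨x, hx⟩ := hne
    exact hx (eq_zero_of_eqV F hinj hθ hunit hdense hu hD h hV
      (fun z => by rw [hc, zero_mul]) x)
  refine ⟨c' / c, fun x => ?_⟩
  have h1 := eq_zero_of_eqV F hinj hθ hunit hdense hu hD (h'.add hθ h 1 (-(c' / c)))
    (hV'.add hV 1 (-(c' / c))) (fun z => by
      rw [wh_add hθ h'.aut h.aut, hc, hc']; field_simp; ring) x
  linear_combination h1

/-- non-vanishing at the base point. -/
theorem wh_ne_zero (F : Type*) [Field F] [Algebra O F] [Algebra F Rf] [IsScalarTower O F Rf]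
    [IsFractionRing O F] [IsClosed (lat O (Ri × Rf) : Set (Ri × Rf))] [Nontrivial Rf]
    (hinj : Function.Injective (algebraMap O (Ri × Rf)))
    (hθ : SelfDual O θ) (hunit : ∀ a : O, a ≠ 0 → IsUnit (algebraMap O (Ri × Rf) a))
    (hdense : DenseRange (algebraMap F Rf)) (hu : ∀ᶠ x in 𝓝 (1 : Rf), IsUnit x)
    {D : TyDat Rf} {a₀ : Rfˣ} (hD : D.Compat θ a₀) {wi : Xi → ℂ}
    {ψ : Sp Xi Rf → ℂ} (h : InW O θ lam wi ψ) (hV : EqV D ψ) (hne : ∃ x, ψ x ≠ 0)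
    {z : Xi} (hz : wi z ≠ 0) : wh O θ ψ 1 (⟨z, dg a₀ 1⟩ : Sp Xi Rf) ≠ 0 := by
  obtain ⟨c, hc⟩ := h.line (dg a₀ 1)
  intro h0
  rw [hc] at h0
  have hc0 : c = 0 := (mul_eq_zero.mp h0).resolve_right hz
  obtain ⟨x, hx⟩ := hne
  exact hx (eq_zero_of_eqV F hinj hθ hunit hdense hu hD h hV (fun z => by
    rw [hc, hc0, zero_mul]) x)

end Fermat.Agent.LT.Kap
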