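import Fermat.Agent.LT.H3.Basic

/-!
# Integrals over `ℍ³` depending on a real parameter, test kernels
-/

set_option autoImplicit false

open MeasureTheory Set Filter Topology Complex

noncomputable section

namespace Fermat.Agent.LT.Kap

open H3

/-- Smooth kernels which vanish for large values of `cosh d`. -/
structure IsTest (k : ℝ → ℝ) : Prop where
  smooth : ContDiff ℝ (⊤ : ℕ∞) k
  supp : ∃ C : ℝ, ∀ t : ℝ, C ≤ t → k t = 0

/-- The radial part of the Laplacian: `(u² - 1) k'' + 3 u k'`. -/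
def radD (k : ℝ → ℝ) : ℝ → ℝ := fun u => (u ^ 2 - 1) * deriv (deriv k) u + 3 * u * deriv k u

theorem contDiff_deriv {k : ℝ → ℝ} (h : ContDiff ℝ (⊤ : ℕ∞) k) :
    ContDiff ℝ (⊤ : ℕ∞) (deriv k) := by
  exact (contDiff_infty_iff_deriv.mp h).2

theorem IsTest.deriv {k : ℝ → ℝ} (h : IsTest k) : IsTest (deriv k) := by
  obtain ⟨C, hC⟩ := h.supp
  refine ⟨contDiff_deriv h.smooth, C + 1, fun t ht => ?_⟩
  have h1 : k =ᶠ[𝓝 t] fun _ => 0 := by
    filter_upwards [lt_mem_nhds (show C < t by linarith)] with s hs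
    exact hC s hs.le
  rw [h1.deriv_eq, deriv_const]

theorem IsTest.radD {k : ℝ → ℝ} (h : IsTest k) : IsTest (radD k) := by
  obtain ⟨C₁, hC₁⟩ := h.deriv.supp
  obtain ⟨C₂, hC₂⟩ := h.deriv.deriv.supp
  refine ⟨?_, max C₁ C₂, fun t ht => ?_⟩
  · have h1 := h.deriv.smooth
    have h2 := h.deriv.deriv.smooth
    exact (((contDiff_id.pow 2).sub contDiff_const).mul h2).add
      ((contDiff_const.mul contDiff_id).mul h1)
  · simp only [Kap.radD]
    rw [hC₁ t ((le_max_left _ _).trans ht), hC₂ t ((le_max_right _ _).trans ht)]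
    ring

theorem IsTest.continuous {k : ℝ → ℝ} (h : IsTest k) : Continuous k := h.smooth.continuous

theorem IsTest.hasDerivAt {k : ℝ → ℝ} (h : IsTest k) (u : ℝ) : HasDerivAt k (_root_.deriv k u) u :=
  ((h.smooth.differentiable (by simp)) u).hasDerivAt

/-- If `P` runs through a compact set and `cosh d(P, Q) ≤ C`, then `Q` stays in a compact set. -/
theorem exists_isCompact_of_cu_le {S : Set H3} (hS : IsCompact S) (C : ℝ) :
    ∃ T : Set H3, IsCompact T ∧ ∀ P ∈ S, ∀ Q, cu P Q ≤ C → Q ∈ T := by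
  rcases S.eq_empty_or_nonempty with rfl | hne
  · exact ⟨∅, isCompact_empty, fun P hP => absurd hP (notMem_empty P)⟩
  by_cases hC : C < 1
  · exact ⟨∅, isCompact_empty, fun P _ Q h => absurd (h.trans_lt hC) (not_lt.mpr (one_le_cu P Q))⟩
  rw [not_lt] at hC
  obtain ⟨P₁, hP₁, h₁⟩ := hS.exists_isMinOn hne continuous_y.continuousOn
  obtain ⟨P₂, hP₂, h₂⟩ := hS.exists_isMaxOn hne continuous_y.continuousOn
  obtain ⟨A, hA⟩ := hS.exists_bound_of_continuousOn continuous_z.continuousOn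
  have ha := P₁.y_pos
  have hb := P₂.y_pos
  have hC0 : 0 < C := one_pos.trans_le hC
  have hK : IsCompact ((Metric.closedBall (0 : ℂ) (A + 2 * C * P₂.y)) ×ˢ
      (Set.Icc (P₁.y / (2 * C)) (2 * C * P₂.y))) :=
    (isCompact_closedBall _ _).prod isCompact_Icc
  have hsub : ((Metric.closedBall (0 : ℂ) (A + 2 * C * P₂.y)) ×ˢ
      (Set.Icc (P₁.y / (2 * C)) (2 * C * P₂.y))) ⊆ Set.range coe := by
    rw [range_coe]
    rintro ⟨a, b⟩ ⟨-, hb'⟩
    have : 0 < P₁.y / (2 * C) := by positivity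
    exact this.trans_le hb'.1
  refine ⟨_, isOpenEmbedding_coe.isInducing.isCompact_preimage' hK hsub, fun P hP Q hQ => ?_⟩
  have hPa : P₁.y ≤ P.y := h₁ hP
  have hPb : P.y ≤ P₂.y := h₂ hP
  have h3 := y_le_of_cu_le hQ
  have h4 := y_le_of_cu_le (P := Q) (Q := P) (R := C) (by rw [cu_comm]; exact hQ)
  have h5 := normSq_le_of_cu_le hQ
  have hQy := Q.y_pos
  have h6 : Q.y ≤ 2 * C * P₂.y := h3.trans (by gcongr)
  refine ⟨?_, ?_, h6⟩
  · rw [mem_closedBall_zero_iff, coe_fst]
    have h7 : ‖P.z - Q.z‖ ≤ 2 * C * P₂.y := by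
      refine abs_le_of_sq_le_sq' ?_ (by positivity) |>.2
      rw [← normSq_eq_norm_sq]
      calc _ ≤ _ := h5
        _ ≤ 2 * C * P₂.y * (2 * C * P₂.y) := by gcongr
        _ = _ := by ring
    calc ‖Q.z‖ = ‖P.z - (P.z - Q.z)‖ := by congr 1; ring
      _ ≤ ‖P.z‖ + ‖P.z - Q.z‖ := norm_sub_le _ _
      _ ≤ _ := add_le_add (hA P hP) h7
  · rw [coe_snd, div_le_iff₀ (by positivity)]
    linarith

variable [MeasurableSpace H3] [BorelSpace H3] {μ : Measure H3} [IsFiniteMeasureOnCompacts μ]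

theorem integrable_of_support {E : Type*} [NormedAddCommGroup E] {f : H3 → E} {T : Set H3}
    (hT : IsCompact T) (hf : Continuous f) (h0 : ∀ q ∉ T, f q = 0) : Integrable f μ := by
  have hc : HasCompactSupport f := by
    refine HasCompactSupport.of_support_subset_isCompact hT ?_
    intro q hq
    by_contra h
    exact hq (h0 q h)
  exact hf.integrable_of_hasCompactSupport hc

/-- Differentiation under the integral sign. -/
theorem hasDerivAt_integral {F F' : ℝ → H3 → ℝ} {W : H3 → ℂ} {t₀ ε : ℝ} (hε : 0 < ε)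
    (hF : ∀ t ∈ Metric.closedBall t₀ ε, ∀ q, HasDerivAt (fun t => F t q) (F' t q) t)
    (hFc : ∀ t ∈ Metric.closedBall t₀ ε, Continuous (F t))
    (hF'c : ContinuousOn (fun p : ℝ × H3 => F' p.1 p.2) (Metric.closedBall t₀ ε ×ˢ univ))
    {T : Set H3} (hT : IsCompact T)
    (h0 : ∀ t ∈ Metric.closedBall t₀ ε, ∀ q ∉ T, F t q = 0)
    (h0' : ∀ t ∈ Metric.closedBall t₀ ε, ∀ q ∉ T, F' t q = 0) (hW : Continuous W) :
    HasDerivAt (fun t => ∫ q, (F t q : ℂ) * W q ∂μ) (∫ q, (F' t₀ q : ℂ) * W q ∂μ) t₀ := by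
  have hmem : t₀ ∈ Metric.closedBall t₀ ε := Metric.mem_closedBall_self hε.le
  obtain ⟨M, hM⟩ := ((isCompact_closedBall t₀ ε).prod hT).exists_bound_of_continuousOn
    (hF'c.mono (prod_mono_right (subset_univ T)))
  obtain ⟨B, hB⟩ := hT.exists_bound_of_continuousOn hW.continuousOn
  have hTm : MeasurableSet T := hT.isClosed.measurableSet
  have hF'c0 : Continuous (F' t₀) := by
    rw [← continuousOn_univ]
    exact hF'c.comp (f := fun q : H3 => (t₀, q)) (by fun_prop) (fun q _ => ⟨hmem, mem_univ q⟩)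
  have key := hasDerivAt_integral_of_dominated_loc_of_deriv_le (μ := μ) (𝕜 := ℝ)
    (F := fun t q => (F t q : ℂ) * W q) (F' := fun t q => (F' t q : ℂ) * W q)
    (x₀ := t₀) (s := Metric.ball t₀ ε) (bound := T.indicator fun _ => M * B)
    (Metric.ball_mem_nhds t₀ hε) ?_ ?_ ?_ ?_ ?_ ?_
  · exact key.2
  · filter_upwards [Metric.ball_mem_nhds t₀ hε] with t ht
    exact ((continuous_ofReal.comp (hFc t (Metric.ball_subset_closedBall ht))).mul
      hW).aestronglyMeasurable
  · refine integrable_of_support hT ((continuous_ofReal.comp (hFc t₀ hmem)).mul hW) fun q hq => ?_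
    simp [h0 t₀ hmem q hq]
  · exact ((continuous_ofReal.comp hF'c0).mul hW).aestronglyMeasurable
  · refine Eventually.of_forall fun q t ht => ?_
    have ht' := Metric.ball_subset_closedBall ht
    by_cases hq : q ∈ T
    · rw [indicator_of_mem hq, norm_mul, Complex.norm_real]
      exact mul_le_mul (hM (t, q) ⟨ht', hq⟩) (hB q hq) (norm_nonneg _)
        ((norm_nonneg _).trans (hM (t, q) ⟨ht', hq⟩))
    · rw [indicator_of_notMem hq, h0' t ht' q hq]
      simp
  · exact (integrable_indicator_iff hTm).mpr (integrableOn_const hT.measure_lt_top.ne)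
  · refine Eventually.of_forall fun q t ht => ?_
    have h1 := (hF t (Metric.ball_subset_closedBall ht) q)
    exact h1.ofReal_comp.mul_const (W q)

end Fermat.Agent.LT.Kap
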