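import Fermat.Agent.LT.Kappa.Param
import Fermat.Agent.LT.BesselH3

/-!
# Equivariant eigenfunctions of the radial kernels on `ℍ³`: one variable

`W : ℍ³ → ℂ` continuous, `W(z, y) = e(2 Re(c z)) W(0, y)`, eigenfunction of all smooth radial
kernels: then `W(0, y)` satisfies the Whittaker equation.
-/

set_option autoImplicit false
set_option linter.unusedSectionVars false

open MeasureTheory Set Filter Topology Complex

noncomputable section

namespace Fermat.Agent.LT.Kap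

open H3

variable [MeasurableSpace H3] [BorelSpace H3] {μ : Measure H3} [IsFiniteMeasureOnCompacts μ]

omit [MeasurableSpace H3] [BorelSpace H3] in
/-- The uniform support of a test kernel along a compact piece of a curve. -/
theorem exists_support {γ : ℝ → H3} {t ε : ℝ} (hγ : ContinuousOn γ (Metric.closedBall t ε))
    {k : ℝ → ℝ} (hk : IsTest k) :
    ∃ T : Set H3, IsCompact T ∧ ∀ r ∈ Metric.closedBall t ε, ∀ q ∉ T,
      k (cu (γ r) q) = 0 ∧ deriv k (cu (γ r) q) = 0 ∧ deriv (deriv k) (cu (γ r) q) = 0 := by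
  obtain ⟨C0, hC0⟩ := hk.supp
  obtain ⟨C1, hC1⟩ := hk.deriv.supp
  obtain ⟨C2, hC2⟩ := hk.deriv.deriv.supp
  obtain ⟨T, hT, hTs⟩ := exists_isCompact_of_cu_le
    ((isCompact_closedBall t ε).image_of_continuousOn hγ) (max C0 (max C1 C2))
  refine ⟨T, hT, fun r hr q hq => ?_⟩
  have hlt : max C0 (max C1 C2) ≤ cu (γ r) q := by
    by_contra hcon
    exact hq (hTs _ (mem_image_of_mem γ hr) q (not_le.mp hcon).le)
  exact ⟨hC0 _ ((le_max_left _ _).trans hlt),
    hC1 _ (((le_max_left _ _).trans (le_max_right _ _)).trans hlt),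
    hC2 _ (((le_max_right _ _).trans (le_max_right _ _)).trans hlt)⟩

omit [MeasurableSpace H3] [BorelSpace H3] in
theorem continuousOn_cu_curve {s : Set ℝ} {γ : ℝ → H3} (hγ : ContinuousOn γ s) :
    ContinuousOn (fun p : ℝ × H3 => cu (γ p.1) p.2) (s ×ˢ univ) := by
  have h0 : ContinuousOn (fun p : ℝ × H3 => γ p.1) (s ×ˢ univ) :=
    hγ.comp continuousOn_fst (fun p hp => hp.1)
  have h1 : ContinuousOn (fun p : ℝ × H3 => (γ p.1, p.2)) (s ×ˢ univ) :=
    h0.prodMk continuousOn_snd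
  have h2 := Continuous.comp_continuousOn (g := fun p : H3 × H3 => cu p.1 p.2) continuous_cu h1
  exact h2

omit [MeasurableSpace H3] [BorelSpace H3] in
theorem continuous_slice {s : Set ℝ} {f : ℝ × H3 → ℝ} (hf : ContinuousOn f (s ×ˢ univ)) {r : ℝ}
    (hr : r ∈ s) : Continuous fun q => f (r, q) := by
  rw [← continuousOn_univ]
  exact hf.comp (f := fun q : H3 => (r, q)) (by fun_prop) (fun q _ => ⟨hr, mem_univ q⟩)

/-- Two derivatives of `t ↦ ∫ k(cosh d(γ(t), q)) W(q) dq` along a curve `γ`. -/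
theorem hasDerivAt_curve {s : Set ℝ} (hs : IsOpen s) {γ : ℝ → H3} (hγ : ContinuousOn γ s)
    {U1 U2 : ℝ → H3 → ℝ}
    (h1 : ∀ t ∈ s, ∀ q, HasDerivAt (fun t => cu (γ t) q) (U1 t q) t)
    (h2 : ∀ t ∈ s, ∀ q, HasDerivAt (fun t => U1 t q) (U2 t q) t)
    (c1 : ContinuousOn (fun p : ℝ × H3 => U1 p.1 p.2) (s ×ˢ univ))
    (c2 : ContinuousOn (fun p : ℝ × H3 => U2 p.1 p.2) (s ×ˢ univ))
    {k : ℝ → ℝ} (hk : IsTest k) {W : H3 → ℂ} (hW : Continuous W) {t : ℝ} (ht : t ∈ s) :
    HasDerivAt (fun t => ∫ q, (k (cu (γ t) q) : ℂ) * W q ∂μ)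
        (∫ q, ((deriv k (cu (γ t) q) * U1 t q : ℝ) : ℂ) * W q ∂μ) t ∧
      HasDerivAt (fun t => ∫ q, ((deriv k (cu (γ t) q) * U1 t q : ℝ) : ℂ) * W q ∂μ)
        (∫ q, ((deriv (deriv k) (cu (γ t) q) * U1 t q ^ 2 + deriv k (cu (γ t) q) * U2 t q : ℝ) : ℂ)
          * W q ∂μ) t := by
  obtain ⟨ε, hε, hsub⟩ := Metric.nhds_basis_closedBall.mem_iff.mp (hs.mem_nhds ht)
  obtain ⟨T, hT, hTs⟩ := exists_support (hγ.mono hsub) hk
  have hc0 := continuousOn_cu_curve hγ
  have hk1 : Continuous (deriv k) := hk.deriv.continuous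
  have hk2 : Continuous (deriv (deriv k)) := hk.deriv.deriv.continuous
  have hsub' : Metric.closedBall t ε ×ˢ (univ : Set H3) ⊆ s ×ˢ univ := prod_mono_left hsub
  have g1 : ContinuousOn (fun p : ℝ × H3 => deriv k (cu (γ p.1) p.2)) (s ×ˢ univ) :=
    Continuous.comp_continuousOn (g := deriv k) hk1 hc0
  have g2 : ContinuousOn (fun p : ℝ × H3 => deriv (deriv k) (cu (γ p.1) p.2)) (s ×ˢ univ) :=
    Continuous.comp_continuousOn (g := deriv (deriv k)) hk2 hc0
  have d1 : ContinuousOn (fun p : ℝ × H3 => deriv k (cu (γ p.1) p.2) * U1 p.1 p.2)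
      (s ×ˢ univ) := g1.mul c1
  have d2 : ContinuousOn (fun p : ℝ × H3 => deriv (deriv k) (cu (γ p.1) p.2) * U1 p.1 p.2 ^ 2 +
      deriv k (cu (γ p.1) p.2) * U2 p.1 p.2) (s ×ˢ univ) :=
    (g2.mul (c1.pow 2)).add (g1.mul c2)
  constructor
  · refine hasDerivAt_integral (F := fun t q => k (cu (γ t) q))
      (F' := fun t q => deriv k (cu (γ t) q) * U1 t q) hε ?_ ?_ (d1.mono hsub') hT
      (fun r hr q hq => (hTs r hr q hq).1) ?_ hW
    · intro r hr q
      exact HasDerivAt.comp (h₂ := k) r (hk.hasDerivAt _) (h1 r (hsub hr) q)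
    · intro r hr
      exact Continuous.comp (g := k) hk.continuous (continuous_cu_right (γ r))
    · intro r hr q hq
      rw [(hTs r hr q hq).2.1, zero_mul]
  · refine hasDerivAt_integral (F := fun t q => deriv k (cu (γ t) q) * U1 t q)
      (F' := fun t q => deriv (deriv k) (cu (γ t) q) * U1 t q ^ 2 + deriv k (cu (γ t) q) * U2 t q)
      hε ?_ (fun r hr => continuous_slice d1 (hsub hr)) (d2.mono hsub') hT ?_ ?_ hW
    · intro r hr q
      have e1 : HasDerivAt (fun t => deriv k (cu (γ t) q))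
          (deriv (deriv k) (cu (γ r) q) * U1 r q) r :=
        HasDerivAt.comp (h₂ := deriv k) r (hk.deriv.hasDerivAt _) (h1 r (hsub hr) q)
      have e2 := e1.mul (h2 r (hsub hr) q)
      refine e2.congr_deriv ?_
      ring
    · intro r hr q hq
      rw [(hTs r hr q hq).2.1, zero_mul]
    · intro r hr q hq
      rw [(hTs r hr q hq).2.1, (hTs r hr q hq).2.2, zero_mul, zero_mul, add_zero]

/-! ### The three curves -/

omit [MeasurableSpace H3] [BorelSpace H3] in
theorem hasDerivAt_cu_re (y : ℝ) (hy : 0 < y) (q : H3) (t : ℝ) :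
    HasDerivAt (fun t : ℝ => cu (mk (t : ℂ) y hy) q) ((t - q.z.re) / (y * q.y)) t := by
  have hq := q.y_ne
  have : HasDerivAt (fun t : ℝ => ((t - q.z.re) * (t - q.z.re) + q.z.im * q.z.im + y ^ 2 + q.y ^ 2) /
      (2 * y * q.y)) ((1 * (t - q.z.re) + (t - q.z.re) * 1) / (2 * y * q.y)) t := by
    have h1 : HasDerivAt (fun t : ℝ => t - q.z.re) 1 t := (hasDerivAt_id t).sub_const _
    exact ((((h1.mul h1).add_const _).add_const _).add_const _).div_const _
  convert! this using 1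
  · ext t
    simp only [cu, z_mk, y_mk, normSq_apply, sub_re, sub_im, ofReal_re, ofReal_im]
    ring
  · field_simp
    ring

omit [MeasurableSpace H3] [BorelSpace H3] in
theorem hasDerivAt_cu_im (y : ℝ) (hy : 0 < y) (q : H3) (t : ℝ) :
    HasDerivAt (fun t : ℝ => cu (mk (t * I : ℂ) y hy) q) ((t - q.z.im) / (y * q.y)) t := by
  have hq := q.y_ne
  have : HasDerivAt (fun t : ℝ => ((t - q.z.im) * (t - q.z.im) + q.z.re * q.z.re + y ^ 2 + q.y ^ 2) /
      (2 * y * q.y)) ((1 * (t - q.z.im) + (t - q.z.im) * 1) / (2 * y * q.y)) t := by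
    have h1 : HasDerivAt (fun t : ℝ => t - q.z.im) 1 t := (hasDerivAt_id t).sub_const _
    exact ((((h1.mul h1).add_const _).add_const _).add_const _).div_const _
  convert! this using 1
  · ext t
    simp only [cu, z_mk, y_mk, normSq_apply, sub_re, sub_im, mul_re, mul_im, ofReal_re, ofReal_im,
      I_re, I_im]
    ring
  · field_simp
    ring

omit [MeasurableSpace H3] [BorelSpace H3] in
theorem hasDerivAt_cu_y (q : H3) {t : ℝ} (ht : 0 < t) :
    HasDerivAt (fun t : ℝ => cu (ofPair (0, t)) q) (1 / q.y - cu (ofPair (0, t)) q / t) t := by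
  have hq := q.y_ne
  have h1 : HasDerivAt (fun t : ℝ => (normSq q.z + t ^ 2 + q.y ^ 2) / (2 * t * q.y))
      (((2 * t) * (2 * t * q.y) - (normSq q.z + t ^ 2 + q.y ^ 2) * (2 * q.y)) /
        (2 * t * q.y) ^ 2) t := by
    have h2 : HasDerivAt (fun t : ℝ => normSq q.z + t ^ 2 + q.y ^ 2) (2 * t) t := by
      have := ((hasDerivAt_pow 2 t).const_add (normSq q.z)).add_const (q.y ^ 2)
      convert! this using 1
      simp
    have h3 : HasDerivAt (fun t : ℝ => 2 * t * q.y) (2 * q.y) t := by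
      have := ((hasDerivAt_id t).const_mul 2).mul_const q.y
      convert! this using 1
      ring
    exact h2.div h3 (by positivity)
  have h4 : (fun t : ℝ => cu (ofPair (0, t)) q) =ᶠ[𝓝 t]
      fun t : ℝ => (normSq q.z + t ^ 2 + q.y ^ 2) / (2 * t * q.y) := by
    filter_upwards [lt_mem_nhds ht] with r hr
    rw [ofPair_of_pos (p := ((0 : ℂ), r)) hr]
    simp [cu]
  refine (h1.congr_of_eventuallyEq h4).congr_deriv ?_
  rw [ofPair_of_pos (p := ((0 : ℂ), t)) ht]
  simp only [cu, z_mk, y_mk, zero_sub, normSq_neg]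
  field_simp

/-! ### The second derivatives -/

theorem hasDerivAt_cexp_mul (α : ℝ) (H : ℂ) (t : ℝ) :
    HasDerivAt (fun t : ℝ => H * cexp (α * t * I)) (H * (α * I) * cexp (α * t * I)) t := by
  have h1 : HasDerivAt (fun t : ℝ => (α : ℂ) * t * I) (α * I) t := by
    have := ((hasDerivAt_ofReal t).const_mul (α : ℂ)).mul_const I
    convert! this using 1
    ring
  have h2 := (h1.cexp).const_mul H
  convert! h2 using 1
  ring

theorem integral_dir {γ : ℝ → H3} (hγ : Continuous γ) {U1 U2 : ℝ → H3 → ℝ}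
    (h1 : ∀ t q, HasDerivAt (fun t => cu (γ t) q) (U1 t q) t)
    (h2 : ∀ t q, HasDerivAt (fun t => U1 t q) (U2 t q) t)
    (c1 : Continuous (fun p : ℝ × H3 => U1 p.1 p.2))
    (c2 : Continuous (fun p : ℝ × H3 => U2 p.1 p.2))
    {k : ℝ → ℝ} (hk : IsTest k) {W : H3 → ℂ} (hW : Continuous W) {α : ℝ} {H : ℂ}
    (hA : ∀ t : ℝ, ∫ q, (k (cu (γ t) q) : ℂ) * W q ∂μ = H * cexp (α * t * I)) :
    ∫ q, ((deriv (deriv k) (cu (γ 0) q) * U1 0 q ^ 2 + deriv k (cu (γ 0) q) * U2 0 q : ℝ) : ℂ)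
      * W q ∂μ = -(α ^ 2 : ℝ) * H := by
  have hd : ∀ t : ℝ, _ ∧ _ := fun t => hasDerivAt_curve (μ := μ) isOpen_univ hγ.continuousOn
    (fun t _ q => h1 t q) (fun t _ q => h2 t q) c1.continuousOn c2.continuousOn hk hW (mem_univ t)
  have e1 : ∀ t : ℝ, (∫ q, ((deriv k (cu (γ t) q) * U1 t q : ℝ) : ℂ) * W q ∂μ) =
      H * (α * I) * cexp (α * t * I) := by
    intro t
    refine (hd t).1.unique ?_
    have : (fun t => ∫ q, (k (cu (γ t) q) : ℂ) * W q ∂μ) =
        fun t : ℝ => H * cexp (α * t * I) := funext hA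
    rw [this]
    exact hasDerivAt_cexp_mul α H t
  have e2 := (hd 0).2
  rw [show (fun t => ∫ q, ((deriv k (cu (γ t) q) * U1 t q : ℝ) : ℂ) * W q ∂μ) =
    fun t : ℝ => H * (α * I) * cexp (α * t * I) from funext e1] at e2
  rw [e2.unique (hasDerivAt_cexp_mul α (H * (α * I)) 0)]
  push_cast
  rw [mul_zero, zero_mul, Complex.exp_zero]
  linear_combination (H * (α : ℂ) ^ 2) * I_mul_I

/-- `e(2 Re(c z))` -/
def ech (c z : ℂ) : ℂ := cexp (2 * Real.pi * I * (2 * (c * z).re : ℝ))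

theorem ech_zero (c : ℂ) : ech c 0 = 1 := by simp [ech]

theorem ech_ne_zero (c z : ℂ) : ech c z ≠ 0 := Complex.exp_ne_zero _

theorem norm_ech (c z : ℂ) : ‖ech c z‖ = 1 := by
  rw [ech, show (2 * Real.pi * I * (2 * (c * z).re : ℝ) : ℂ) =
    ((2 * Real.pi * (2 * (c * z).re) : ℝ) : ℂ) * I by push_cast; ring]
  exact norm_exp_ofReal_mul_I _

theorem ech_re (c : ℂ) (t : ℝ) : ech c t = cexp ((4 * Real.pi * c.re : ℝ) * t * I) := by
  rw [ech]
  congr 1
  simp only [mul_re, ofReal_re, ofReal_im]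
  push_cast
  ring

theorem ech_im (c : ℂ) (t : ℝ) : ech c (t * I) = cexp ((-(4 * Real.pi * c.im) : ℝ) * t * I) := by
  rw [ech]
  congr 1
  simp only [mul_re, mul_im, ofReal_re, ofReal_im, I_re, I_im]
  push_cast
  ring

theorem continuous_ech (c : ℂ) : Continuous (ech c) := by
  unfold ech
  fun_prop

variable {W : H3 → ℂ} {c : ℂ} {h : (ℝ → ℝ) → ℂ}

theorem radD_eq {k : ℝ → ℝ} {y : ℝ} (hy : 0 < y) (q : H3) :
    radD k (cu (mk 0 y hy) q) =
      y ^ 2 * (deriv (deriv k) (cu (mk 0 y hy) q) * ((0 - q.z.re) / (y * q.y)) ^ 2 +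
        deriv k (cu (mk 0 y hy) q) * (1 / (y * q.y)) +
        (deriv (deriv k) (cu (mk 0 y hy) q) * ((0 - q.z.im) / (y * q.y)) ^ 2 +
          deriv k (cu (mk 0 y hy) q) * (1 / (y * q.y))) +
        (deriv (deriv k) (cu (mk 0 y hy) q) * (1 / q.y - cu (mk 0 y hy) q / y) ^ 2 +
          deriv k (cu (mk 0 y hy) q) * (-1 / (y * q.y) + 2 * cu (mk 0 y hy) q / y ^ 2))) -
      y * (deriv k (cu (mk 0 y hy) q) * (1 / q.y - cu (mk 0 y hy) q / y)) := by
  have hq := q.y_ne
  have hu : q.z.re * q.z.re + q.z.im * q.z.im =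
      2 * cu (mk 0 y hy) q * y * q.y - y ^ 2 - q.y ^ 2 := by
    simp only [cu, z_mk, y_mk, zero_sub, normSq_neg]
    rw [normSq_apply]
    field_simp
    ring
  generalize cu (mk 0 y hy) q = u at *
  unfold radD
  generalize deriv (deriv k) u = k2
  generalize deriv k u = k1
  field_simp
  linear_combination (-k2) * hu

theorem integral_combination {F₁ F₂ F₃ F₄ : H3 → ℂ} (h₁ : Integrable F₁ μ) (h₂ : Integrable F₂ μ)
    (h₃ : Integrable F₃ μ) (h₄ : Integrable F₄ μ) (a b : ℂ) :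
    ∫ q, (a * (F₁ q + F₂ q + F₃ q) - b * F₄ q) ∂μ =
      a * ((∫ q, F₁ q ∂μ) + (∫ q, F₂ q ∂μ) + ∫ q, F₃ q ∂μ) - b * ∫ q, F₄ q ∂μ := by
  have e1 : Integrable (fun q => F₁ q + F₂ q) μ := h₁.add h₂
  have e2 : Integrable (fun q => F₁ q + F₂ q + F₃ q) μ := e1.add h₃
  rw [integral_sub (e2.const_mul a) (h₄.const_mul b), integral_const_mul,
    integral_const_mul, integral_add e1 h₃, integral_add h₁ h₂]

/-- The Whittaker equation. -/
theorem isWhit_of_eigen (hW : Continuous W) (hθ : ∀ P : H3, W P = ech c P.z * W (ofPair (0, P.y)))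
    (heig : ∀ k, IsTest k → ∀ P, ∫ q, (k (cu P q) : ℂ) * W q ∂μ = h k * W P)
    {k : ℝ → ℝ} (hk : IsTest k) (hk0 : h k ≠ 0) {ν : ℂ} (hν : ν ^ 2 = 1 + h (radD k) / h k) :
    ∃ w' : ℝ → ℂ, IsWhit ν (4 * Real.pi * ‖c‖) (fun y => W (ofPair (0, y))) w' := by
  -- the vertical curve
  have hγc : ContinuousOn (fun t : ℝ => ofPair ((0 : ℂ), t)) (Ioi 0) := by
    intro t ht
    refine ContinuousAt.continuousWithinAt ?_
    rw [isOpenEmbedding_coe.isInducing.continuousAt_iff]
    refine ContinuousAt.congr (f := fun t : ℝ => ((0 : ℂ), t)) (by fun_prop) ?_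
    filter_upwards [lt_mem_nhds (mem_Ioi.mp ht)] with r hr
    simp only [Function.comp_apply]
    rw [coe_ofPair (p := ((0 : ℂ), r)) hr]
  have hcuc := continuousOn_cu_curve hγc
  have hy1 : ContinuousOn (fun p : ℝ × H3 => 1 / p.2.y) (Ioi 0 ×ˢ univ) :=
    (continuous_const.div (continuous_y.comp continuous_snd) fun p => p.2.y_ne).continuousOn
  have hfst : ContinuousOn (fun p : ℝ × H3 => p.1) (Ioi 0 ×ˢ univ) := continuousOn_fst
  have hne : ∀ p ∈ (Ioi (0 : ℝ)) ×ˢ (univ : Set H3), p.1 ≠ 0 := fun p hp => (mem_Ioi.mp hp.1).ne'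
  have c1 : ContinuousOn (fun p : ℝ × H3 => 1 / p.2.y - cu (ofPair (0, p.1)) p.2 / p.1)
      (Ioi 0 ×ˢ univ) := hy1.sub (hcuc.div hfst hne)
  have c2 : ContinuousOn (fun p : ℝ × H3 => -1 / (p.1 * p.2.y) +
      2 * cu (ofPair (0, p.1)) p.2 / p.1 ^ 2) (Ioi 0 ×ˢ univ) := by
    refine ContinuousOn.add ?_ ?_
    · exact continuousOn_const.div (hfst.mul (continuous_y.comp continuous_snd).continuousOn)
        fun p hp => mul_ne_zero (hne p hp) p.2.y_ne
    · exact (continuousOn_const.mul hcuc).div (hfst.pow 2) fun p hp => pow_ne_zero 2 (hne p hp)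
  have h2 : ∀ t ∈ Ioi (0 : ℝ), ∀ q : H3, HasDerivAt
      (fun t : ℝ => 1 / q.y - cu (ofPair (0, t)) q / t)
      (-1 / (t * q.y) + 2 * cu (ofPair (0, t)) q / t ^ 2) t := by
    intro t ht q
    have ht' : t ≠ 0 := (mem_Ioi.mp ht).ne'
    have hq := q.y_ne
    have := ((hasDerivAt_cu_y q ht).div (hasDerivAt_id t) ht').const_sub (1 / q.y)
    refine this.congr_deriv ?_
    simp only [id]
    field_simp
    ring
  have hd : ∀ t : ℝ, 0 < t → _ ∧ _ := fun t ht => hasDerivAt_curve (μ := μ) isOpen_Ioi hγc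
    (fun t ht q => hasDerivAt_cu_y q ht) h2 c1 c2 hk hW (mem_Ioi.mpr ht)
  set D1 : ℝ → ℂ := fun t => ∫ q, ((deriv k (cu (ofPair (0, t)) q) *
    (1 / q.y - cu (ofPair (0, t)) q / t) : ℝ) : ℂ) * W q ∂μ with hD1
  have hA : ∀ t : ℝ, ∫ q, (k (cu (ofPair (0, t)) q) : ℂ) * W q ∂μ = h k * W (ofPair (0, t)) :=
    fun t => heig k hk _
  refine ⟨fun t => (h k)⁻¹ * D1 t, fun y hy => ?_, fun y hy => ?_⟩
  · have h3 := ((hd y hy).1).const_mul (h k)⁻¹
    refine h3.congr_of_eventuallyEq (Eventually.of_forall fun t => ?_)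
    show W (ofPair (0, t)) = (h k)⁻¹ * ∫ q, (k (cu (ofPair (0, t)) q) : ℂ) * W q ∂μ
    rw [hA t, inv_mul_cancel_left₀ hk0]
  · have h4 := ((hd y hy).2).const_mul (h k)⁻¹
    refine h4.congr_deriv ?_
    -- the two horizontal directions
    have hP : ofPair ((0 : ℂ), y) = mk 0 y hy := ofPair_of_pos (p := ((0 : ℂ), y)) hy
    have hy0 : y ≠ 0 := hy.ne'
    have hre : ∫ q, ((deriv (deriv k) (cu (mk ((0 : ℝ) : ℂ) y hy) q) *
        ((0 - q.z.re) / (y * q.y)) ^ 2 + deriv k (cu (mk ((0 : ℝ) : ℂ) y hy) q) *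
        (1 / (y * q.y)) : ℝ) : ℂ) * W q ∂μ =
        -((4 * Real.pi * c.re) ^ 2 : ℝ) * (h k * W (ofPair (0, y))) := by
      refine integral_dir (γ := fun t : ℝ => mk (t : ℂ) y hy)
        (U1 := fun t q => (t - q.z.re) / (y * q.y)) (U2 := fun t q => 1 / (y * q.y)) ?_
        (fun t q => hasDerivAt_cu_re y hy q t) ?_ ?_ ?_ hk hW ?_
      · exact continuous_iff.mpr ⟨by simp only [z_mk]; fun_prop, by simp only [y_mk]; fun_prop⟩
      · intro t q
        exact ((hasDerivAt_id t).sub_const _).div_const _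
      · exact Continuous.div (by fun_prop) (by fun_prop) fun p => mul_ne_zero hy0 p.2.y_ne
      · exact Continuous.div (by fun_prop) (by fun_prop) fun p => mul_ne_zero hy0 p.2.y_ne
      · intro t
        rw [heig k hk, hθ (mk (t : ℂ) y hy), z_mk, y_mk, ech_re]
        ring
    have him : ∫ q, ((deriv (deriv k) (cu (mk ((0 : ℝ) * I : ℂ) y hy) q) *
        ((0 - q.z.im) / (y * q.y)) ^ 2 + deriv k (cu (mk ((0 : ℝ) * I : ℂ) y hy) q) *
        (1 / (y * q.y)) : ℝ) : ℂ) * W q ∂μ =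
        -((-(4 * Real.pi * c.im)) ^ 2 : ℝ) * (h k * W (ofPair (0, y))) := by
      refine integral_dir (γ := fun t : ℝ => mk (t * I : ℂ) y hy)
        (U1 := fun t q => (t - q.z.im) / (y * q.y)) (U2 := fun t q => 1 / (y * q.y)) ?_
        (fun t q => hasDerivAt_cu_im y hy q t) ?_ ?_ ?_ hk hW ?_
      · exact continuous_iff.mpr ⟨by simp only [z_mk]; fun_prop, by simp only [y_mk]; fun_prop⟩
      · intro t q
        exact ((hasDerivAt_id t).sub_const _).div_const _
      · exact Continuous.div (by fun_prop) (by fun_prop) fun p => mul_ne_zero hy0 p.2.y_ne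
      · exact Continuous.div (by fun_prop) (by fun_prop) fun p => mul_ne_zero hy0 p.2.y_ne
      · intro t
        rw [heig k hk, hθ (mk (t * I : ℂ) y hy), z_mk, y_mk, ech_im]
        ring
    simp only [ofReal_zero, zero_mul] at hre him
    -- the total
    obtain ⟨C1, hC1⟩ := hk.deriv.supp
    obtain ⟨C2, hC2⟩ := hk.deriv.deriv.supp
    have hk1 : Continuous (deriv k) := hk.deriv.continuous
    have hk2 : Continuous (deriv (deriv k)) := hk.deriv.deriv.continuous
    set P : H3 := mk 0 y hy with hPdef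
    have hT := isCompact_ball P (max C1 C2)
    have s1 : ∀ q, q ∉ {q | cu P q ≤ max C1 C2} → deriv k (cu P q) = 0 := fun q hq =>
      hC1 _ ((le_max_left _ _).trans (not_le.mp hq).le)
    have s2 : ∀ q, q ∉ {q | cu P q ≤ max C1 C2} → deriv (deriv k) (cu P q) = 0 := fun q hq =>
      hC2 _ ((le_max_right _ _).trans (not_le.mp hq).le)
    have k1c : Continuous fun q => deriv k (cu P q) :=
      Continuous.comp (g := deriv k) hk1 (continuous_cu_right P)
    have k2c : Continuous fun q => deriv (deriv k) (cu P q) :=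
      Continuous.comp (g := deriv (deriv k)) hk2 (continuous_cu_right P)
    have cuc := continuous_cu_right P
    have yc : Continuous fun q : H3 => 1 / (y * q.y) :=
      Continuous.div (by fun_prop) (by fun_prop) fun q => mul_ne_zero hy0 q.y_ne
    have yc' : Continuous fun q : H3 => 1 / q.y :=
      Continuous.div (by fun_prop) (by fun_prop) fun q => q.y_ne
    have rc1 : Continuous fun q : H3 => (0 - q.z.re) / (y * q.y) :=
      Continuous.div (by fun_prop) (by fun_prop) fun q => mul_ne_zero hy0 q.y_ne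
    have rc2 : Continuous fun q : H3 => (0 - q.z.im) / (y * q.y) :=
      Continuous.div (by fun_prop) (by fun_prop) fun q => mul_ne_zero hy0 q.y_ne
    have u1c : Continuous fun q : H3 => 1 / q.y - cu P q / y := yc'.sub (cuc.div_const y)
    have u2c : Continuous fun q : H3 => -1 / (y * q.y) + 2 * cu P q / y ^ 2 := by
      refine Continuous.add ?_ ((continuous_const.mul cuc).div_const _)
      exact Continuous.div (by fun_prop) (by fun_prop) fun q => mul_ne_zero hy0 q.y_ne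
    have i1 : Integrable (fun q => ((deriv (deriv k) (cu P q) * ((0 - q.z.re) / (y * q.y)) ^ 2 +
        deriv k (cu P q) * (1 / (y * q.y)) : ℝ) : ℂ) * W q) μ := by
      refine integrable_of_support hT ((continuous_ofReal.comp
        ((k2c.mul (rc1.pow 2)).add (k1c.mul yc))).mul hW) fun q hq => ?_
      rw [s1 q hq, s2 q hq]
      simp
    have i2 : Integrable (fun q => ((deriv (deriv k) (cu P q) * ((0 - q.z.im) / (y * q.y)) ^ 2 +
        deriv k (cu P q) * (1 / (y * q.y)) : ℝ) : ℂ) * W q) μ := by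
      refine integrable_of_support hT ((continuous_ofReal.comp
        ((k2c.mul (rc2.pow 2)).add (k1c.mul yc))).mul hW) fun q hq => ?_
      rw [s1 q hq, s2 q hq]
      simp
    have i3 : Integrable (fun q => ((deriv (deriv k) (cu P q) * (1 / q.y - cu P q / y) ^ 2 +
        deriv k (cu P q) * (-1 / (y * q.y) + 2 * cu P q / y ^ 2) : ℝ) : ℂ) * W q) μ := by
      refine integrable_of_support hT ((continuous_ofReal.comp
        ((k2c.mul (u1c.pow 2)).add (k1c.mul u2c))).mul hW) fun q hq => ?_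
      rw [s1 q hq, s2 q hq]
      simp
    have i4 : Integrable (fun q => ((deriv k (cu P q) * (1 / q.y - cu P q / y) : ℝ) : ℂ) * W q)
        μ := by
      refine integrable_of_support hT ((continuous_ofReal.comp (k1c.mul u1c)).mul hW)
        fun q hq => ?_
      rw [s1 q hq]
      simp
    have htot := heig (radD k) hk.radD P
    have hcomb := integral_combination i1 i2 i3 i4 ((y : ℂ) ^ 2) (y : ℂ)
    have hpt : (fun q => ((radD k (cu P q) : ℝ) : ℂ) * W q) = fun q =>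
        (y : ℂ) ^ 2 * (((deriv (deriv k) (cu P q) * ((0 - q.z.re) / (y * q.y)) ^ 2 +
          deriv k (cu P q) * (1 / (y * q.y)) : ℝ) : ℂ) * W q +
        ((deriv (deriv k) (cu P q) * ((0 - q.z.im) / (y * q.y)) ^ 2 +
          deriv k (cu P q) * (1 / (y * q.y)) : ℝ) : ℂ) * W q +
        ((deriv (deriv k) (cu P q) * (1 / q.y - cu P q / y) ^ 2 +
          deriv k (cu P q) * (-1 / (y * q.y) + 2 * cu P q / y ^ 2) : ℝ) : ℂ) * W q) -
        (y : ℂ) * (((deriv k (cu P q) * (1 / q.y - cu P q / y) : ℝ) : ℂ) * W q) := by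
      funext q
      rw [hPdef, radD_eq hy q]
      push_cast
      ring
    rw [hpt, hcomb, hre, him] at htot
    have hn : ((‖c‖ : ℝ) : ℂ) ^ 2 = ((c.re : ℝ) : ℂ) ^ 2 + ((c.im : ℝ) : ℂ) ^ 2 := by
      have := Complex.sq_norm c
      rw [normSq_apply] at this
      have h5 := congrArg (fun x : ℝ => (x : ℂ)) this
      push_cast at h5
      rw [h5]
      ring
    have hw : W P = W (ofPair (0, y)) := by rw [hP]
    rw [hw] at htot
    show (h k)⁻¹ * ∫ q, ((deriv (deriv k) (cu (ofPair (0, y)) q) *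
      (1 / q.y - cu (ofPair (0, y)) q / y) ^ 2 + deriv k (cu (ofPair (0, y)) q) *
      (-1 / (y * q.y) + 2 * cu (ofPair (0, y)) q / y ^ 2) : ℝ) : ℂ) * W q ∂μ =
      (h k)⁻¹ * D1 y / y + (((4 * Real.pi * ‖c‖ : ℝ) : ℂ) ^ 2 + (ν ^ 2 - 1) / (y : ℂ) ^ 2) *
        W (ofPair (0, y))
    have hD1y : D1 y = ∫ q, ((deriv k (cu P q) * (1 / q.y - cu P q / y) : ℝ) : ℂ) * W q ∂μ := by
      rw [hD1]
      simp only [hP]
    rw [hP, hD1y]
    rw [hP] at htot
    generalize (∫ q, ((deriv (deriv k) (cu P q) * (1 / q.y - cu P q / y) ^ 2 +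
          deriv k (cu P q) * (-1 / (y * q.y) + 2 * cu P q / y ^ 2) : ℝ) : ℂ) * W q ∂μ) = D2 at *
    generalize (∫ q, ((deriv k (cu P q) * (1 / q.y - cu P q / y) : ℝ) : ℂ) * W q ∂μ) = D at *
    have hyc : (y : ℂ) ≠ 0 := by exact_mod_cast hy0
    rw [hν]
    push_cast at htot ⊢
    clear * - htot hn hk0 hyc
    generalize W P = w at *
    generalize h (radD k) = r at *
    generalize h k = κ at *
    field_simp
    linear_combination htot - (κ * (y : ℂ) ^ 2 * 16 * (Real.pi : ℂ) ^ 2 * w) * hn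

end Fermat.Agent.LT.Kap
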